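import Mathlib
import Fermat.Prelude.Def_GaloisRep_Residual

/-!
# S53 (G2), part 3: Burnside's theorem for an absolutely irreducible 2-dimensional representation

`FA_S53_burnside`: if `ρbar` is absolutely irreducible, the matrices of `ρbar` in any basis span
`M₂(k)`.
-/

set_option autoImplicit false
set_option linter.unusedSimpArgs false
set_option linter.unusedVariables false
set_option linter.unusedSectionVars false

open Matrix

section aux

variable {L : Type*} [Field L]

/-- All `2 × 2` minors of a singular `2 × 2` matrix vanish. -/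
theorem FA_S53_minor_eq (D : Matrix (Fin 2) (Fin 2) L) (hdet : D 0 0 * D 1 1 - D 0 1 * D 1 0 = 0)
    (i j i₀ j₀ : Fin 2) : D i j * D i₀ j₀ = D i j₀ * D i₀ j := by
  fin_cases i <;> fin_cases j <;> fin_cases i₀ <;> fin_cases j₀ <;>
    simp only [Fin.zero_eta, Fin.mk_one, Fin.isValue] <;>
    first | ring1 | linear_combination hdet | linear_combination -hdet

/-- The pairing `⟨D, Y⟩ = ∑ i j, D i j * Y i j`. -/
def FA_S53_pair (D Y : Matrix (Fin 2) (Fin 2) L) : L := ∑ i, ∑ j, D i j * Y i j

theorem FA_S53_pair_transpose_mul (X D Y : Matrix (Fin 2) (Fin 2) L) :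
    FA_S53_pair (Xᵀ * D) Y = FA_S53_pair D (X * Y) := by
  simp only [FA_S53_pair, Matrix.mul_apply, Fin.sum_univ_two, Matrix.transpose_apply]
  ring

theorem FA_S53_pair_sub (D D' Y : Matrix (Fin 2) (Fin 2) L) :
    FA_S53_pair (D - D') Y = FA_S53_pair D Y - FA_S53_pair D' Y := by
  simp only [FA_S53_pair, Fin.sum_univ_two, Matrix.sub_apply]
  ring

theorem FA_S53_pair_smul (a : L) (D Y : Matrix (Fin 2) (Fin 2) L) :
    FA_S53_pair (a • D) Y = a * FA_S53_pair D Y := by
  simp only [FA_S53_pair, Fin.sum_univ_two, Matrix.smul_apply, smul_eq_mul]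
  ring

variable (S : Set (Matrix (Fin 2) (Fin 2) L))

/-- Step A: a nonzero singular matrix orthogonal to a multiplicatively closed set `S ∋ 1`
produces a proper nonzero `S`-stable subspace. -/
theorem FA_S53_burnside_singular (h1 : (1 : Matrix (Fin 2) (Fin 2) L) ∈ S)
    (hmul : ∀ X ∈ S, ∀ Y ∈ S, X * Y ∈ S)
    (hirr : ∀ W : Submodule L (Fin 2 → L), (∀ Y ∈ S, ∀ x ∈ W, Y.mulVec x ∈ W) → W = ⊥ ∨ W = ⊤)
    (D : Matrix (Fin 2) (Fin 2) L) (hD : D ≠ 0) (hdet : D 0 0 * D 1 1 - D 0 1 * D 1 0 = 0)
    (hann : ∀ Y ∈ S, FA_S53_pair D Y = 0) : False := by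
  obtain ⟨i₀, j₀, hij⟩ : ∃ i₀ j₀, D i₀ j₀ ≠ 0 := by
    by_contra h
    push Not at h
    exact hD (by ext i j; exact h i j)
  -- the vector `v` (row `i₀` of `D`) and the functional `u` (column `j₀`)
  let v : Fin 2 → L := fun j => D i₀ j
  let u : Fin 2 → L := fun i => D i j₀
  have huv : ∀ Y ∈ S, u ⬝ᵥ (Y.mulVec v) = 0 := by
    intro Y hY
    have h := hann Y hY
    have key : u ⬝ᵥ (Y.mulVec v) = D i₀ j₀ * FA_S53_pair D Y := by
      simp only [FA_S53_pair, dotProduct, Matrix.mulVec, Fin.sum_univ_two, u, v]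
      have m := FA_S53_minor_eq D hdet
      linear_combination (Y 0 0) * m 0 j₀ i₀ 0 + (Y 0 1) * m 0 j₀ i₀ 1 + (Y 1 0) * m 1 j₀ i₀ 0
        + (Y 1 1) * m 1 j₀ i₀ 1
    rw [key, h, mul_zero]
  let W : Submodule L (Fin 2 → L) := Submodule.span L {x | ∃ Y ∈ S, x = Y.mulVec v}
  have hWstab : ∀ Y ∈ S, ∀ x ∈ W, Y.mulVec x ∈ W := by
    intro Y hY x hx
    induction hx using Submodule.span_induction with
    | mem x hx =>
      obtain ⟨Z, hZ, rfl⟩ := hx
      apply Submodule.subset_span
      exact ⟨Y * Z, hmul Y hY Z hZ, by rw [Matrix.mulVec_mulVec]⟩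
    | zero => rw [Matrix.mulVec_zero]; exact W.zero_mem
    | add x y _ _ hx hy => rw [Matrix.mulVec_add]; exact W.add_mem hx hy
    | smul a x _ hx => rw [Matrix.mulVec_smul]; exact W.smul_mem a hx
  have hvW : v ∈ W := Submodule.subset_span ⟨1, h1, by rw [Matrix.one_mulVec]⟩
  have hWker : ∀ x ∈ W, u ⬝ᵥ x = 0 := by
    intro x hx
    induction hx using Submodule.span_induction with
    | mem x hx =>
      obtain ⟨Z, hZ, rfl⟩ := hx
      exact huv Z hZ
    | zero => simp
    | add x y _ _ hx hy => rw [dotProduct_add, hx, hy, add_zero]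
    | smul a x _ hx => rw [dotProduct_smul, hx, smul_zero]
  rcases hirr W hWstab with h | h
  · have : v = 0 := by
      have := hvW
      rw [h] at this
      simpa using this
    exact hij (congrFun this j₀)
  · have hmem : (Pi.single i₀ 1 : Fin 2 → L) ∈ W := by rw [h]; trivial
    have := hWker _ hmem
    rw [dotProduct_single, mul_one] at this
    exact hij this

/-- Step B: over an algebraically closed field, no nonzero matrix is orthogonal to a
multiplicatively closed set `S ∋ 1` acting irreducibly. -/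
theorem FA_S53_burnside_aux [IsAlgClosed L] (h1 : (1 : Matrix (Fin 2) (Fin 2) L) ∈ S)
    (hmul : ∀ X ∈ S, ∀ Y ∈ S, X * Y ∈ S)
    (hirr : ∀ W : Submodule L (Fin 2 → L), (∀ Y ∈ S, ∀ x ∈ W, Y.mulVec x ∈ W) → W = ⊥ ∨ W = ⊤)
    (D : Matrix (Fin 2) (Fin 2) L) (hD : D ≠ 0)
    (hann : ∀ Y ∈ S, FA_S53_pair D Y = 0) : False := by
  by_cases hdet : D 0 0 * D 1 1 - D 0 1 * D 1 0 = 0
  · exact FA_S53_burnside_singular S h1 hmul hirr D hD hdet hann
  -- every element of `S` is scalar
  have hscal : ∀ X ∈ S, ∃ l : L, X = l • (1 : Matrix (Fin 2) (Fin 2) L) := by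
    intro X hX
    -- an eigenvalue of `X`
    let p : Polynomial L := Polynomial.X ^ 2 - Polynomial.C (X 0 0 + X 1 1) * Polynomial.X
      + Polynomial.C (X 0 0 * X 1 1 - X 0 1 * X 1 0)
    have hp : p.degree ≠ 0 := by
      have : p = Polynomial.X ^ 2 + (Polynomial.C (-(X 0 0 + X 1 1)) * Polynomial.X
          + Polynomial.C (X 0 0 * X 1 1 - X 0 1 * X 1 0)) := by
        simp only [p, Polynomial.C_neg]; ring
      have hm : p.Monic := by
        rw [this]
        apply Polynomial.monic_X_pow_add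
        exact lt_of_le_of_lt Polynomial.degree_linear_le (by norm_num)
      have hd : p.degree = 2 := by
        rw [this, Polynomial.degree_add_eq_left_of_degree_lt, Polynomial.degree_X_pow]
        · rfl
        · rw [Polynomial.degree_X_pow]
          exact lt_of_le_of_lt Polynomial.degree_linear_le (by norm_num)
      rw [hd]; norm_num
    obtain ⟨l, hl⟩ := IsAlgClosed.exists_root p hp
    have hleq : l ^ 2 - (X 0 0 + X 1 1) * l + (X 0 0 * X 1 1 - X 0 1 * X 1 0) = 0 := by
      have := hl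
      simp only [Polynomial.IsRoot, p, Polynomial.eval_add, Polynomial.eval_sub,
        Polynomial.eval_pow, Polynomial.eval_X, Polynomial.eval_mul, Polynomial.eval_C] at this
      exact this
    -- `D₁ = (Xᵀ - l) D` is singular and orthogonal to `S`
    let D₁ : Matrix (Fin 2) (Fin 2) L := Xᵀ * D - l • D
    have hann₁ : ∀ Y ∈ S, FA_S53_pair D₁ Y = 0 := by
      intro Y hY
      rw [FA_S53_pair_sub, FA_S53_pair_transpose_mul, FA_S53_pair_smul, hann Y hY,
        hann _ (hmul X hX Y hY)]
      ring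
    have hdet₁ : D₁ 0 0 * D₁ 1 1 - D₁ 0 1 * D₁ 1 0 = 0 := by
      simp only [D₁, Matrix.sub_apply, Matrix.mul_apply, Fin.sum_univ_two, Matrix.transpose_apply,
        Matrix.smul_apply, smul_eq_mul]
      linear_combination (D 0 0 * D 1 1 - D 0 1 * D 1 0) * hleq
    have hD₁ : D₁ = 0 := by
      by_contra h
      exact FA_S53_burnside_singular S h1 hmul hirr D₁ h hdet₁ hann₁
    -- hence `Xᵀ = l`
    have e := fun i j => congrFun (congrFun hD₁ i) j
    simp only [D₁, Matrix.sub_apply, Matrix.mul_apply, Fin.sum_univ_two, Matrix.transpose_apply,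
      Matrix.smul_apply, smul_eq_mul, Matrix.zero_apply] at e
    have e00 := e 0 0
    have e01 := e 0 1
    have e10 := e 1 0
    have e11 := e 1 1
    have hδ : D 0 0 * D 1 1 - D 0 1 * D 1 0 ≠ 0 := hdet
    refine ⟨l, ?_⟩
    ext i j
    fin_cases i <;> fin_cases j <;>
      simp only [Fin.zero_eta, Fin.mk_one, Fin.isValue, Matrix.smul_apply, Matrix.one_apply_eq,
        ne_eq, not_false_eq_true, Matrix.one_apply_ne, zero_ne_one, one_ne_zero, smul_eq_mul,
        mul_one, mul_zero]
    · apply mul_right_cancel₀ hδ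
      linear_combination D 1 1 * e00 - D 1 0 * e01
    · apply mul_right_cancel₀ hδ
      linear_combination D 1 1 * e10 - D 1 0 * e11
    · apply mul_right_cancel₀ hδ
      linear_combination D 0 0 * e01 - D 0 1 * e00
    · apply mul_right_cancel₀ hδ
      linear_combination D 0 0 * e11 - D 0 1 * e10
  -- so the first coordinate line is stable
  let W : Submodule L (Fin 2 → L) := Submodule.span L {(Pi.single 0 1 : Fin 2 → L)}
  have hWstab : ∀ Y ∈ S, ∀ x ∈ W, Y.mulVec x ∈ W := by
    intro Y hY x hx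
    obtain ⟨l, rfl⟩ := hscal Y hY
    rw [Matrix.smul_mulVec, Matrix.one_mulVec]
    exact W.smul_mem l hx
  rcases hirr W hWstab with h | h
  · have hmem : (Pi.single 0 1 : Fin 2 → L) ∈ W := Submodule.subset_span rfl
    rw [h] at hmem
    have := congrFun ((Submodule.mem_bot L).mp hmem) 0
    simp at this
  · have hmem : (Pi.single 1 1 : Fin 2 → L) ∈ W := by rw [h]; trivial
    obtain ⟨a, ha⟩ := Submodule.mem_span_singleton.mp hmem
    have := congrFun ha 1
    simp at this

end aux

section main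

open scoped TensorProduct

variable {k : Type} [Field k]

/-- **Burnside** for an absolutely irreducible 2-dimensional residual representation:
its matrices (in any basis) span the full matrix algebra. -/
theorem FA_S53_burnside (ρbar : ResidualGaloisRep k) (habs : ρbar.IsAbsolutelyIrreducible)
    (b : Module.Basis (Fin 2) k ρbar.V) :
    Submodule.span k (Set.range fun σ => LinearMap.toMatrix b b (ρbar.ρ σ)) = ⊤ := by
  classical
  by_contra hne
  have hlt : Submodule.span k (Set.range fun σ => LinearMap.toMatrix b b (ρbar.ρ σ)) < ⊤ :=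
    lt_top_iff_ne_top.mpr hne
  obtain ⟨f, hf0, hfmap⟩ := Submodule.exists_dual_map_eq_bot_of_lt_top hlt inferInstance
  have hfX : ∀ σ, f (LinearMap.toMatrix b b (ρbar.ρ σ)) = 0 := by
    intro σ
    have hmem : f (LinearMap.toMatrix b b (ρbar.ρ σ)) ∈
        (Submodule.span k (Set.range fun σ => LinearMap.toMatrix b b (ρbar.ρ σ))).map f :=
      Submodule.mem_map_of_mem (Submodule.subset_span ⟨σ, rfl⟩)
    rw [hfmap] at hmem
    exact (Submodule.mem_bot k).mp hmem
  let C : Matrix (Fin 2) (Fin 2) k := fun i j => f (Matrix.single i j 1)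
  have hfC : ∀ X : Matrix (Fin 2) (Fin 2) k, f X = ∑ i, ∑ j, C i j * X i j := by
    intro X
    conv_lhs => rw [Matrix.matrix_eq_sum_single X]
    rw [map_sum]
    refine Finset.sum_congr rfl fun i _ => ?_
    rw [map_sum]
    refine Finset.sum_congr rfl fun j _ => ?_
    have : Matrix.single i j (X i j) = X i j • Matrix.single i j (1 : k) := by
      rw [Matrix.smul_single, smul_eq_mul, mul_one]
    rw [this, map_smul, smul_eq_mul, mul_comm]
  have hC : C ≠ 0 := by
    intro h
    apply hf0
    ext X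
    rw [hfC X]
    simp [h]
  let L := AlgebraicClosure k
  let ι : k →+* L := algebraMap k L
  let S : Set (Matrix (Fin 2) (Fin 2) L) :=
    {Y | ∃ σ, Y = (LinearMap.toMatrix b b (ρbar.ρ σ)).map ι}
  have h1 : (1 : Matrix (Fin 2) (Fin 2) L) ∈ S := by
    refine ⟨1, ?_⟩
    rw [map_one, Module.End.one_eq_id, LinearMap.toMatrix_id, Matrix.map_one _ (map_zero ι)
      (map_one ι)]
  have hmul : ∀ X ∈ S, ∀ Y ∈ S, X * Y ∈ S := by
    rintro X ⟨σ, rfl⟩ Y ⟨τ, rfl⟩
    refine ⟨σ * τ, ?_⟩
    rw [map_mul, Module.End.mul_eq_comp, LinearMap.toMatrix_comp b b b, Matrix.map_mul]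
  let b' : Module.Basis (Fin 2) L (L ⊗[k] ρbar.V) := Algebra.TensorProduct.basis L b
  have hirr : ∀ W : Submodule L (Fin 2 → L),
      (∀ Y ∈ S, ∀ x ∈ W, Y.mulVec x ∈ W) → W = ⊥ ∨ W = ⊤ := by
    intro W hW
    let W' : Submodule L (L ⊗[k] ρbar.V) := W.comap (b'.equivFun : (L ⊗[k] ρbar.V) →ₗ[L] (Fin 2 → L))
    have hW' : ∀ σ : AlgebraicClosure ℚ ≃ₐ[ℚ] AlgebraicClosure ℚ, ∀ x ∈ W',
        (ρbar.baseChange L).ρ σ x ∈ W' := by
      intro σ x hx
      show b'.equivFun ((ρbar.ρ σ).baseChange L x) ∈ W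
      have h2 := hW _ ⟨σ, rfl⟩ _ hx
      have h3 : ((LinearMap.toMatrix b b (ρbar.ρ σ)).map ι).mulVec (b'.equivFun x)
          = b'.equivFun ((ρbar.ρ σ).baseChange L x) := by
        have h4 := LinearMap.toMatrix_mulVec_repr b' b' ((ρbar.ρ σ).baseChange L) x
        rw [LinearMap.toMatrix_baseChange] at h4
        exact h4
      rw [← h3]
      exact h2
    have hsurj : Function.Surjective
        (b'.equivFun : (L ⊗[k] ρbar.V) →ₗ[L] (Fin 2 → L)) := b'.equivFun.surjective
    rcases habs W' hW' with h | h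
    · left
      rw [← Submodule.map_comap_eq_of_surjective hsurj W]
      show Submodule.map _ W' = ⊥
      rw [h, Submodule.map_bot]
    · right
      rw [← Submodule.map_comap_eq_of_surjective hsurj W]
      show Submodule.map _ W' = ⊤
      rw [h, Submodule.map_top, LinearMap.range_eq_top]
      exact hsurj
  refine FA_S53_burnside_aux S h1 hmul hirr (C.map ι) ?_ ?_
  · intro h
    apply hC
    ext i j
    have := congrFun (congrFun h i) j
    rw [Matrix.map_apply, Matrix.zero_apply] at this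
    exact (map_eq_zero ι).mp this
  · rintro Y ⟨σ, rfl⟩
    have := hfX σ
    rw [hfC] at this
    have h2 := congrArg ι this
    rw [map_zero, map_sum] at h2
    simp only [map_sum, map_mul] at h2
    simpa [FA_S53_pair, Matrix.map_apply] using h2

end main
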