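import Mathlib

/-!
# S53 (A): compactness of a complete ring with finite quotients

* `FA_S53.FA_S53_directed_finite`: a directed family of subsets of a finite type has a least member.
* `FA_S53.FA_S53_compact`: in an `I`-adically complete ring with all `S ⧸ I ^ n` finite, a directed
  family of nonempty `I`-adically closed subsets has a common point.
* `FA_S53.FA_S53_compact_ideal`: a directed family of ideals whose intersection lies in an open ideal
  `Q` has a member inside `Q`.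
-/

set_option autoImplicit false

namespace FA_S53

/-- A directed family of subsets of a finite type has a least member. -/
theorem FA_S53_directed_finite {F : Type*} [Finite F] {T : Type*} [Nonempty T] (P : T → Set F)
    (hdir : ∀ t₁ t₂, ∃ t₃, P t₃ ⊆ P t₁ ∩ P t₂) : ∃ t₀, ∀ t, P t₀ ⊆ P t := by
  classical
  -- choose `t₀` minimising the cardinality
  obtain ⟨t₀, ht₀⟩ : ∃ t₀ : T, ∀ t, (P t₀).ncard ≤ (P t).ncard := by
    have hwf := (measure fun t : T => (P t).ncard).wf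
    obtain ⟨t₀, -, hmin⟩ := hwf.has_min Set.univ ⟨Classical.arbitrary T, trivial⟩
    refine ⟨t₀, fun t => ?_⟩
    by_contra hlt
    exact hmin t trivial (not_le.mp hlt)
  refine ⟨t₀, fun t => ?_⟩
  obtain ⟨t₃, h₃⟩ := hdir t₀ t
  have h₃₀ : P t₃ ⊆ P t₀ := fun x hx => (h₃ hx).1
  have heq : P t₃ = P t₀ :=
    Set.eq_of_subset_of_ncard_le h₃₀ (ht₀ t₃) (Set.toFinite _)
  intro x hx
  exact (h₃ (heq ▸ hx)).2

/-- Approximation step for `FA_S53_compact`. -/
theorem FA_S53_compact_step {S : Type*} [CommRing S] (I : Ideal S)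
    (hfin : ∀ n, Finite (S ⧸ I ^ n)) {T : Type*} [Nonempty T] (C : T → Set S)
    (hdir : ∀ t₁ t₂, ∃ t₃, C t₃ ⊆ C t₁ ∩ C t₂) (n : ℕ) (s : S)
    (hs : ∀ t, ∃ c ∈ C t, s - c ∈ I ^ n) :
    ∃ s' : S, (∀ t, ∃ c ∈ C t, s' - c ∈ I ^ (n + 1)) ∧ s' - s ∈ I ^ n := by
  have := hfin (n + 1)
  let P : T → Set (S ⧸ I ^ (n + 1)) := fun t =>
    {e | ∃ c ∈ C t, Ideal.Quotient.mk (I ^ (n + 1)) c = e ∧ s - c ∈ I ^ n}
  have hP : ∀ t₁ t₂, ∃ t₃, P t₃ ⊆ P t₁ ∩ P t₂ := by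
    intro t₁ t₂
    obtain ⟨t₃, h₃⟩ := hdir t₁ t₂
    refine ⟨t₃, ?_⟩
    rintro e ⟨c, hc, rfl, hsc⟩
    exact ⟨⟨c, (h₃ hc).1, rfl, hsc⟩, ⟨c, (h₃ hc).2, rfl, hsc⟩⟩
  obtain ⟨t₀, ht₀⟩ := FA_S53_directed_finite P hP
  obtain ⟨c₀, hc₀, hsc₀⟩ := hs t₀
  have hmem : Ideal.Quotient.mk (I ^ (n + 1)) c₀ ∈ P t₀ := ⟨c₀, hc₀, rfl, hsc₀⟩
  refine ⟨c₀, fun t => ?_, ?_⟩
  · obtain ⟨c, hc, hce, -⟩ := ht₀ t hmem
    refine ⟨c, hc, ?_⟩
    have := (Ideal.Quotient.eq).mp hce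
    have h2 : c₀ - c = -(c - c₀) := by ring
    rw [h2]
    exact (I ^ (n + 1)).neg_mem this
  · have h2 : c₀ - s = -(s - c₀) := by ring
    rw [h2]
    exact (I ^ n).neg_mem hsc₀

/-- Compactness of a complete ring with finite quotients: a directed family of nonempty
`I`-adically closed subsets has a common point. -/
theorem FA_S53_compact {S : Type*} [CommRing S] (I : Ideal S) [IsAdicComplete I S]
    (hfin : ∀ n, Finite (S ⧸ I ^ n)) {T : Type*} [Nonempty T] (C : T → Set S)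
    (hne : ∀ t, (C t).Nonempty) (hdir : ∀ t₁ t₂, ∃ t₃, C t₃ ⊆ C t₁ ∩ C t₂)
    (hclosed : ∀ t s, (∀ n, ∃ c ∈ C t, s - c ∈ I ^ n) → s ∈ C t) : ∃ s, ∀ t, s ∈ C t := by
  classical
  -- the sets `D n`
  let D : ℕ → Set S := fun n => {s | ∀ t, ∃ c ∈ C t, s - c ∈ I ^ n}
  have hD0 : (0 : S) ∈ D 0 := by
    intro t
    obtain ⟨c, hc⟩ := hne t
    exact ⟨c, hc, by simp⟩
  have hstep : ∀ n (s : {s // s ∈ D n}), ∃ s' : {s // s ∈ D (n + 1)}, (s' : S) - s ∈ I ^ n := by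
    rintro n ⟨s, hs⟩
    obtain ⟨s', hs', hss'⟩ := FA_S53_compact_step I hfin C hdir n s hs
    exact ⟨⟨s', hs'⟩, hss'⟩
  choose nxt hnxt using hstep
  -- the sequence
  let seq : ∀ n, {s // s ∈ D n} := fun n =>
    Nat.rec (motive := fun n => {s // s ∈ D n}) ⟨0, hD0⟩ (fun n s => nxt n s) n
  have hseq_succ : ∀ n, (seq (n + 1)).1 - (seq n).1 ∈ I ^ n :=
    fun n => hnxt n (seq n)
  let f : ℕ → S := fun n => (seq n).1
  have hf_succ : ∀ n, f (n + 1) - f n ∈ I ^ n := hseq_succ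
  have hfD : ∀ n, f n ∈ D n := fun n => (seq n).2
  have hcauchy : ∀ m k, f (m + k) - f m ∈ I ^ m := by
    intro m k
    induction k with
    | zero => simp
    | succ k ih =>
      have h1 : f (m + (k + 1)) - f m = (f (m + k + 1) - f (m + k)) + (f (m + k) - f m) := by
        rw [← add_assoc]; ring
      rw [h1]
      exact (I ^ m).add_mem (Ideal.pow_le_pow_right (Nat.le_add_right m k) (hf_succ (m + k))) ih
  have hprec : ∃ L : S, ∀ n, f n ≡ L [SMOD (I ^ n • ⊤ : Submodule S S)] := by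
    apply IsPrecomplete.prec (IsAdicComplete.toIsPrecomplete (I := I) (M := S))
    intro m n hmn
    obtain ⟨k, rfl⟩ := Nat.exists_eq_add_of_le hmn
    rw [SModEq.sub_mem]
    have h := hcauchy m k
    have h2 : f m - f (m + k) = -(f (m + k) - f m) := by ring
    rw [h2]
    simpa using (I ^ m).neg_mem h
  obtain ⟨L, hL⟩ := hprec
  have hL' : ∀ n, L - f n ∈ I ^ n := by
    intro n
    have h := hL n
    rw [SModEq.sub_mem] at h
    have h2 : L - f n = -(f n - L) := by ring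
    rw [h2]
    have h3 : f n - L ∈ I ^ n := by simpa using h
    exact (I ^ n).neg_mem h3
  refine ⟨L, fun t => hclosed t L fun n => ?_⟩
  obtain ⟨c, hc, hfc⟩ := hfD n t
  refine ⟨c, hc, ?_⟩
  have h2 : L - c = (L - f n) + (f n - c) := by ring
  rw [h2]
  exact (I ^ n).add_mem (hL' n) hfc

/-- Compactness for ideals: if a (downward) directed family of ideals `K t` has
`⨅ t, K t ≤ Q` for an open ideal `Q` (i.e. `I ^ N ≤ Q`), and every `K t` is open, then some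
`K t ≤ Q`. -/
theorem FA_S53_compact_ideal {S : Type*} [CommRing S] (I : Ideal S) [IsAdicComplete I S]
    (hfin : ∀ n, Finite (S ⧸ I ^ n)) {T : Type*} [Nonempty T] (K : T → Ideal S)
    (hdir : ∀ t₁ t₂, ∃ t₃, K t₃ ≤ K t₁ ⊓ K t₂) (hopen : ∀ t, ∃ n, I ^ n ≤ K t)
    (Q : Ideal S) (N : ℕ) (hQ : I ^ N ≤ Q) (hJ : ⨅ t, K t ≤ Q) : ∃ t, K t ≤ Q := by
  classical
  by_contra hcon
  have hcon' : ∀ t, ∃ s ∈ K t, s ∉ Q := by
    intro t
    by_contra h
    exact hcon ⟨t, fun s hs => by_contra fun hsQ => h ⟨s, hs, hsQ⟩⟩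
  obtain ⟨s, hs⟩ := FA_S53_compact I hfin (fun t => {s | s ∈ K t ∧ s ∉ Q})
    (fun t => by obtain ⟨s, h1, h2⟩ := hcon' t; exact ⟨s, h1, h2⟩)
    (fun t₁ t₂ => by
      obtain ⟨t₃, h₃⟩ := hdir t₁ t₂
      exact ⟨t₃, fun s hs => ⟨⟨(h₃ hs.1).1, hs.2⟩, ⟨(h₃ hs.1).2, hs.2⟩⟩⟩)
    (fun t s h => by
      obtain ⟨n, hn⟩ := hopen t
      constructor
      · obtain ⟨c, hc, hsc⟩ := h n
        have h2 : s = (s - c) + c := by ring
        rw [h2]
        exact (K t).add_mem (hn hsc) hc.1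
      · obtain ⟨c, hc, hsc⟩ := h N
        intro hsQ
        apply hc.2
        have h2 : c = s - (s - c) := by ring
        rw [h2]
        exact Q.sub_mem hsQ (hQ hsc))
  have hsJ : s ∈ ⨅ t, K t := by
    rw [Ideal.mem_iInf]
    exact fun t => (hs t).1
  exact (hs (Classical.arbitrary T)).2 (hJ hsJ)

end FA_S53
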