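import Mathlib

/-!
# S53 part (A), file 1: evaluation of power series in complete local algebras

`FA_S53_cl I a ha : MvPowerSeries σ 𝒪 →ₐ[𝒪] A` for an `I`-adically complete `𝒪`-algebra `A`
and `a : σ → A` with values in `I`; it sends `X i` to `a i`, and is the unique such algebra map.
-/

namespace FA_S53

open MvPowerSeries

variable {𝒪 : Type} [CommRing 𝒪] {σ : Type} [Finite σ]
variable {A : Type} [CommRing A] [Algebra 𝒪 A]

omit [Finite σ] in
theorem FA_S53_aeval_mem_pow (I : Ideal A) (a : σ → A) (ha : ∀ i, a i ∈ I) (n : ℕ)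
    (p : MvPolynomial σ 𝒪) (hp : p ∈ MvPolynomial.idealOfVars σ 𝒪 ^ n) :
    MvPolynomial.aeval a p ∈ I ^ n := by
  have h1 : (MvPolynomial.idealOfVars σ 𝒪).map (MvPolynomial.aeval a : MvPolynomial σ 𝒪 →ₐ[𝒪] A) ≤ I := by
    rw [MvPolynomial.idealOfVars, Ideal.map_span, Ideal.span_le]
    rintro _ ⟨_, ⟨i, rfl⟩, rfl⟩
    simpa using ha i
  have h2 : (MvPolynomial.idealOfVars σ 𝒪 ^ n).map (MvPolynomial.aeval a : MvPolynomial σ 𝒪 →ₐ[𝒪] A) ≤ I ^ n := by
    rw [Ideal.map_pow]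
    exact Ideal.pow_right_mono h1 n
  exact h2 (Ideal.mem_map_of_mem _ hp)

/-- The level-`n` evaluation map. -/
noncomputable def FA_S53_evalLevel (I : Ideal A) (a : σ → A) (ha : ∀ i, a i ∈ I) (n : ℕ) :
    MvPowerSeries σ 𝒪 →ₐ[𝒪] A ⧸ I ^ n :=
  (Ideal.Quotient.liftₐ (MvPolynomial.idealOfVars σ 𝒪 ^ n)
      ((Ideal.Quotient.mkₐ 𝒪 (I ^ n)).comp (MvPolynomial.aeval a))
      (fun p hp => by
        show Ideal.Quotient.mk (I ^ n) (MvPolynomial.aeval a p) = 0
        exact Ideal.Quotient.eq_zero_iff_mem.mpr (FA_S53_aeval_mem_pow I a ha n p hp))).comp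
    ((truncTotalAlgHom σ 𝒪 n).restrictScalars 𝒪)

theorem FA_S53_evalLevel_apply (I : Ideal A) (a : σ → A) (ha : ∀ i, a i ∈ I) (n : ℕ)
    (p : MvPowerSeries σ 𝒪) :
    FA_S53_evalLevel I a ha n p =
      Ideal.Quotient.mk (I ^ n) (MvPolynomial.aeval a (truncTotal n p)) := by
  rfl


theorem FA_S53_evalLevel_compat (I : Ideal A) (a : σ → A) (ha : ∀ i, a i ∈ I) {m n : ℕ}
    (hle : m ≤ n) :
    (Ideal.Quotient.factorₐ 𝒪 (Ideal.pow_le_pow_right hle)).comp (FA_S53_evalLevel I a ha n) =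
      FA_S53_evalLevel (𝒪 := 𝒪) I a ha m := by
  refine AlgHom.ext fun p => ?_
  rw [AlgHom.comp_apply, FA_S53_evalLevel_apply, FA_S53_evalLevel_apply]
  show Ideal.Quotient.mk (I ^ m) _ = _
  rw [Ideal.Quotient.eq, ← map_sub]
  exact FA_S53_aeval_mem_pow I a ha m _
    (truncTotal_sub_truncTotal_mem_pow_idealOfVars hle (le_refl m) p)

/-- Evaluation of power series at a family of elements of `I`, `A` being `I`-adically complete. -/
noncomputable def FA_S53_cl (I : Ideal A) [IsAdicComplete I A] (a : σ → A) (ha : ∀ i, a i ∈ I) :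
    MvPowerSeries σ 𝒪 →ₐ[𝒪] A :=
  IsAdicComplete.liftAlgHom I (FA_S53_evalLevel I a ha)
    (fun hle => FA_S53_evalLevel_compat I a ha hle)

theorem FA_S53_mk_cl (I : Ideal A) [IsAdicComplete I A] (a : σ → A) (ha : ∀ i, a i ∈ I) (n : ℕ)
    (p : MvPowerSeries σ 𝒪) :
    Ideal.Quotient.mk (I ^ n) (FA_S53_cl I a ha p) =
      Ideal.Quotient.mk (I ^ n) (MvPolynomial.aeval a (truncTotal n p)) := by
  rw [FA_S53_cl, IsAdicComplete.mk_liftAlgHom, FA_S53_evalLevel_apply]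

theorem FA_S53_cl_coe (I : Ideal A) [IsAdicComplete I A] (a : σ → A) (ha : ∀ i, a i ∈ I)
    (q : MvPolynomial σ 𝒪) :
    FA_S53_cl I a ha (q : MvPowerSeries σ 𝒪) = MvPolynomial.aeval a q := by
  have hH : IsHausdorff I A := inferInstance
  rw [← sub_eq_zero]
  refine hH.haus _ fun n => ?_
  rw [SModEq.zero, smul_eq_mul, Ideal.mul_top, ← Ideal.Quotient.eq_zero_iff_mem, map_sub,
    FA_S53_mk_cl, ← map_sub, Ideal.Quotient.eq_zero_iff_mem, ← map_sub]
  refine FA_S53_aeval_mem_pow I a ha n _ ?_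
  refine (MvPolynomial.mem_pow_idealOfVars_iff' ..).mpr fun x hx => ?_
  rw [MvPolynomial.coeff_sub, coeff_truncTotal _ hx, MvPolynomial.coeff_coe, sub_self]

theorem FA_S53_cl_X (I : Ideal A) [IsAdicComplete I A] (a : σ → A) (ha : ∀ i, a i ∈ I) (i : σ) :
    FA_S53_cl (𝒪 := 𝒪) I a ha (X i) = a i := by
  rw [← MvPolynomial.coe_X, FA_S53_cl_coe, MvPolynomial.aeval_X]

/-- A power series differs from its truncation by an element of `(X)^n`. -/
theorem FA_S53_sub_truncTotal_mem (n : ℕ) (p : MvPowerSeries σ 𝒪) :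
    p - ((truncTotal n p : MvPolynomial σ 𝒪) : MvPowerSeries σ 𝒪) ∈
      (Ideal.span (Set.range (X : σ → MvPowerSeries σ 𝒪))) ^ n := by
  set e := toAdicCompletionAlgEquiv σ 𝒪 with he
  set y := e (p - ((truncTotal n p : MvPolynomial σ 𝒪) : MvPowerSeries σ 𝒪)) with hy
  have hmem : y ∈ (MvPolynomial.idealOfVars σ 𝒪 ^ n •
      (⊤ : Submodule (MvPolynomial σ 𝒪)
        (AdicCompletion (MvPolynomial.idealOfVars σ 𝒪) (MvPolynomial σ 𝒪)))) := by
    rw [AdicCompletion.pow_smul_top_eq_ker_eval (MvPolynomial.idealOfVars_fg σ 𝒪),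
      LinearMap.mem_ker]
    show y.val n = 0
    rw [hy, map_sub, toAdicCompletionAlgEquiv_apply, toAdicCompletionAlgEquiv_apply]
    show (toAdicCompletion σ 𝒪 p).val n - (toAdicCompletion σ 𝒪 _).val n = 0
    rw [toAdicCompletion_apply_eq_mk_truncTotal, toAdicCompletion_apply_eq_mk_truncTotal,
      sub_eq_zero]
    symm
    rw [Ideal.Quotient.mk_eq_mk_iff_sub_mem]
    rw [smul_eq_mul, Ideal.mul_top]
    refine (MvPolynomial.mem_pow_idealOfVars_iff' n _).mpr fun x hx => ?_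
    rw [MvPolynomial.coeff_sub, coeff_truncTotal (truncTotal n p : MvPowerSeries σ 𝒪) hx,
      MvPolynomial.coeff_coe, sub_self]
  have key : ∀ z ∈ (MvPolynomial.idealOfVars σ 𝒪 ^ n •
      (⊤ : Submodule (MvPolynomial σ 𝒪)
        (AdicCompletion (MvPolynomial.idealOfVars σ 𝒪) (MvPolynomial σ 𝒪)))),
      e.symm z ∈ (Ideal.span (Set.range (X : σ → MvPowerSeries σ 𝒪))) ^ n := by
    intro z hz
    refine Submodule.smul_induction_on hz ?_ ?_
    · intro r hr m _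
      rw [map_smul, Algebra.smul_def]
      refine Ideal.mul_mem_right _ _ ?_
      have h1 : (MvPolynomial.idealOfVars σ 𝒪).map
          (algebraMap (MvPolynomial σ 𝒪) (MvPowerSeries σ 𝒪)) ≤
          Ideal.span (Set.range (X : σ → MvPowerSeries σ 𝒪)) := by
        rw [MvPolynomial.idealOfVars, Ideal.map_span, Ideal.span_le]
        rintro _ ⟨_, ⟨i, rfl⟩, rfl⟩
        exact Ideal.subset_span ⟨i, (MvPolynomial.coe_X i).symm⟩
      have h2 := Ideal.pow_right_mono h1 n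
      rw [← Ideal.map_pow] at h2
      exact h2 (Ideal.mem_map_of_mem _ hr)
    · intro x y hx hy
      rw [map_add]
      exact Ideal.add_mem _ hx hy
  have := key y hmem
  rwa [hy, AlgEquiv.symm_apply_apply] at this

theorem FA_S53_cl_unique (I : Ideal A) [IsAdicComplete I A] (a : σ → A) (ha : ∀ i, a i ∈ I)
    (φ : MvPowerSeries σ 𝒪 →ₐ[𝒪] A) (h : ∀ i, φ (X i) = a i) :
    φ = FA_S53_cl I a ha := by
  have hpoly : ∀ q : MvPolynomial σ 𝒪, φ (q : MvPowerSeries σ 𝒪) = MvPolynomial.aeval a q := by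
    intro q
    have : (φ.comp (MvPolynomial.coeToMvPowerSeries.algHom 𝒪)) = MvPolynomial.aeval a := by
      refine MvPolynomial.algHom_ext fun i => ?_
      simp [h]
    exact congrArg (fun f => f q) this
  have hmap : ∀ n, ∀ s ∈ (Ideal.span (Set.range (X : σ → MvPowerSeries σ 𝒪))) ^ n, φ s ∈ I ^ n := by
    intro n s hs
    have h1 : (Ideal.span (Set.range (X : σ → MvPowerSeries σ 𝒪))).map φ ≤ I := by
      rw [Ideal.map_span, Ideal.span_le]
      rintro _ ⟨_, ⟨i, rfl⟩, rfl⟩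
      simpa [h] using ha i
    have h2 := Ideal.pow_right_mono h1 n
    rw [← Ideal.map_pow] at h2
    exact h2 (Ideal.mem_map_of_mem _ hs)
  refine IsAdicComplete.algHom_ext I fun n => AlgHom.ext fun p => ?_
  show Ideal.Quotient.mk (I ^ n) (φ p) = Ideal.Quotient.mk (I ^ n) (FA_S53_cl I a ha p)
  rw [FA_S53_mk_cl, ← hpoly, Ideal.Quotient.eq, ← map_sub]
  exact hmap n _ (FA_S53_sub_truncTotal_mem n p)

theorem FA_S53_cl_comp {B : Type} [CommRing B] [Algebra 𝒪 B] (I : Ideal A) [IsAdicComplete I A]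
    (J : Ideal B) [IsAdicComplete J B] (a : σ → A) (ha : ∀ i, a i ∈ I) (ψ : A →ₐ[𝒪] B)
    (hψ : ∀ i, ψ (a i) ∈ J) :
    ψ.comp (FA_S53_cl I a ha) = FA_S53_cl (𝒪 := 𝒪) J (fun i => ψ (a i)) hψ :=
  FA_S53_cl_unique J _ hψ _ fun i => by rw [AlgHom.comp_apply, FA_S53_cl_X]

theorem FA_S53_truncTotal_one (p : MvPowerSeries σ 𝒪) :
    (truncTotal 1 p : MvPolynomial σ 𝒪) = MvPolynomial.C (constantCoeff p) := by
  classical
  ext m
  by_cases hm : m = 0
  · subst hm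
    rw [coeff_truncTotal _ (by simp), MvPolynomial.coeff_C, if_pos rfl]
    rfl
  · rw [MvPolynomial.coeff_C, if_neg (Ne.symm hm)]
    refine coeff_truncTotal_eq_zero _ ?_
    rw [Nat.one_le_iff_ne_zero, Ne, Finsupp.degree_eq_zero_iff]
    exact hm

theorem FA_S53_cl_sub_mem (I : Ideal A) [IsAdicComplete I A] (a : σ → A) (ha : ∀ i, a i ∈ I)
    (p : MvPowerSeries σ 𝒪) :
    FA_S53_cl I a ha p - algebraMap 𝒪 A (constantCoeff p) ∈ I := by
  have h := FA_S53_mk_cl I a ha 1 p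
  rw [FA_S53_truncTotal_one, MvPolynomial.aeval_C, Ideal.Quotient.eq, pow_one] at h
  exact h

theorem FA_S53_cl_isLocalHom [IsLocalRing 𝒪] [IsLocalRing A] [IsLocalHom (algebraMap 𝒪 A)]
    [IsAdicComplete (IsLocalRing.maximalIdeal A) A] (a : σ → A)
    (ha : ∀ i, a i ∈ IsLocalRing.maximalIdeal A) :
    IsLocalHom (FA_S53_cl (𝒪 := 𝒪) (IsLocalRing.maximalIdeal A) a ha : MvPowerSeries σ 𝒪 →+* A) := by
  refine ⟨fun p hp => ?_⟩
  rw [MvPowerSeries.isUnit_iff_constantCoeff]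
  have h1 := FA_S53_cl_sub_mem (IsLocalRing.maximalIdeal A) a ha p
  have h2 : IsUnit (algebraMap 𝒪 A (constantCoeff p)) := by
    by_contra hnu
    have h3 : algebraMap 𝒪 A (constantCoeff p) ∈ IsLocalRing.maximalIdeal A :=
      (IsLocalRing.mem_maximalIdeal _).mpr hnu
    have h4 := Ideal.add_mem _ h1 h3
    rw [sub_add_cancel] at h4
    exact (IsLocalRing.mem_maximalIdeal _).mp h4 hp
  exact isUnit_of_map_unit (algebraMap 𝒪 A) _ h2

theorem FA_S53_cl_mem_pow [IsLocalRing 𝒪] [IsLocalRing A] [IsLocalHom (algebraMap 𝒪 A)]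
    [IsAdicComplete (IsLocalRing.maximalIdeal A) A] (a : σ → A)
    (ha : ∀ i, a i ∈ IsLocalRing.maximalIdeal A) (n : ℕ) (p : MvPowerSeries σ 𝒪)
    (hp : p ∈ IsLocalRing.maximalIdeal (MvPowerSeries σ 𝒪) ^ n) :
    FA_S53_cl (𝒪 := 𝒪) (IsLocalRing.maximalIdeal A) a ha p ∈ IsLocalRing.maximalIdeal A ^ n := by
  have := FA_S53_cl_isLocalHom (𝒪 := 𝒪) a ha
  have h1 := IsLocalRing.map_maximalIdeal_le
    (FA_S53_cl (𝒪 := 𝒪) (IsLocalRing.maximalIdeal A) a ha : MvPowerSeries σ 𝒪 →+* A)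
  have h2 := Ideal.pow_right_mono h1 n
  rw [← Ideal.map_pow] at h2
  exact h2 (Ideal.mem_map_of_mem _ hp)

end FA_S53
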