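import Mathlib

/-!
# S53 part (A), file 2: nil-local algebras over a local ring

An `𝒪`-algebra `E` is *nil-local* if it is nontrivial, the maximal ideal of `𝒪` maps to nilpotent
elements and every element of `E` is congruent to a constant modulo a nilpotent element.
Artinian test algebras are exactly the finite nil-local algebras; the class is closed under
subalgebras, fibre products and nontrivial quotients.
-/

namespace FA_S53

open IsLocalRing

variable (𝒪 : Type) [CommRing 𝒪] [IsLocalRing 𝒪]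

/-- Nil-local `𝒪`-algebras. -/
def FA_S53_NilLocal (E : Type) [CommRing E] [Algebra 𝒪 E] : Prop :=
  Nontrivial E ∧ (∀ c ∈ maximalIdeal 𝒪, IsNilpotent (algebraMap 𝒪 E c)) ∧
    ∀ e : E, ∃ c : 𝒪, IsNilpotent (e - algebraMap 𝒪 E c)

variable {𝒪}
variable {E : Type} [CommRing E] [Algebra 𝒪 E]

theorem FA_S53_NilLocal.isUnit_or_isNilpotent (h : FA_S53_NilLocal 𝒪 E) (e : E) :
    IsUnit e ∨ IsNilpotent e := by
  obtain ⟨c, hc⟩ := h.2.2 e
  by_cases hcu : IsUnit c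
  · left
    have : e = algebraMap 𝒪 E c + (e - algebraMap 𝒪 E c) := by ring
    rw [this]
    exact hc.isUnit_add_left_of_commute (hcu.map (algebraMap 𝒪 E)) (Commute.all _ _)
  · right
    have h1 : IsNilpotent (algebraMap 𝒪 E c) := h.2.1 c ((mem_maximalIdeal c).mpr hcu)
    have : e = (e - algebraMap 𝒪 E c) + algebraMap 𝒪 E c := by ring
    rw [this]
    exact Commute.isNilpotent_add (Commute.all _ _) hc h1

theorem FA_S53_NilLocal.isLocalRing (h : FA_S53_NilLocal 𝒪 E) : IsLocalRing E := by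
  have := h.1
  refine IsLocalRing.of_isUnit_or_isUnit_one_sub_self fun a => ?_
  rcases h.isUnit_or_isNilpotent a with ha | ha
  · exact Or.inl ha
  · exact Or.inr ha.isUnit_one_sub

theorem FA_S53_NilLocal.mem_maximalIdeal_iff [IsLocalRing E] (h : FA_S53_NilLocal 𝒪 E) (e : E) :
    e ∈ maximalIdeal E ↔ IsNilpotent e := by
  constructor
  · intro he
    rcases h.isUnit_or_isNilpotent e with h1 | h1
    · exact absurd h1 ((mem_maximalIdeal e).mp he)
    · exact h1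
  · intro he
    rw [mem_maximalIdeal, mem_nonunits_iff]
    intro hu
    have := h.1
    obtain ⟨n, hn⟩ := he
    have := hu.pow n
    rw [hn] at this
    exact not_isUnit_zero this

theorem FA_S53_NilLocal.isLocalHom [IsLocalRing E] (h : FA_S53_NilLocal 𝒪 E) :
    IsLocalHom (algebraMap 𝒪 E) := by
  refine ⟨fun c hc => ?_⟩
  by_contra hcu
  have h1 : IsNilpotent (algebraMap 𝒪 E c) := h.2.1 c ((mem_maximalIdeal c).mpr hcu)
  have := (h.mem_maximalIdeal_iff _).mpr h1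
  exact (mem_maximalIdeal _).mp this hc

theorem FA_S53_NilLocal.exists_sub_mem [IsLocalRing E] (h : FA_S53_NilLocal 𝒪 E) (e : E) :
    ∃ c : 𝒪, e - algebraMap 𝒪 E c ∈ maximalIdeal E := by
  obtain ⟨c, hc⟩ := h.2.2 e
  exact ⟨c, (h.mem_maximalIdeal_iff _).mpr hc⟩

theorem FA_S53_NilLocal.residue_surjective [IsLocalRing E] (h : FA_S53_NilLocal 𝒪 E) :
    Function.Surjective (IsLocalRing.residue E ∘ algebraMap 𝒪 E) := by
  intro x
  obtain ⟨e, rfl⟩ := IsLocalRing.residue_surjective x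
  obtain ⟨c, hc⟩ := h.exists_sub_mem e
  refine ⟨c, ?_⟩
  rw [Function.comp_apply, eq_comm, ← sub_eq_zero, ← map_sub]
  exact (IsLocalRing.residue_eq_zero_iff _).mpr hc

/-- A local algebra with local structure map, surjective residue map and nilpotent maximal ideal
is nil-local. -/
theorem FA_S53_NilLocal.of_isLocalRing [IsLocalRing E] (h1 : IsLocalHom (algebraMap 𝒪 E))
    (h2 : Function.Surjective (IsLocalRing.residue E ∘ algebraMap 𝒪 E))
    (h3 : ∀ e ∈ maximalIdeal E, IsNilpotent e) : FA_S53_NilLocal 𝒪 E := by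
  refine ⟨inferInstance, fun c hc => h3 _ ?_, fun e => ?_⟩
  · rw [mem_maximalIdeal, mem_nonunits_iff]
    intro hu
    exact (mem_maximalIdeal c).mp hc (h1.map_nonunit c hu)
  · obtain ⟨c, hc⟩ := h2 (IsLocalRing.residue E e)
    refine ⟨c, h3 _ ?_⟩
    rw [← IsLocalRing.residue_eq_zero_iff, map_sub, ← hc, Function.comp_apply, sub_self]

theorem FA_S53_NilLocal.of_isArtinianRing [IsLocalRing E] [IsArtinianRing E]
    (h1 : IsLocalHom (algebraMap 𝒪 E))
    (h2 : Function.Surjective (IsLocalRing.residue E ∘ algebraMap 𝒪 E)) :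
    FA_S53_NilLocal 𝒪 E := by
  refine FA_S53_NilLocal.of_isLocalRing h1 h2 fun e he => ?_
  obtain ⟨n, hn⟩ := (isArtinianRing_iff_isNilpotent_maximalIdeal E).mp inferInstance
  refine ⟨n, ?_⟩
  have : e ^ n ∈ maximalIdeal E ^ n := Ideal.pow_mem_pow he n
  rw [hn] at this
  simpa using this

/-- Subalgebras of nil-local algebras are nil-local. -/
theorem FA_S53_NilLocal.subalgebra (h : FA_S53_NilLocal 𝒪 E) (D : Subalgebra 𝒪 E) :
    FA_S53_NilLocal 𝒪 D := by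
  have := h.1
  refine ⟨inferInstance, fun c hc => ?_, fun d => ?_⟩
  · obtain ⟨n, hn⟩ := h.2.1 c hc
    refine ⟨n, Subtype.ext ?_⟩
    simpa using hn
  · obtain ⟨c, n, hn⟩ := h.2.2 (d : E)
    refine ⟨c, n, Subtype.ext ?_⟩
    simpa using hn


/-- An algebra which injects into a nil-local algebra is nil-local. -/
theorem FA_S53_NilLocal.of_injective {E' : Type} [CommRing E'] [Algebra 𝒪 E']
    (h : FA_S53_NilLocal 𝒪 E) (ι : E' →ₐ[𝒪] E) (hι : Function.Injective ι) :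
    FA_S53_NilLocal 𝒪 E' := by
  have := h.1
  have hnil : ∀ e : E', IsNilpotent (ι e) → IsNilpotent e := by
    rintro e ⟨n, hn⟩
    refine ⟨n, hι ?_⟩
    rw [map_pow, hn, map_zero]
  refine ⟨⟨0, 1, fun h01 => ?_⟩, fun c hc => hnil _ ?_, fun e => ?_⟩
  · have := congrArg ι h01
    rw [map_zero, map_one] at this
    exact zero_ne_one this
  · rw [AlgHom.commutes]
    exact h.2.1 c hc
  · obtain ⟨c, hc⟩ := h.2.2 (ι e)
    refine ⟨c, hnil _ ?_⟩
    rw [map_sub, AlgHom.commutes]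
    exact hc

/-- Algebra maps between nil-local algebras are local homomorphisms. -/
theorem FA_S53_NilLocal.isLocalHom_algHom {E' : Type} [CommRing E'] [Algebra 𝒪 E']
    (h : FA_S53_NilLocal 𝒪 E) [Nontrivial E'] (φ : E →ₐ[𝒪] E') :
    IsLocalHom (φ : E →+* E') := by
  refine ⟨fun e he => ?_⟩
  rcases h.isUnit_or_isNilpotent e with h1 | h1
  · exact h1
  · exfalso
    obtain ⟨n, hn⟩ := h1
    have h2 : IsUnit ((φ : E →+* E') e ^ n) := he.pow n
    rw [← map_pow, hn, map_zero] at h2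
    exact not_isUnit_zero h2

/-- Nontrivial quotients of nil-local algebras are nil-local. -/
theorem FA_S53_NilLocal.quotient (h : FA_S53_NilLocal 𝒪 E) (K : Ideal E) (hK : K ≠ ⊤) :
    FA_S53_NilLocal 𝒪 (E ⧸ K) := by
  refine ⟨Ideal.Quotient.nontrivial_iff.mpr hK, fun c hc => ?_, fun e => ?_⟩
  · have := (h.2.1 c hc).map (Ideal.Quotient.mk K)
    simpa using this
  · obtain ⟨e, rfl⟩ := Ideal.Quotient.mk_surjective e
    obtain ⟨c, hc⟩ := h.2.2 e
    refine ⟨c, ?_⟩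
    have := hc.map (Ideal.Quotient.mk K)
    simpa using this

/-- Quotients of a local algebra of "test type" by an open proper ideal are nil-local. -/
theorem FA_S53_NilLocal.of_quotient_isLocalRing {S : Type} [CommRing S] [IsLocalRing S]
    [Algebra 𝒪 S] (h1 : IsLocalHom (algebraMap 𝒪 S))
    (h2 : Function.Surjective (IsLocalRing.residue S ∘ algebraMap 𝒪 S))
    (K : Ideal S) (hK : K ≠ ⊤) (n : ℕ) (hn : maximalIdeal S ^ n ≤ K) :
    FA_S53_NilLocal 𝒪 (S ⧸ K) := by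
  have key : ∀ s ∈ maximalIdeal S, IsNilpotent (Ideal.Quotient.mk K s) := by
    intro s hs
    refine ⟨n, ?_⟩
    rw [← map_pow, Ideal.Quotient.eq_zero_iff_mem]
    exact hn (Ideal.pow_mem_pow hs n)
  refine ⟨Ideal.Quotient.nontrivial_iff.mpr hK, fun c hc => ?_, fun e => ?_⟩
  · refine key _ ?_
    rw [mem_maximalIdeal, mem_nonunits_iff]
    intro hu
    exact (mem_maximalIdeal c).mp hc (h1.map_nonunit c hu)
  · obtain ⟨s, rfl⟩ := Ideal.Quotient.mk_surjective e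
    obtain ⟨c, hc⟩ := h2 (IsLocalRing.residue S s)
    refine ⟨c, ?_⟩
    have : s - algebraMap 𝒪 S c ∈ maximalIdeal S := by
      rw [← IsLocalRing.residue_eq_zero_iff, map_sub, ← hc, Function.comp_apply, sub_self]
    exact key _ this

section Fib

variable (𝒪)
variable (A₁ A₂ : Type) [CommRing A₁] [Algebra 𝒪 A₁] [CommRing A₂] [Algebra 𝒪 A₂]

/-- The fibre product of two nil-local algebras over the residue field, as a subalgebra of the
product. -/
def FA_S53_fib : Subalgebra 𝒪 (A₁ × A₂) where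
  carrier := {p | ∃ c : 𝒪, p.1 - algebraMap 𝒪 A₁ c ∈ nilradical A₁ ∧
    p.2 - algebraMap 𝒪 A₂ c ∈ nilradical A₂}
  mul_mem' := by
    rintro ⟨a₁, a₂⟩ ⟨b₁, b₂⟩ ⟨c, hc1, hc2⟩ ⟨d, hd1, hd2⟩
    refine ⟨c * d, ?_, ?_⟩
    · have : a₁ * b₁ - algebraMap 𝒪 A₁ (c * d) =
          (a₁ - algebraMap 𝒪 A₁ c) * b₁ + algebraMap 𝒪 A₁ c * (b₁ - algebraMap 𝒪 A₁ d) := by
        rw [map_mul]; ring
      show a₁ * b₁ - algebraMap 𝒪 A₁ (c * d) ∈ nilradical A₁
      rw [this]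
      exact Ideal.add_mem _ (Ideal.mul_mem_right _ _ hc1) (Ideal.mul_mem_left _ _ hd1)
    · have : a₂ * b₂ - algebraMap 𝒪 A₂ (c * d) =
          (a₂ - algebraMap 𝒪 A₂ c) * b₂ + algebraMap 𝒪 A₂ c * (b₂ - algebraMap 𝒪 A₂ d) := by
        rw [map_mul]; ring
      show a₂ * b₂ - algebraMap 𝒪 A₂ (c * d) ∈ nilradical A₂
      rw [this]
      exact Ideal.add_mem _ (Ideal.mul_mem_right _ _ hc2) (Ideal.mul_mem_left _ _ hd2)
  add_mem' := by
    rintro ⟨a₁, a₂⟩ ⟨b₁, b₂⟩ ⟨c, hc1, hc2⟩ ⟨d, hd1, hd2⟩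
    refine ⟨c + d, ?_, ?_⟩
    · have : a₁ + b₁ - algebraMap 𝒪 A₁ (c + d) =
          (a₁ - algebraMap 𝒪 A₁ c) + (b₁ - algebraMap 𝒪 A₁ d) := by
        rw [map_add]; ring
      show a₁ + b₁ - algebraMap 𝒪 A₁ (c + d) ∈ nilradical A₁
      rw [this]
      exact Ideal.add_mem _ hc1 hd1
    · have : a₂ + b₂ - algebraMap 𝒪 A₂ (c + d) =
          (a₂ - algebraMap 𝒪 A₂ c) + (b₂ - algebraMap 𝒪 A₂ d) := by
        rw [map_add]; ring
      show a₂ + b₂ - algebraMap 𝒪 A₂ (c + d) ∈ nilradical A₂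
      rw [this]
      exact Ideal.add_mem _ hc2 hd2
  algebraMap_mem' := by
    intro c
    refine ⟨c, ?_, ?_⟩
    · show algebraMap 𝒪 A₁ c - algebraMap 𝒪 A₁ c ∈ nilradical A₁
      rw [sub_self]; exact Ideal.zero_mem _
    · show algebraMap 𝒪 A₂ c - algebraMap 𝒪 A₂ c ∈ nilradical A₂
      rw [sub_self]; exact Ideal.zero_mem _

variable {𝒪 A₁ A₂}

omit [IsLocalRing 𝒪] in
theorem FA_S53_mem_fib {p : A₁ × A₂} :
    p ∈ FA_S53_fib 𝒪 A₁ A₂ ↔ ∃ c : 𝒪, IsNilpotent (p.1 - algebraMap 𝒪 A₁ c) ∧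
      IsNilpotent (p.2 - algebraMap 𝒪 A₂ c) := Iff.rfl

theorem FA_S53_fib_nilLocal (h₁ : FA_S53_NilLocal 𝒪 A₁) (h₂ : FA_S53_NilLocal 𝒪 A₂) :
    FA_S53_NilLocal 𝒪 (FA_S53_fib 𝒪 A₁ A₂) := by
  have := h₁.1
  have := h₂.1
  have hprod : ∀ p : A₁ × A₂, IsNilpotent p.1 → IsNilpotent p.2 → IsNilpotent p := by
    rintro ⟨a, b⟩ ⟨n, hn⟩ ⟨m, hm⟩
    refine ⟨n + m, ?_⟩
    ext
    · show a ^ (n + m) = 0
      rw [pow_add, hn, zero_mul]
    · show b ^ (n + m) = 0
      rw [pow_add, hm, mul_zero]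
  refine ⟨inferInstance, fun c hc => ?_, fun d => ?_⟩
  · obtain ⟨n, hn⟩ := hprod (algebraMap 𝒪 (A₁ × A₂) c) (h₁.2.1 c hc) (h₂.2.1 c hc)
    refine ⟨n, Subtype.ext ?_⟩
    simpa using hn
  · obtain ⟨c, hc1, hc2⟩ := d.2
    obtain ⟨n, hn⟩ := hprod ((d : A₁ × A₂) - algebraMap 𝒪 (A₁ × A₂) c) hc1 hc2
    refine ⟨c, n, Subtype.ext ?_⟩
    simpa using hn

/-- A pair of elements lies in the fibre product if both are congruent to the same constant. -/
theorem FA_S53_pair_mem_fib [IsLocalRing A₁] [IsLocalRing A₂] (h₁ : FA_S53_NilLocal 𝒪 A₁)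
    (h₂ : FA_S53_NilLocal 𝒪 A₂) (a₁ : A₁) (a₂ : A₂) (c : 𝒪)
    (h1 : a₁ - algebraMap 𝒪 A₁ c ∈ maximalIdeal A₁) (h2 : a₂ - algebraMap 𝒪 A₂ c ∈ maximalIdeal A₂) :
    (a₁, a₂) ∈ FA_S53_fib 𝒪 A₁ A₂ :=
  ⟨c, (h₁.mem_maximalIdeal_iff _).mp h1, (h₂.mem_maximalIdeal_iff _).mp h2⟩

end Fib

end FA_S53
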