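import Mathlib
import Fermat.Agent.S53.AbsLocal

/-!
# S53 part (A), file 3: maps to the dual numbers separate proper subalgebras

For a nil-local algebra `E` with nilpotent maximal ideal and a proper subalgebra `B`, there are two
distinct `𝒪`-algebra maps `E → k[ε]` that agree on `B`.
-/

namespace FA_S53

open IsLocalRing

variable {𝒪 : Type} [CommRing 𝒪] [IsLocalRing 𝒪]
variable {E : Type} [CommRing E] [IsLocalRing E] [Algebra 𝒪 E]

theorem FA_S53_resMap_bijective (h : FA_S53_NilLocal 𝒪 E) :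
    Function.Bijective (@ResidueField.map 𝒪 E _ _ _ _ (algebraMap 𝒪 E) h.isLocalHom) := by
  have := h.isLocalHom
  refine ⟨RingHom.injective _, fun x => ?_⟩
  obtain ⟨c, hc⟩ := h.residue_surjective x
  exact ⟨IsLocalRing.residue 𝒪 c, by rw [ResidueField.map_residue]; exact hc⟩

/-- The identification of residue fields. -/
noncomputable def FA_S53_resEquiv (h : FA_S53_NilLocal 𝒪 E) :
    ResidueField 𝒪 ≃+* ResidueField E :=
  RingEquiv.ofBijective (@ResidueField.map 𝒪 E _ _ _ _ (algebraMap 𝒪 E) h.isLocalHom)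
    (FA_S53_resMap_bijective h)

theorem FA_S53_resEquiv_residue (h : FA_S53_NilLocal 𝒪 E) (c : 𝒪) :
    FA_S53_resEquiv h (IsLocalRing.residue 𝒪 c) = IsLocalRing.residue E (algebraMap 𝒪 E c) := by
  have := h.isLocalHom
  rw [FA_S53_resEquiv, RingEquiv.ofBijective_apply, ResidueField.map_residue]

/-- The residue map of a nil-local algebra, with values in the residue field of `𝒪`. -/
noncomputable def FA_S53_resMap (h : FA_S53_NilLocal 𝒪 E) : E →+* ResidueField 𝒪 :=
  ((FA_S53_resEquiv h).symm : ResidueField E →+* ResidueField 𝒪).comp (IsLocalRing.residue E)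

theorem FA_S53_resMap_algebraMap (h : FA_S53_NilLocal 𝒪 E) (c : 𝒪) :
    FA_S53_resMap h (algebraMap 𝒪 E c) = IsLocalRing.residue 𝒪 c := by
  rw [FA_S53_resMap, RingHom.comp_apply, RingHom.coe_coe, RingEquiv.symm_apply_eq,
    FA_S53_resEquiv_residue]

theorem FA_S53_resMap_eq_zero (h : FA_S53_NilLocal 𝒪 E) {e : E} (he : e ∈ maximalIdeal E) :
    FA_S53_resMap h e = 0 := by
  rw [FA_S53_resMap, RingHom.comp_apply, (IsLocalRing.residue_eq_zero_iff e).mpr he, map_zero]

theorem FA_S53_resMap_eq (h : FA_S53_NilLocal 𝒪 E) {e : E} {c : 𝒪}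
    (he : e - algebraMap 𝒪 E c ∈ maximalIdeal E) :
    FA_S53_resMap h e = IsLocalRing.residue 𝒪 c := by
  have := FA_S53_resMap_eq_zero h he
  rwa [map_sub, FA_S53_resMap_algebraMap, sub_eq_zero] at this

/-- The ring map `E → k[ε]` attached to a "derivation" `L`. -/
noncomputable def FA_S53_psi (h : FA_S53_NilLocal 𝒪 E) (L : E →ₗ[𝒪] ResidueField 𝒪)
    (hL1 : L 1 = 0) (hL2 : ∀ x ∈ maximalIdeal E, ∀ y ∈ maximalIdeal E, L (x * y) = 0) :
    E →+* DualNumber (ResidueField 𝒪) where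
  toFun e := TrivSqZeroExt.inl (FA_S53_resMap h e) + TrivSqZeroExt.inr (L e)
  map_one' := by
    rw [map_one, hL1]
    simp
  map_zero' := by simp
  map_add' x y := by
    rw [map_add, map_add, TrivSqZeroExt.inl_add, TrivSqZeroExt.inr_add]
    abel
  map_mul' x y := by
    obtain ⟨c, hc⟩ := h.exists_sub_mem x
    obtain ⟨d, hd⟩ := h.exists_sub_mem y
    have hx : FA_S53_resMap h x = IsLocalRing.residue 𝒪 c := FA_S53_resMap_eq h hc
    have hy : FA_S53_resMap h y = IsLocalRing.residue 𝒪 d := FA_S53_resMap_eq h hd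
    have hLa : ∀ a : 𝒪, L (algebraMap 𝒪 E a) = 0 := by
      intro a
      rw [Algebra.algebraMap_eq_smul_one, map_smul, hL1, smul_zero]
    have hLx : L x = L (x - algebraMap 𝒪 E c) := by rw [map_sub, hLa, sub_zero]
    have hLy : L y = L (y - algebraMap 𝒪 E d) := by rw [map_sub, hLa, sub_zero]
    have hxy : x * y = algebraMap 𝒪 E (c * d) + c • (y - algebraMap 𝒪 E d) +
        d • (x - algebraMap 𝒪 E c) + (x - algebraMap 𝒪 E c) * (y - algebraMap 𝒪 E d) := by
      rw [Algebra.smul_def, Algebra.smul_def, map_mul]; ring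
    have hLxy : L (x * y) = IsLocalRing.residue 𝒪 c * L y + IsLocalRing.residue 𝒪 d * L x := by
      rw [hxy, map_add, map_add, map_add, hLa, hL2 _ hc _ hd, map_smul, map_smul, ← hLx, ← hLy,
        Algebra.smul_def, Algebra.smul_def]
      simp only [zero_add, add_zero]
      rfl
    ext
    · simp
    · simp only [TrivSqZeroExt.snd_add, TrivSqZeroExt.snd_inl, TrivSqZeroExt.snd_inr, zero_add,
        TrivSqZeroExt.snd_mul, TrivSqZeroExt.fst_add, TrivSqZeroExt.fst_inl, TrivSqZeroExt.fst_inr,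
        add_zero, smul_eq_mul, MulOpposite.smul_eq_mul_unop, MulOpposite.unop_op]
      rw [hLxy, hx, hy]
      ring

theorem FA_S53_psi_apply (h : FA_S53_NilLocal 𝒪 E) (L : E →ₗ[𝒪] ResidueField 𝒪)
    (hL1 : L 1 = 0) (hL2 : ∀ x ∈ maximalIdeal E, ∀ y ∈ maximalIdeal E, L (x * y) = 0) (e : E) :
    FA_S53_psi h L hL1 hL2 e =
      TrivSqZeroExt.inl (FA_S53_resMap h e) + TrivSqZeroExt.inr (L e) := rfl


omit [IsLocalRing 𝒪] in
theorem FA_S53_approx_step (B : Subalgebra 𝒪 E)
    (hB : ∀ e : E, ∃ b ∈ B, e - b ∈ maximalIdeal E ^ 2) (j : ℕ) :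
    ∀ y ∈ maximalIdeal E ^ j, ∃ b ∈ B, b ∈ maximalIdeal E ^ j ∧ y - b ∈ maximalIdeal E ^ (j + 1) := by
  have step1 : ∀ y ∈ maximalIdeal E, ∃ b ∈ B, b ∈ maximalIdeal E ∧ y - b ∈ maximalIdeal E ^ 2 := by
    intro y hy
    obtain ⟨b, hb, hyb⟩ := hB y
    refine ⟨b, hb, ?_, hyb⟩
    have h1 : y - b ∈ maximalIdeal E := Ideal.pow_le_self (by norm_num) hyb
    have : b = y - (y - b) := by ring
    rw [this]
    exact Ideal.sub_mem _ hy h1
  induction j with
  | zero =>
    intro y _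
    obtain ⟨b, hb, hyb⟩ := hB y
    refine ⟨b, hb, by simp, ?_⟩
    exact Ideal.pow_le_pow_right (by norm_num) hyb
  | succ j ih =>
    intro y hy
    rw [pow_succ] at hy
    refine Submodule.mul_induction_on hy ?_ ?_
    · intro x hx z hz
      obtain ⟨bx, hbx, hbx', hxb⟩ := ih x hx
      obtain ⟨bz, hbz, hbz', hzb⟩ := step1 z hz
      refine ⟨bx * bz, B.mul_mem hbx hbz, ?_, ?_⟩
      · rw [pow_succ]
        exact Ideal.mul_mem_mul hbx' hbz'
      · have : x * z - bx * bz = (x - bx) * z + bx * (z - bz) := by ring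
        rw [this]
        refine Ideal.add_mem _ ?_ ?_
        · rw [pow_succ (maximalIdeal E) (j + 1)]
          exact Ideal.mul_mem_mul hxb hz
        · have h2 : maximalIdeal E ^ (j + 1 + 1) = maximalIdeal E ^ j * maximalIdeal E ^ 2 := by
            rw [← pow_add]
          rw [h2]
          exact Ideal.mul_mem_mul hbx' hzb
    · rintro x z ⟨bx, hbx, hbx', hxb⟩ ⟨bz, hbz, hbz', hzb⟩
      refine ⟨bx + bz, B.add_mem hbx hbz, Ideal.add_mem _ hbx' hbz', ?_⟩
      have : x + z - (bx + bz) = (x - bx) + (z - bz) := by ring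
      rw [this]
      exact Ideal.add_mem _ hxb hzb

omit [IsLocalRing 𝒪] in
/-- A subalgebra which surjects onto `E ⧸ 𝔪²` is everything, when `𝔪` is nilpotent. -/
theorem FA_S53_subalgebra_eq_top {n : ℕ} (hn : maximalIdeal E ^ n = ⊥) (B : Subalgebra 𝒪 E)
    (hB : ∀ e : E, ∃ b ∈ B, e - b ∈ maximalIdeal E ^ 2) : B = ⊤ := by
  have key : ∀ j, ∀ y ∈ maximalIdeal E ^ (n - j), y ∈ B := by
    intro j
    induction j with
    | zero =>
      intro y hy
      rw [Nat.sub_zero, hn] at hy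
      rw [(Submodule.mem_bot E).mp hy]
      exact B.zero_mem
    | succ j ih =>
      intro y hy
      obtain ⟨b, hb, _, hyb⟩ := FA_S53_approx_step B hB (n - (j + 1)) y hy
      have h1 : y - b ∈ maximalIdeal E ^ (n - j) :=
        Ideal.pow_le_pow_right (by omega) hyb
      have h2 := ih _ h1
      have : y = (y - b) + b := by ring
      rw [this]
      exact B.add_mem h2 hb
  rw [eq_top_iff]
  intro y _
  exact key n y (by simp)

/-- If the subalgebra `B` does not surject onto `E ⧸ 𝔪²`, there is a nonzero "derivation"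
`E → k` vanishing on `B`. -/
theorem FA_S53_exists_functional [Finite E] (B : Subalgebra 𝒪 E)
    (hB : ¬ ∀ e : E, ∃ b ∈ B, e - b ∈ maximalIdeal E ^ 2) :
    ∃ L : E →ₗ[𝒪] ResidueField 𝒪, L ≠ 0 ∧ (∀ b ∈ B, L b = 0) ∧
      ∀ x ∈ maximalIdeal E, ∀ y ∈ maximalIdeal E, L (x * y) = 0 := by
  set U : Submodule 𝒪 E :=
    Subalgebra.toSubmodule B ⊔ (maximalIdeal E ^ 2).restrictScalars 𝒪 with hU
  have hUtop : U ≠ ⊤ := by
    intro htop
    apply hB
    intro e
    have he : e ∈ U := htop ▸ Submodule.mem_top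
    obtain ⟨b, hb, m, hm, rfl⟩ := Submodule.mem_sup.mp he
    refine ⟨b, hb, ?_⟩
    have : b + m - b = m := by ring
    rw [this]
    exact hm
  obtain ⟨U', hU', hle⟩ := (eq_top_or_exists_le_coatom U).resolve_left hUtop
  have hsimple : IsSimpleModule 𝒪 (E ⧸ U') := isSimpleModule_iff_isCoatom.mpr hU'
  obtain ⟨I, hI, ⟨e⟩⟩ := isSimpleModule_iff_quot_maximal.mp hsimple
  have hIm : I = maximalIdeal 𝒪 := IsLocalRing.eq_maximalIdeal hI
  subst hIm
  let L : E →ₗ[𝒪] ResidueField 𝒪 := (e : (E ⧸ U') →ₗ[𝒪] 𝒪 ⧸ maximalIdeal 𝒪).comp U'.mkQ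
  have hker : ∀ u ∈ U, L u = 0 := by
    intro u hu
    show e (U'.mkQ u) = 0
    rw [Submodule.mkQ_apply, (Submodule.Quotient.mk_eq_zero U').mpr (hle hu), map_zero]
  refine ⟨L, ?_, ?_, ?_⟩
  · intro hL
    have : (1 : 𝒪 ⧸ maximalIdeal 𝒪) = 0 := by
      obtain ⟨q, hq⟩ := e.surjective 1
      obtain ⟨x, rfl⟩ := U'.mkQ_surjective q
      have h2 : L x = 0 := by rw [hL]; rfl
      rw [← hq]
      exact h2
    exact one_ne_zero this
  · intro b hb
    exact hker b (Submodule.mem_sup_left hb)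
  · intro x hx y hy
    refine hker _ (Submodule.mem_sup_right ?_)
    show x * y ∈ maximalIdeal E ^ 2
    rw [pow_two]
    exact Ideal.mul_mem_mul hx hy

end FA_S53
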