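import Mathlib
import Fermat.Prelude.Def_GaloisRep_DeformationRingData
import Fermat.Prelude.Def_GaloisRep_DeformationCondition

/-!
# S53 — interface between the abstract representability lemma (part A) and the Galois glue

`FA_S53_Fun 𝒪 X` is a "rigidified deformation functor": for every local `𝒪`-algebra `A` a set of
functions `X → A` (think: `X = G × Fin 2 × Fin 2`, `f` = matrix entries of a normalised lift).
-/

set_option autoImplicit false

open IsLocalRing

namespace Fermat.Agent.S53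

/-- A rigidified functor: a set of `X`-indexed families in every local `𝒪`-algebra. -/
def FA_S53_Fun (𝒪 : Type) [CommRing 𝒪] (X : Type) : Type 1 :=
  ∀ (A : Type) [CommRing A] [IsLocalRing A] [Algebra 𝒪 A], Set (X → A)

/-- The `𝒪`-algebra structure on the dual numbers of the residue field used by
`GaloisRep.TangentFinite` (same term as the `letI` there). -/
@[reducible] noncomputable def FA_S53_algDual (𝒪 : Type) [CommRing 𝒪] [IsLocalRing 𝒪] :
    Algebra 𝒪 (DualNumber (ResidueField 𝒪)) :=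
  ((algebraMap (ResidueField 𝒪) (DualNumber (ResidueField 𝒪))).comp
    (algebraMap 𝒪 (ResidueField 𝒪))).toAlgebra

/-- Axioms on a rigidified functor that make it representable (part A proves this). -/
structure FA_S53_IsSlice (𝒪 : Type) [CommRing 𝒪] [IsLocalRing 𝒪] (X : Type)
    (N : FA_S53_Fun 𝒪 X) (f₀ : X → ResidueField 𝒪) : Prop where
  /-- functoriality along local `𝒪`-algebra maps of Artinian test algebras -/
  map : ∀ ⦃A B : Type⦄ [CommRing A] [IsLocalRing A] [Algebra 𝒪 A]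
    [CommRing B] [IsLocalRing B] [Algebra 𝒪 B],
    GaloisRep.IsArtinianTestAlgebra 𝒪 A → GaloisRep.IsArtinianTestAlgebra 𝒪 B →
    ∀ (φ : A →ₐ[𝒪] B), IsLocalHom (φ : A →+* B) → ∀ f : X → A, f ∈ N A → (fun x => φ (f x)) ∈ N B
  /-- descent along a jointly injective pair of local maps (covers injective maps: `φ₁ = φ₂`) -/
  desc : ∀ ⦃A B₁ B₂ : Type⦄ [CommRing A] [IsLocalRing A] [Algebra 𝒪 A]
    [CommRing B₁] [IsLocalRing B₁] [Algebra 𝒪 B₁] [CommRing B₂] [IsLocalRing B₂] [Algebra 𝒪 B₂],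
    GaloisRep.IsArtinianTestAlgebra 𝒪 A → GaloisRep.IsArtinianTestAlgebra 𝒪 B₁ →
    GaloisRep.IsArtinianTestAlgebra 𝒪 B₂ →
    ∀ (φ₁ : A →ₐ[𝒪] B₁) (φ₂ : A →ₐ[𝒪] B₂), IsLocalHom (φ₁ : A →+* B₁) →
      IsLocalHom (φ₂ : A →+* B₂) → (∀ a : A, φ₁ a = 0 → φ₂ a = 0 → a = 0) →
      ∀ f : X → A, (fun x => φ₁ (f x)) ∈ N B₁ → (fun x => φ₂ (f x)) ∈ N B₂ → f ∈ N A
  /-- the residual point belongs to the functor -/
  base : f₀ ∈ N (ResidueField 𝒪)
  /-- every point reduces to the residual point -/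
  res : ∀ ⦃A : Type⦄ [CommRing A] [IsLocalRing A] [Algebra 𝒪 A],
    GaloisRep.IsArtinianTestAlgebra 𝒪 A → ∀ f : X → A, f ∈ N A →
      ∀ (x : X) (a : 𝒪), residue 𝒪 a = f₀ x → f x - algebraMap 𝒪 A a ∈ maximalIdeal A
  /-- finite tangent space -/
  tangent : letI := FA_S53_algDual 𝒪
    (N (DualNumber (ResidueField 𝒪))).Finite
  /-- points over complete Noetherian rings are tested on Artinian quotients -/
  complete : ∀ ⦃A : Type⦄ [CommRing A] [IsLocalRing A] [IsNoetherianRing A]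
    [IsAdicComplete (maximalIdeal A) A] [Algebra 𝒪 A],
    IsLocalHom (algebraMap 𝒪 A) → Function.Surjective (residue A ∘ algebraMap 𝒪 A) →
    ∀ f : X → A, f ∈ N A ↔
      ∀ ⦃B : Type⦄ [CommRing B] [IsLocalRing B] [Algebra 𝒪 B],
        GaloisRep.IsArtinianTestAlgebra 𝒪 B →
        ∀ (q : A →ₐ[𝒪] B), IsLocalHom (q : A →+* B) → Function.Surjective q →
          (fun x => q (f x)) ∈ N B

/-- PART A (abstract representability): to be proved in `Fermat/Agent/S53/Abstract*.lean`. -/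
def FA_S53_Representable (𝒪 : Type) [CommRing 𝒪] [IsLocalRing 𝒪] (X : Type)
    (N : FA_S53_Fun 𝒪 X) : Prop :=
  ∃ (R : Type) (_ : CommRing R) (_ : IsLocalRing R) (_ : IsNoetherianRing R)
    (_ : IsAdicComplete (maximalIdeal R) R) (_ : Algebra 𝒪 R),
    IsLocalHom (algebraMap 𝒪 R) ∧ Function.Surjective (residue R ∘ algebraMap 𝒪 R) ∧
    ∃ fR : X → R, fR ∈ N R ∧
      ∀ (A : Type) [CommRing A] [IsLocalRing A] [IsNoetherianRing A]
        [IsAdicComplete (maximalIdeal A) A] [Algebra 𝒪 A],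
        IsLocalHom (algebraMap 𝒪 A) → Function.Surjective (residue A ∘ algebraMap 𝒪 A) →
        ∀ f : X → A, f ∈ N A →
          ∃! φ : R →ₐ[𝒪] A, IsLocalHom (φ : R →+* A) ∧ ∀ x, φ (fR x) = f x

/-- Statement of part A. -/
def FA_S53_AbstractStatement : Prop :=
  ∀ (𝒪 : Type) [CommRing 𝒪] [IsDomain 𝒪] [IsDiscreteValuationRing 𝒪]
    [IsAdicComplete (maximalIdeal 𝒪) 𝒪] [Finite (ResidueField 𝒪)]
    (X : Type) (N : FA_S53_Fun 𝒪 X) (f₀ : X → ResidueField 𝒪),
    FA_S53_IsSlice 𝒪 X N f₀ → FA_S53_Representable 𝒪 X N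

end Fermat.Agent.S53
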