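import Mathlib
import Fermat.Agent.S53.Interface
import Fermat.Agent.S53.AbsLocal
import Fermat.Agent.S53.AbsNak

/-!
# S53 part (A), file 4: Artinian test algebras versus finite nil-local algebras
-/

namespace FA_S53

open IsLocalRing GaloisRep Fermat.Agent.S53

variable {𝒪 : Type} [CommRing 𝒪] [IsLocalRing 𝒪]

section Conv

variable {A : Type} [CommRing A] [IsLocalRing A] [Algebra 𝒪 A]

theorem FA_S53_nilLocal_of_test (h : IsArtinianTestAlgebra 𝒪 A) : FA_S53_NilLocal 𝒪 A :=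
  haveI := h.isArtinian
  FA_S53_NilLocal.of_isArtinianRing h.isLocalHom h.residue_surjective

theorem FA_S53_test_of_nilLocal [Finite A] (h : FA_S53_NilLocal 𝒪 A) :
    IsArtinianTestAlgebra 𝒪 A :=
  ⟨h.isLocalHom, h.residue_surjective, inferInstance⟩

theorem FA_S53_finite_quot_pow [Finite (ResidueField 𝒪)] [IsNoetherianRing A]
    (h1 : IsLocalHom (algebraMap 𝒪 A))
    (h2 : Function.Surjective (IsLocalRing.residue A ∘ algebraMap 𝒪 A)) (n : ℕ) :
    Finite (A ⧸ maximalIdeal A ^ n) := by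
  have hres : Finite (A ⧸ maximalIdeal A) := by
    have hsurj : Function.Surjective (ResidueField.map (algebraMap 𝒪 A)) := by
      intro x
      obtain ⟨c, hc⟩ := h2 x
      exact ⟨IsLocalRing.residue 𝒪 c, by rw [ResidueField.map_residue]; exact hc⟩
    exact Finite.of_surjective _ hsurj
  have hfg : (maximalIdeal A).FG := IsNoetherian.noetherian _
  exact Ideal.finite_quotient_pow hfg n

theorem FA_S53_finite_of_test [Finite (ResidueField 𝒪)] (h : IsArtinianTestAlgebra 𝒪 A) :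
    Finite A := by
  have := h.isArtinian
  obtain ⟨n, hn⟩ := (isArtinianRing_iff_isNilpotent_maximalIdeal A).mp inferInstance
  have hq : Finite (A ⧸ maximalIdeal A ^ n) :=
    FA_S53_finite_quot_pow h.isLocalHom h.residue_surjective n
  refine Finite.of_injective (Ideal.Quotient.mk (maximalIdeal A ^ n)) ?_
  rw [injective_iff_map_eq_zero]
  intro a ha
  rw [Ideal.Quotient.eq_zero_iff_mem, hn] at ha
  exact (Submodule.mem_bot A).mp ha

end Conv

section Dual

variable (𝒪)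

theorem FA_S53_nilLocal_residueField : FA_S53_NilLocal 𝒪 (ResidueField 𝒪) := by
  refine ⟨inferInstance, fun c hc => ?_, fun e => ?_⟩
  · have : algebraMap 𝒪 (ResidueField 𝒪) c = 0 := (IsLocalRing.residue_eq_zero_iff c).mpr hc
    rw [this]
    exact IsNilpotent.zero
  · obtain ⟨c, rfl⟩ := IsLocalRing.residue_surjective e
    refine ⟨c, ?_⟩
    have : IsLocalRing.residue 𝒪 c - algebraMap 𝒪 (ResidueField 𝒪) c = 0 := sub_self _
    rw [this]
    exact IsNilpotent.zero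

theorem FA_S53_test_residueField [Finite (ResidueField 𝒪)] :
    IsArtinianTestAlgebra 𝒪 (ResidueField 𝒪) :=
  FA_S53_test_of_nilLocal (FA_S53_nilLocal_residueField 𝒪)

theorem FA_S53_algDual_apply (c : 𝒪) :
    (FA_S53_algDual 𝒪).algebraMap c = TrivSqZeroExt.inl (IsLocalRing.residue 𝒪 c) := rfl

theorem FA_S53_nilLocal_dual :
    letI := FA_S53_algDual 𝒪
    FA_S53_NilLocal 𝒪 (DualNumber (ResidueField 𝒪)) := by
  letI := FA_S53_algDual 𝒪
  refine ⟨inferInstance, fun c hc => ?_, fun e => ?_⟩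
  · have : algebraMap 𝒪 (DualNumber (ResidueField 𝒪)) c = 0 := by
      show TrivSqZeroExt.inl (IsLocalRing.residue 𝒪 c) = 0
      rw [(IsLocalRing.residue_eq_zero_iff c).mpr hc, TrivSqZeroExt.inl_zero]
    rw [this]
    exact IsNilpotent.zero
  · obtain ⟨c, hc⟩ := IsLocalRing.residue_surjective e.fst
    refine ⟨c, 2, ?_⟩
    have h1 : e - algebraMap 𝒪 (DualNumber (ResidueField 𝒪)) c = TrivSqZeroExt.inr e.snd := by
      show e - TrivSqZeroExt.inl (IsLocalRing.residue 𝒪 c) = _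
      rw [hc]
      ext <;> simp
    rw [h1, pow_two, TrivSqZeroExt.inr_mul_inr]

instance FA_S53_finite_dual [Finite (ResidueField 𝒪)] : Finite (DualNumber (ResidueField 𝒪)) :=
  inferInstanceAs (Finite (ResidueField 𝒪 × ResidueField 𝒪))

theorem FA_S53_test_dual [Finite (ResidueField 𝒪)] :
    letI := FA_S53_algDual 𝒪
    IsArtinianTestAlgebra 𝒪 (DualNumber (ResidueField 𝒪)) := by
  letI := FA_S53_algDual 𝒪
  exact FA_S53_test_of_nilLocal (FA_S53_nilLocal_dual 𝒪)

end Dual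

section Two

variable {E : Type} [CommRing E] [IsLocalRing E] [Algebra 𝒪 E]

/-- The algebra map `E → k[ε]` attached to a derivation. -/
noncomputable def FA_S53_psiAlg (h : FA_S53_NilLocal 𝒪 E) (L : E →ₗ[𝒪] ResidueField 𝒪)
    (hL1 : L 1 = 0) (hL2 : ∀ x ∈ maximalIdeal E, ∀ y ∈ maximalIdeal E, L (x * y) = 0) :
    letI := FA_S53_algDual 𝒪
    E →ₐ[𝒪] DualNumber (ResidueField 𝒪) :=
  letI := FA_S53_algDual 𝒪
  { FA_S53_psi h L hL1 hL2 with
    commutes' := fun c => by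
      show FA_S53_psi h L hL1 hL2 (algebraMap 𝒪 E c) = TrivSqZeroExt.inl (IsLocalRing.residue 𝒪 c)
      rw [FA_S53_psi_apply, FA_S53_resMap_algebraMap, Algebra.algebraMap_eq_smul_one, map_smul,
        hL1, smul_zero, TrivSqZeroExt.inr_zero, add_zero] }

theorem FA_S53_psiAlg_apply (h : FA_S53_NilLocal 𝒪 E) (L : E →ₗ[𝒪] ResidueField 𝒪)
    (hL1 : L 1 = 0) (hL2 : ∀ x ∈ maximalIdeal E, ∀ y ∈ maximalIdeal E, L (x * y) = 0) (e : E) :
    letI := FA_S53_algDual 𝒪
    FA_S53_psiAlg h L hL1 hL2 e =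
      TrivSqZeroExt.inl (FA_S53_resMap h e) + TrivSqZeroExt.inr (L e) := rfl

/-- Maps to the dual numbers separate a proper subalgebra from the whole algebra. -/
theorem FA_S53_exists_two_maps (h : FA_S53_NilLocal 𝒪 E) [Finite E] (B : Subalgebra 𝒪 E)
    (hB : B ≠ ⊤) :
    letI := FA_S53_algDual 𝒪
    ∃ ψ₁ ψ₂ : E →ₐ[𝒪] DualNumber (ResidueField 𝒪), ψ₁ ≠ ψ₂ ∧ ∀ b ∈ B, ψ₁ b = ψ₂ b := by
  letI := FA_S53_algDual 𝒪
  obtain ⟨n, hn⟩ := (isArtinianRing_iff_isNilpotent_maximalIdeal E).mp inferInstance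
  have h1 : ¬ ∀ e : E, ∃ b ∈ B, e - b ∈ maximalIdeal E ^ 2 :=
    fun hall => hB (FA_S53_subalgebra_eq_top hn B hall)
  obtain ⟨L, hL0, hLB, hL2⟩ := FA_S53_exists_functional B h1
  have hL1 : L 1 = 0 := hLB 1 B.one_mem
  refine ⟨FA_S53_psiAlg h L hL1 hL2, FA_S53_psiAlg h 0 rfl (fun _ _ _ _ => rfl), ?_, ?_⟩
  · intro heq
    apply hL0
    ext e
    have := congrArg (fun ψ : E →ₐ[𝒪] DualNumber (ResidueField 𝒪) => (ψ e).snd) heq
    simpa [FA_S53_psiAlg_apply] using this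
  · intro b hb
    rw [FA_S53_psiAlg_apply, FA_S53_psiAlg_apply, hLB b hb]
    rfl

end Two

end FA_S53
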