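import Mathlib
import Fermat.Agent.S53.Interface
import Fermat.Agent.S53.AbsEval
import Fermat.Agent.S53.AbsLocal
import Fermat.Agent.S53.AbsNak
import Fermat.Agent.S53.AbsTest

/-!
# S53 part (A), file 5: test pairs, their evaluation maps, generation and directedness
-/

set_option linter.unusedSectionVars false

namespace FA_S53

open IsLocalRing GaloisRep Fermat.Agent.S53

/-- Finitely many points separate the elements of a finite set of functions. -/
theorem FA_S53_separating {X Y : Type} (T : Set (X → Y)) (hT : T.Finite) :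
    ∃ (s : ℕ) (pts : Fin s → X), ∀ g ∈ T, ∀ g' ∈ T, (∀ i, g (pts i) = g' (pts i)) → g = g' := by
  classical
  have hfin : Finite T := hT.to_subtype
  let P := {p : T × T // (p.1 : X → Y) ≠ (p.2 : X → Y)}
  have hP : Finite P := inferInstance
  have hw : ∀ p : P, ∃ x, (p.1.1 : X → Y) x ≠ (p.1.2 : X → Y) x := fun p =>
    Function.ne_iff.mp p.2
  choose w hw using hw
  let e := Finite.equivFin P
  refine ⟨Nat.card P, fun i => w (e.symm i), fun g hg g' hg' hall => ?_⟩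
  by_contra hne
  let p : P := ⟨(⟨g, hg⟩, ⟨g', hg'⟩), hne⟩
  have h1 : g (w (e.symm (e p))) = g' (w (e.symm (e p))) := hall (e p)
  rw [Equiv.symm_apply_apply] at h1
  exact hw p h1

section Pairs

variable (𝒪 : Type) [CommRing 𝒪] [IsLocalRing 𝒪] (X : Type) (N : FA_S53_Fun 𝒪 X)

/-- A point of the functor `N` over an Artinian test algebra. -/
structure FA_S53_TestPair : Type 1 where
  /-- the algebra -/
  A : Type
  /-- ring structure -/
  cr : CommRing A
  /-- it is local -/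
  lr : IsLocalRing A
  /-- algebra structure -/
  alg : Algebra 𝒪 A
  /-- it is a test algebra -/
  test : IsArtinianTestAlgebra 𝒪 A
  /-- the point -/
  f : X → A
  /-- it belongs to the functor -/
  mem : f ∈ N A

variable {𝒪 X N}

instance FA_S53_TestPair.instCommRing (t : FA_S53_TestPair 𝒪 X N) : CommRing t.A := t.cr

instance FA_S53_TestPair.instIsLocalRing (t : FA_S53_TestPair 𝒪 X N) : IsLocalRing t.A := t.lr

instance FA_S53_TestPair.instAlgebra (t : FA_S53_TestPair 𝒪 X N) : Algebra 𝒪 t.A := t.alg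

instance FA_S53_TestPair.instIsArtinianRing (t : FA_S53_TestPair 𝒪 X N) : IsArtinianRing t.A :=
  t.test.isArtinian

instance FA_S53_TestPair.instIsLocalHom (t : FA_S53_TestPair 𝒪 X N) :
    IsLocalHom (algebraMap 𝒪 t.A) :=
  t.test.isLocalHom

theorem FA_S53_TestPair.nil (t : FA_S53_TestPair 𝒪 X N) : FA_S53_NilLocal 𝒪 t.A :=
  FA_S53_nilLocal_of_test t.test

theorem FA_S53_TestPair.finite [Finite (ResidueField 𝒪)] (t : FA_S53_TestPair 𝒪 X N) :
    Finite t.A :=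
  FA_S53_finite_of_test t.test

theorem FA_S53_TestPair.exists_pow_eq_bot (t : FA_S53_TestPair 𝒪 X N) :
    ∃ n, maximalIdeal t.A ^ n = ⊥ :=
  (isArtinianRing_iff_isNilpotent_maximalIdeal t.A).mp inferInstance

end Pairs

section Ev

variable {𝒪 : Type} [CommRing 𝒪] [IsLocalRing 𝒪] {X : Type} {s : ℕ}
variable (pts : Fin s → X) (c₀ : X → 𝒪)

/-- The evaluation map attached to a family `f : X → A` which is congruent to `c₀`. -/
noncomputable def FA_S53_ev {A : Type} [CommRing A] [IsLocalRing A] [Algebra 𝒪 A]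
    [IsAdicComplete (maximalIdeal A) A] (f : X → A)
    (hf : ∀ x, f x - algebraMap 𝒪 A (c₀ x) ∈ maximalIdeal A) :
    MvPowerSeries (Fin s) 𝒪 →ₐ[𝒪] A :=
  FA_S53_cl (maximalIdeal A) (fun i => f (pts i) - algebraMap 𝒪 A (c₀ (pts i)))
    (fun i => hf (pts i))

variable {A : Type} [CommRing A] [IsLocalRing A] [Algebra 𝒪 A]
  [IsAdicComplete (maximalIdeal A) A] (f : X → A)
  (hf : ∀ x, f x - algebraMap 𝒪 A (c₀ x) ∈ maximalIdeal A)

theorem FA_S53_ev_X (i : Fin s) :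
    FA_S53_ev pts c₀ f hf (MvPowerSeries.X i) = f (pts i) - algebraMap 𝒪 A (c₀ (pts i)) :=
  FA_S53_cl_X _ _ _ i

theorem FA_S53_ev_unique (φ : MvPowerSeries (Fin s) 𝒪 →ₐ[𝒪] A)
    (h : ∀ i, φ (MvPowerSeries.X i) = f (pts i) - algebraMap 𝒪 A (c₀ (pts i))) :
    φ = FA_S53_ev pts c₀ f hf :=
  FA_S53_cl_unique _ _ _ φ h

theorem FA_S53_ev_comp {B : Type} [CommRing B] [IsLocalRing B] [Algebra 𝒪 B]
    [IsAdicComplete (maximalIdeal B) B] (ψ : A →ₐ[𝒪] B) (g : X → B)
    (hg : ∀ x, g x - algebraMap 𝒪 B (c₀ x) ∈ maximalIdeal B) (hfg : ∀ x, ψ (f x) = g x) :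
    ψ.comp (FA_S53_ev pts c₀ f hf) = FA_S53_ev pts c₀ g hg := by
  refine FA_S53_ev_unique pts c₀ g hg _ fun i => ?_
  rw [AlgHom.comp_apply, FA_S53_ev_X, map_sub, hfg, AlgHom.commutes]

theorem FA_S53_ev_comp_apply {B : Type} [CommRing B] [IsLocalRing B] [Algebra 𝒪 B]
    [IsAdicComplete (maximalIdeal B) B] (ψ : A →ₐ[𝒪] B) (g : X → B)
    (hg : ∀ x, g x - algebraMap 𝒪 B (c₀ x) ∈ maximalIdeal B) (hfg : ∀ x, ψ (f x) = g x)
    (u : MvPowerSeries (Fin s) 𝒪) :
    ψ (FA_S53_ev pts c₀ f hf u) = FA_S53_ev pts c₀ g hg u := by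
  rw [← FA_S53_ev_comp pts c₀ f hf ψ g hg hfg, AlgHom.comp_apply]

theorem FA_S53_ev_mem_pow [IsLocalHom (algebraMap 𝒪 A)] (n : ℕ) (u : MvPowerSeries (Fin s) 𝒪)
    (hu : u ∈ maximalIdeal (MvPowerSeries (Fin s) 𝒪) ^ n) :
    FA_S53_ev pts c₀ f hf u ∈ maximalIdeal A ^ n :=
  FA_S53_cl_mem_pow _ _ n u hu

theorem FA_S53_ev_isLocalHom [IsLocalHom (algebraMap 𝒪 A)] :
    IsLocalHom (FA_S53_ev pts c₀ f hf : MvPowerSeries (Fin s) 𝒪 →+* A) :=
  FA_S53_cl_isLocalHom _ _

/-- The value `f (pts i)` lies in the range of the evaluation map. -/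
theorem FA_S53_ev_pts (i : Fin s) :
    FA_S53_ev pts c₀ f hf (MvPowerSeries.X i + algebraMap 𝒪 _ (c₀ (pts i))) = f (pts i) := by
  rw [map_add, FA_S53_ev_X, AlgHom.commutes, sub_add_cancel]

end Ev

end FA_S53
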