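import Mathlib
import Fermat.Agent.S53.Interface
import Fermat.Agent.S53.AbsEval
import Fermat.Agent.S53.AbsLocal
import Fermat.Agent.S53.AbsNak
import Fermat.Agent.S53.AbsTest
import Fermat.Agent.S53.AbsPair

/-!
# S53 part (A), file 6: generation by finitely many points and directedness of test pairs
-/

set_option linter.unusedSectionVars false
set_option linter.style.haveILetI false

namespace FA_S53

open IsLocalRing GaloisRep Fermat.Agent.S53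

variable {𝒪 : Type} [CommRing 𝒪] [IsLocalRing 𝒪] [Finite (ResidueField 𝒪)]
variable {X : Type} {N : FA_S53_Fun 𝒪 X} {f₀ : X → ResidueField 𝒪}
variable (hS : FA_S53_IsSlice 𝒪 X N f₀)
variable {s : ℕ} (pts : Fin s → X) (c₀ : X → 𝒪) (hc₀ : ∀ x, residue 𝒪 (c₀ x) = f₀ x)

include hS hc₀ in
theorem FA_S53_TestPair.res (t : FA_S53_TestPair 𝒪 X N) (x : X) :
    t.f x - algebraMap 𝒪 t.A (c₀ x) ∈ maximalIdeal t.A :=
  hS.res t.test t.f t.mem x (c₀ x) (hc₀ x)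

/-- The evaluation map of a test pair. -/
noncomputable def FA_S53_evT (t : FA_S53_TestPair 𝒪 X N) :
    MvPowerSeries (Fin s) 𝒪 →ₐ[𝒪] t.A :=
  FA_S53_ev pts c₀ t.f (t.res hS c₀ hc₀)

include hS in
/-- Points descend along injective algebra maps. -/
theorem FA_S53_point_of_injective (t : FA_S53_TestPair 𝒪 X N) {E : Type} [CommRing E]
    [IsLocalRing E] [Algebra 𝒪 E] (ι : E →ₐ[𝒪] t.A) (hι : Function.Injective ι) (g : X → E)
    (hg : ∀ x, ι (g x) = t.f x) : IsArtinianTestAlgebra 𝒪 E ∧ g ∈ N E := by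
  have hnil : FA_S53_NilLocal 𝒪 E := t.nil.of_injective ι hι
  have hfinA : Finite t.A := t.finite
  have hfin : Finite E := Finite.of_injective ι hι
  have htest : IsArtinianTestAlgebra 𝒪 E := FA_S53_test_of_nilLocal hnil
  have hloc : IsLocalHom (ι : E →+* t.A) := hnil.isLocalHom_algHom ι
  have hmem : (fun x => ι (g x)) ∈ N t.A := by
    have : (fun x => ι (g x)) = t.f := funext hg
    rw [this]
    exact t.mem
  refine ⟨htest, hS.desc htest t.test t.test ι ι hloc hloc (fun a h1 _ => ?_) g hmem hmem⟩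
  exact hι (by rw [h1, map_zero])

/-- The pulled-back test pair. -/
noncomputable def FA_S53_TestPair.pull (t : FA_S53_TestPair 𝒪 X N) (E : Type) [CommRing E]
    [IsLocalRing E] [Algebra 𝒪 E] (ι : E →ₐ[𝒪] t.A) (hι : Function.Injective ι) (g : X → E)
    (hg : ∀ x, ι (g x) = t.f x) : FA_S53_TestPair 𝒪 X N :=
  ⟨E, inferInstance, inferInstance, inferInstance,
    (FA_S53_point_of_injective hS t ι hι g hg).1, g, (FA_S53_point_of_injective hS t ι hι g hg).2⟩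

include hS hc₀ in
/-- Directedness: two test pairs are dominated by a third one. -/
theorem FA_S53_directed (t₁ t₂ : FA_S53_TestPair 𝒪 X N) :
    ∃ (t₃ : FA_S53_TestPair 𝒪 X N) (p₁ : t₃.A →ₐ[𝒪] t₁.A) (p₂ : t₃.A →ₐ[𝒪] t₂.A),
      (∀ x, p₁ (t₃.f x) = t₁.f x) ∧ (∀ x, p₂ (t₃.f x) = t₂.f x) := by
  have hnil : FA_S53_NilLocal 𝒪 (FA_S53_fib 𝒪 t₁.A t₂.A) := FA_S53_fib_nilLocal t₁.nil t₂.nil
  haveI : IsLocalRing (FA_S53_fib 𝒪 t₁.A t₂.A) := hnil.isLocalRing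
  have hfin1 : Finite t₁.A := t₁.finite
  have hfin2 : Finite t₂.A := t₂.finite
  have hfin : Finite (FA_S53_fib 𝒪 t₁.A t₂.A) :=
    Finite.of_injective (fun a : FA_S53_fib 𝒪 t₁.A t₂.A => (a : t₁.A × t₂.A))
      Subtype.val_injective
  have htest : IsArtinianTestAlgebra 𝒪 (FA_S53_fib 𝒪 t₁.A t₂.A) := FA_S53_test_of_nilLocal hnil
  let g : X → FA_S53_fib 𝒪 t₁.A t₂.A := fun x =>
    ⟨(t₁.f x, t₂.f x), FA_S53_pair_mem_fib t₁.nil t₂.nil _ _ (c₀ x) (t₁.res hS c₀ hc₀ x)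
      (t₂.res hS c₀ hc₀ x)⟩
  let p₁ : FA_S53_fib 𝒪 t₁.A t₂.A →ₐ[𝒪] t₁.A :=
    (AlgHom.fst 𝒪 t₁.A t₂.A).comp (FA_S53_fib 𝒪 t₁.A t₂.A).val
  let p₂ : FA_S53_fib 𝒪 t₁.A t₂.A →ₐ[𝒪] t₂.A :=
    (AlgHom.snd 𝒪 t₁.A t₂.A).comp (FA_S53_fib 𝒪 t₁.A t₂.A).val
  have hl1 : IsLocalHom (p₁ : FA_S53_fib 𝒪 t₁.A t₂.A →+* t₁.A) := hnil.isLocalHom_algHom p₁
  have hl2 : IsLocalHom (p₂ : FA_S53_fib 𝒪 t₁.A t₂.A →+* t₂.A) := hnil.isLocalHom_algHom p₂
  have hmem : g ∈ N (FA_S53_fib 𝒪 t₁.A t₂.A) := by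
    refine hS.desc htest t₁.test t₂.test p₁ p₂ hl1 hl2 (fun a h1 h2 => ?_) g t₁.mem t₂.mem
    exact Subtype.ext (Prod.ext h1 h2)
  exact ⟨⟨FA_S53_fib 𝒪 t₁.A t₂.A, inferInstance, inferInstance, inferInstance, htest, g, hmem⟩,
    p₁, p₂, fun _ => rfl, fun _ => rfl⟩

include hS hc₀ in
/-- Directedness, in terms of the evaluation maps. -/
theorem FA_S53_directed_ev (t₁ t₂ : FA_S53_TestPair 𝒪 X N) :
    ∃ t₃ : FA_S53_TestPair 𝒪 X N,
      (∀ u, FA_S53_evT hS pts c₀ hc₀ t₃ u = 0 →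
        FA_S53_evT hS pts c₀ hc₀ t₁ u = 0 ∧ FA_S53_evT hS pts c₀ hc₀ t₂ u = 0) ∧
      ∀ u x, FA_S53_evT hS pts c₀ hc₀ t₃ u = t₃.f x →
        FA_S53_evT hS pts c₀ hc₀ t₁ u = t₁.f x ∧ FA_S53_evT hS pts c₀ hc₀ t₂ u = t₂.f x := by
  obtain ⟨t₃, p₁, p₂, h1, h2⟩ := FA_S53_directed hS c₀ hc₀ t₁ t₂
  have e1 : ∀ u, p₁ (FA_S53_evT hS pts c₀ hc₀ t₃ u) = FA_S53_evT hS pts c₀ hc₀ t₁ u := fun u =>
    FA_S53_ev_comp_apply pts c₀ t₃.f _ p₁ t₁.f _ h1 u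
  have e2 : ∀ u, p₂ (FA_S53_evT hS pts c₀ hc₀ t₃ u) = FA_S53_evT hS pts c₀ hc₀ t₂ u := fun u =>
    FA_S53_ev_comp_apply pts c₀ t₃.f _ p₂ t₂.f _ h2 u
  refine ⟨t₃, fun u hu => ⟨?_, ?_⟩, fun u x hu => ⟨?_, ?_⟩⟩
  · rw [← e1, hu, map_zero]
  · rw [← e2, hu, map_zero]
  · rw [← e1, hu, h1]
  · rw [← e2, hu, h2]

include hS hc₀ in
/-- Generation: for a test pair generated by its values, the evaluation map is surjective. -/
theorem FA_S53_evT_surjective_of_adjoin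
    (hpts : letI := FA_S53_algDual 𝒪
      ∀ g ∈ N (DualNumber (ResidueField 𝒪)), ∀ g' ∈ N (DualNumber (ResidueField 𝒪)),
        (∀ i, g (pts i) = g' (pts i)) → g = g')
    (t : FA_S53_TestPair 𝒪 X N) (hadj : Algebra.adjoin 𝒪 (Set.range t.f) = ⊤) :
    (FA_S53_evT hS pts c₀ hc₀ t).range = ⊤ := by
  by_contra hB
  letI := FA_S53_algDual 𝒪
  have hfin : Finite t.A := t.finite
  obtain ⟨ψ₁, ψ₂, hne, hagree⟩ := FA_S53_exists_two_maps t.nil _ hB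
  have htd : IsArtinianTestAlgebra 𝒪 (DualNumber (ResidueField 𝒪)) := FA_S53_test_dual 𝒪
  have hl1 : IsLocalHom (ψ₁ : t.A →+* DualNumber (ResidueField 𝒪)) := t.nil.isLocalHom_algHom ψ₁
  have hl2 : IsLocalHom (ψ₂ : t.A →+* DualNumber (ResidueField 𝒪)) := t.nil.isLocalHom_algHom ψ₂
  have hm1 := hS.map t.test htd ψ₁ hl1 t.f t.mem
  have hm2 := hS.map t.test htd ψ₂ hl2 t.f t.mem
  have hval : ∀ i, t.f (pts i) ∈ (FA_S53_evT hS pts c₀ hc₀ t).range := fun i =>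
    ⟨_, FA_S53_ev_pts pts c₀ t.f (t.res hS c₀ hc₀) i⟩
  have heq := hpts _ hm1 _ hm2 (fun i => hagree _ (hval i))
  apply hne
  refine AlgHom.ext_of_adjoin_eq_top hadj ?_
  rintro _ ⟨x, rfl⟩
  exact congrFun heq x

include hS hc₀ in
/-- Generation: every value of a test pair is in the range of the evaluation map. -/
theorem FA_S53_evT_value
    (hpts : letI := FA_S53_algDual 𝒪
      ∀ g ∈ N (DualNumber (ResidueField 𝒪)), ∀ g' ∈ N (DualNumber (ResidueField 𝒪)),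
        (∀ i, g (pts i) = g' (pts i)) → g = g')
    (t : FA_S53_TestPair 𝒪 X N) (x : X) :
    ∃ u, FA_S53_evT hS pts c₀ hc₀ t u = t.f x := by
  have hnil : FA_S53_NilLocal 𝒪 (Algebra.adjoin 𝒪 (Set.range t.f)) := t.nil.subalgebra _
  haveI : IsLocalRing (Algebra.adjoin 𝒪 (Set.range t.f)) := hnil.isLocalRing
  let g : X → Algebra.adjoin 𝒪 (Set.range t.f) := fun x =>
    ⟨t.f x, Algebra.subset_adjoin ⟨x, rfl⟩⟩
  let t' : FA_S53_TestPair 𝒪 X N :=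
    t.pull hS (Algebra.adjoin 𝒪 (Set.range t.f)) (Algebra.adjoin 𝒪 (Set.range t.f)).val
      Subtype.val_injective g (fun _ => rfl)
  have hadj : Algebra.adjoin 𝒪 (Set.range t'.f) = ⊤ := by
    have h1 : Set.range t'.f =
        ((↑) : Algebra.adjoin 𝒪 (Set.range t.f) → t.A) ⁻¹' (Set.range t.f) := by
      ext d
      constructor
      · rintro ⟨x, rfl⟩
        exact ⟨x, rfl⟩
      · rintro ⟨x, hx⟩
        exact ⟨x, Subtype.ext hx⟩
    rw [h1]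
    exact Algebra.adjoin_adjoin_coe_preimage
  have hsurj := FA_S53_evT_surjective_of_adjoin hS pts c₀ hc₀ hpts t' hadj
  have hsurj' : ∀ d : t'.A, ∃ u, FA_S53_evT hS pts c₀ hc₀ t' u = d := by
    intro d
    have hd : d ∈ (FA_S53_evT hS pts c₀ hc₀ t').range := by
      rw [hsurj]
      exact Algebra.mem_top
    exact (AlgHom.mem_range _).mp hd
  obtain ⟨u, hu⟩ := hsurj' (g x)
  refine ⟨u, ?_⟩
  have h2 : (Algebra.adjoin 𝒪 (Set.range t.f)).val (FA_S53_evT hS pts c₀ hc₀ t' u) =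
      FA_S53_evT hS pts c₀ hc₀ t u :=
    FA_S53_ev_comp_apply pts c₀ t'.f (t'.res hS c₀ hc₀)
      (Algebra.adjoin 𝒪 (Set.range t.f)).val t.f (t.res hS c₀ hc₀) (fun _ => rfl) u
  rw [← h2, hu]
  rfl

end FA_S53
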