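import Mathlib
import Fermat.Prelude.Thm_IsLocalRing_isAdicComplete_of_module_finite
import Fermat.Agent.Lib.MvPowerSeriesComplete
import Fermat.Agent.S53.Interface
import Fermat.Agent.S53.AbsEval
import Fermat.Agent.S53.AbsLocal
import Fermat.Agent.S53.AbsNak
import Fermat.Agent.S53.AbsTest
import Fermat.Agent.S53.AbsPair
import Fermat.Agent.S53.AbsGen
import Fermat.Agent.S53.AbsCompact

/-!
# S53 part (A), file 7: the universal ring `R = 𝒪⟦X₁,…,X_s⟧ ⧸ J`
-/

set_option linter.unusedSectionVars false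
set_option linter.style.haveILetI false

namespace FA_S53

open IsLocalRing GaloisRep Fermat.Agent.S53

section General

theorem FA_S53_eq_zero_of_forall_mem_pow {A : Type} [CommRing A] (I : Ideal A) [IsHausdorff I A]
    (a : A) (h : ∀ n, a ∈ I ^ n) : a = 0 := by
  have hH : IsHausdorff I A := inferInstance
  refine hH.haus _ fun n => ?_
  rw [SModEq.zero, smul_eq_mul, Ideal.mul_top]
  exact h n

variable {𝒪 : Type} [CommRing 𝒪] [IsLocalRing 𝒪]

theorem FA_S53_S_isLocalHom (σ : Type) :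
    IsLocalHom (algebraMap 𝒪 (MvPowerSeries σ 𝒪)) := by
  refine ⟨fun c hc => ?_⟩
  have h := (MvPowerSeries.isUnit_iff_constantCoeff).mp hc
  have h2 : MvPowerSeries.constantCoeff (algebraMap 𝒪 (MvPowerSeries σ 𝒪) c) = c := by
    rw [MvPowerSeries.algebraMap_apply]
    simp
  rwa [h2] at h

theorem FA_S53_S_sub_mem (σ : Type) (p : MvPowerSeries σ 𝒪) :
    p - algebraMap 𝒪 (MvPowerSeries σ 𝒪) (MvPowerSeries.constantCoeff p) ∈
      maximalIdeal (MvPowerSeries σ 𝒪) := by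
  rw [mem_maximalIdeal, mem_nonunits_iff, MvPowerSeries.isUnit_iff_constantCoeff]
  have h2 : MvPowerSeries.constantCoeff
      (algebraMap 𝒪 (MvPowerSeries σ 𝒪) (MvPowerSeries.constantCoeff p)) =
      MvPowerSeries.constantCoeff p := by
    rw [MvPowerSeries.algebraMap_apply]
    simp
  rw [map_sub, h2, sub_self]
  exact not_isUnit_zero

theorem FA_S53_S_residue_surjective (σ : Type) :
    Function.Surjective (IsLocalRing.residue (MvPowerSeries σ 𝒪) ∘
      algebraMap 𝒪 (MvPowerSeries σ 𝒪)) := by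
  intro x
  obtain ⟨p, rfl⟩ := IsLocalRing.residue_surjective x
  refine ⟨MvPowerSeries.constantCoeff p, ?_⟩
  rw [Function.comp_apply, eq_comm, ← sub_eq_zero, ← map_sub, IsLocalRing.residue_eq_zero_iff]
  exact FA_S53_S_sub_mem σ p

/-- Residue-surjectivity passes to quotients. -/
theorem FA_S53_residue_surjective_of_surjective {A B : Type} [CommRing A] [IsLocalRing A]
    [Algebra 𝒪 A] [CommRing B] [IsLocalRing B] [Algebra 𝒪 B] (q : A →ₐ[𝒪] B)
    (hq : Function.Surjective q)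
    (h : Function.Surjective (IsLocalRing.residue A ∘ algebraMap 𝒪 A)) :
    Function.Surjective (IsLocalRing.residue B ∘ algebraMap 𝒪 B) := by
  intro x
  obtain ⟨b, rfl⟩ := IsLocalRing.residue_surjective x
  obtain ⟨a, rfl⟩ := hq b
  obtain ⟨c, hc⟩ := h (IsLocalRing.residue A a)
  refine ⟨c, ?_⟩
  have h1 : a - algebraMap 𝒪 A c ∈ maximalIdeal A := by
    rw [← IsLocalRing.residue_eq_zero_iff, map_sub, ← hc, Function.comp_apply, sub_self]
  have h2 : q (a - algebraMap 𝒪 A c) ∈ maximalIdeal B := by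
    rw [mem_maximalIdeal, mem_nonunits_iff]
    intro hu
    have hloc : IsLocalHom (q : A →+* B) := IsLocalHom.of_surjective (q : A →+* B) hq
    exact (mem_maximalIdeal _).mp h1 (hloc.map_nonunit _ hu)
  rw [map_sub, AlgHom.commutes] at h2
  rw [Function.comp_apply, eq_comm, ← sub_eq_zero, ← map_sub, IsLocalRing.residue_eq_zero_iff]
  exact h2

end General

section Main

variable {𝒪 : Type} [CommRing 𝒪] [IsLocalRing 𝒪] [IsNoetherianRing 𝒪]
  [IsAdicComplete (maximalIdeal 𝒪) 𝒪] [Finite (ResidueField 𝒪)]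
variable {X : Type} {N : FA_S53_Fun 𝒪 X} {f₀ : X → ResidueField 𝒪}
variable (hS : FA_S53_IsSlice 𝒪 X N f₀)
variable {s : ℕ} (pts : Fin s → X) (c₀ : X → 𝒪) (hc₀ : ∀ x, residue 𝒪 (c₀ x) = f₀ x)

include hS in
/-- The residual point as a test pair. -/
noncomputable def FA_S53_basePair : FA_S53_TestPair 𝒪 X N :=
  ⟨ResidueField 𝒪, inferInstance, inferInstance, inferInstance, FA_S53_test_residueField 𝒪, f₀,
    hS.base⟩

/-- The ideal of relations. -/
noncomputable def FA_S53_J : Ideal (MvPowerSeries (Fin s) 𝒪) :=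
  ⨅ t : FA_S53_TestPair 𝒪 X N, RingHom.ker (FA_S53_evT hS pts c₀ hc₀ t)

theorem FA_S53_mem_J (u : MvPowerSeries (Fin s) 𝒪) :
    u ∈ FA_S53_J hS pts c₀ hc₀ ↔ ∀ t, FA_S53_evT hS pts c₀ hc₀ t u = 0 := by
  simp [FA_S53_J, RingHom.mem_ker]

theorem FA_S53_J_ne_top : FA_S53_J hS pts c₀ hc₀ ≠ ⊤ := by
  intro h
  have h1 : (1 : MvPowerSeries (Fin s) 𝒪) ∈ FA_S53_J hS pts c₀ hc₀ := h ▸ Submodule.mem_top
  have h2 := (FA_S53_mem_J hS pts c₀ hc₀ 1).mp h1 (FA_S53_basePair hS)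
  rw [map_one] at h2
  exact one_ne_zero h2

theorem FA_S53_evT_open (t : FA_S53_TestPair 𝒪 X N) :
    ∃ n, maximalIdeal (MvPowerSeries (Fin s) 𝒪) ^ n ≤ RingHom.ker (FA_S53_evT hS pts c₀ hc₀ t) := by
  obtain ⟨n, hn⟩ := t.exists_pow_eq_bot
  refine ⟨n, fun u hu => ?_⟩
  have h := FA_S53_ev_mem_pow pts c₀ t.f (t.res hS c₀ hc₀) n u hu
  rw [hn] at h
  exact (RingHom.mem_ker).mpr ((Submodule.mem_bot _).mp h)

theorem FA_S53_S_finite (n : ℕ) :
    Finite (MvPowerSeries (Fin s) 𝒪 ⧸ maximalIdeal (MvPowerSeries (Fin s) 𝒪) ^ n) :=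
  FA_S53_finite_quot_pow (FA_S53_S_isLocalHom (Fin s)) (FA_S53_S_residue_surjective (Fin s)) n

/-- Universal elements: power series which evaluate to the value at `x` of every test pair. -/
theorem FA_S53_exists_univ
    (hpts : letI := FA_S53_algDual 𝒪
      ∀ g ∈ N (DualNumber (ResidueField 𝒪)), ∀ g' ∈ N (DualNumber (ResidueField 𝒪)),
        (∀ i, g (pts i) = g' (pts i)) → g = g')
    (x : X) :
    ∃ u : MvPowerSeries (Fin s) 𝒪, ∀ t : FA_S53_TestPair 𝒪 X N,
      FA_S53_evT hS pts c₀ hc₀ t u = t.f x := by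
  haveI : Nonempty (FA_S53_TestPair 𝒪 X N) := ⟨FA_S53_basePair hS⟩
  haveI := Fermat.Agent.Lib.FA_mvPowerSeries_isAdicComplete 𝒪 (Fin s)
  refine FA_S53_compact (maximalIdeal (MvPowerSeries (Fin s) 𝒪)) (fun n => FA_S53_S_finite n)
    (fun t => {u | FA_S53_evT hS pts c₀ hc₀ t u = t.f x})
    (fun t => FA_S53_evT_value hS pts c₀ hc₀ hpts t x) (fun t₁ t₂ => ?_) (fun t u h => ?_)
  · obtain ⟨t₃, -, h3⟩ := FA_S53_directed_ev hS pts c₀ hc₀ t₁ t₂
    exact ⟨t₃, fun u hu => h3 u x hu⟩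
  · obtain ⟨n, hn⟩ := FA_S53_evT_open hS pts c₀ hc₀ t
    obtain ⟨c, hc, huc⟩ := h n
    have h1 := (RingHom.mem_ker).mp (hn huc)
    rw [map_sub, sub_eq_zero] at h1
    show FA_S53_evT hS pts c₀ hc₀ t u = t.f x
    rw [h1]
    exact hc

end Main

end FA_S53
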