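import Mathlib
import Fermat.Prelude.Thm_IsLocalRing_isAdicComplete_of_module_finite
import Fermat.Agent.Lib.MvPowerSeriesComplete
import Fermat.Agent.S53.Interface
import Fermat.Agent.S53.AbsEval
import Fermat.Agent.S53.AbsLocal
import Fermat.Agent.S53.AbsNak
import Fermat.Agent.S53.AbsTest
import Fermat.Agent.S53.AbsPair
import Fermat.Agent.S53.AbsGen
import Fermat.Agent.S53.AbsCompact
import Fermat.Agent.S53.AbsRing

/-!
# S53 part (A), file 8: the abstract representability theorem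
-/

set_option linter.unusedSectionVars false
set_option linter.style.haveILetI false

namespace FA_S53

open IsLocalRing GaloisRep Fermat.Agent.S53

section Main

variable {𝒪 : Type} [CommRing 𝒪] [IsLocalRing 𝒪] [IsNoetherianRing 𝒪]
  [IsAdicComplete (maximalIdeal 𝒪) 𝒪] [Finite (ResidueField 𝒪)]
variable {X : Type} {N : FA_S53_Fun 𝒪 X} {f₀ : X → ResidueField 𝒪}
variable (hS : FA_S53_IsSlice 𝒪 X N f₀)
variable {s : ℕ} (pts : Fin s → X) (c₀ : X → 𝒪) (hc₀ : ∀ x, residue 𝒪 (c₀ x) = f₀ x)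

section Complete

variable {A : Type} [CommRing A] [IsLocalRing A] [IsNoetherianRing A]
  [IsAdicComplete (maximalIdeal A) A] [Algebra 𝒪 A]
  (hloc : IsLocalHom (algebraMap 𝒪 A))
  (hsurj : Function.Surjective (IsLocalRing.residue A ∘ algebraMap 𝒪 A))
  (f : X → A) (hf : f ∈ N A)

include hS hloc hsurj hf in
/-- The truncations of a point over a complete ring are test pairs. -/
theorem FA_S53_exists_quotPair (n : ℕ) (hn : n ≠ 0) :
    ∃ (t : FA_S53_TestPair 𝒪 X N) (q : A →ₐ[𝒪] t.A), (∀ x, q (f x) = t.f x) ∧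
      ∀ a, q a = 0 → a ∈ maximalIdeal A ^ n := by
  have hK : maximalIdeal A ^ n ≠ ⊤ := by
    intro h
    have h1 : maximalIdeal A ^ n ≤ maximalIdeal A := Ideal.pow_le_self hn
    rw [h] at h1
    exact (maximalIdeal.isMaximal A).ne_top (eq_top_iff.mpr h1)
  have hnil : FA_S53_NilLocal 𝒪 (A ⧸ maximalIdeal A ^ n) :=
    FA_S53_NilLocal.of_quotient_isLocalRing hloc hsurj _ hK n le_rfl
  haveI : IsLocalRing (A ⧸ maximalIdeal A ^ n) := hnil.isLocalRing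
  haveI : Finite (A ⧸ maximalIdeal A ^ n) := FA_S53_finite_quot_pow hloc hsurj n
  have htest : IsArtinianTestAlgebra 𝒪 (A ⧸ maximalIdeal A ^ n) := FA_S53_test_of_nilLocal hnil
  have hq : IsLocalHom ((Ideal.Quotient.mkₐ 𝒪 (maximalIdeal A ^ n) :
      A →ₐ[𝒪] A ⧸ maximalIdeal A ^ n) : A →+* A ⧸ maximalIdeal A ^ n) :=
    IsLocalHom.of_surjective _ (Ideal.Quotient.mkₐ_surjective 𝒪 _)
  have hmem := (hS.complete hloc hsurj f).mp hf htest (Ideal.Quotient.mkₐ 𝒪 (maximalIdeal A ^ n))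
    hq (Ideal.Quotient.mkₐ_surjective 𝒪 _)
  refine ⟨⟨A ⧸ maximalIdeal A ^ n, inferInstance, inferInstance, inferInstance, htest, _, hmem⟩,
    Ideal.Quotient.mkₐ 𝒪 (maximalIdeal A ^ n), fun _ => rfl, fun a ha => ?_⟩
  exact Ideal.Quotient.eq_zero_iff_mem.mp ha

include hS hc₀ hloc hsurj hf in
/-- Points over complete rings reduce to the residual point. -/
theorem FA_S53_res_complete (x : X) : f x - algebraMap 𝒪 A (c₀ x) ∈ maximalIdeal A := by
  obtain ⟨t, q, hq, -⟩ := FA_S53_exists_quotPair hS hloc hsurj f hf 1 one_ne_zero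
  have h1 := t.res hS c₀ hc₀ x
  rw [← hq, ← AlgHom.commutes q, ← map_sub] at h1
  rw [mem_maximalIdeal, mem_nonunits_iff] at h1 ⊢
  exact fun hu => h1 (hu.map q)

include hS hloc hsurj hf in
/-- Elements of a complete ring are separated by the truncation test pairs. -/
theorem FA_S53_eq_of_quotPair (a b : A)
    (h : ∀ (t : FA_S53_TestPair 𝒪 X N) (q : A →ₐ[𝒪] t.A), (∀ x, q (f x) = t.f x) → q a = q b) :
    a = b := by
  rw [← sub_eq_zero]
  refine FA_S53_eq_zero_of_forall_mem_pow (maximalIdeal A) _ fun n => ?_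
  by_cases hn : n = 0
  · subst hn
    simp
  · obtain ⟨t, q, hq, hker⟩ := FA_S53_exists_quotPair hS hloc hsurj f hf n hn
    refine hker _ ?_
    rw [map_sub, h t q hq, sub_self]

include hloc hsurj hf in
/-- The ideal of relations is killed by the evaluation map of any point over a complete ring. -/
theorem FA_S53_ev_J (u : MvPowerSeries (Fin s) 𝒪) (hu : u ∈ FA_S53_J hS pts c₀ hc₀) :
    FA_S53_ev pts c₀ f (FA_S53_res_complete hS c₀ hc₀ hloc hsurj f hf) u = 0 := by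
  refine FA_S53_eq_of_quotPair hS hloc hsurj f hf _ _ fun t q hq => ?_
  rw [map_zero]
  have h1 := FA_S53_ev_comp_apply pts c₀ f (FA_S53_res_complete hS c₀ hc₀ hloc hsurj f hf) q
    t.f (t.res hS c₀ hc₀) hq u
  rw [h1]
  exact (FA_S53_mem_J hS pts c₀ hc₀ u).mp hu t

include hloc hsurj hf in
/-- Universal elements evaluate to the values of any point over a complete ring. -/
theorem FA_S53_ev_univ (x : X) (u : MvPowerSeries (Fin s) 𝒪)
    (hu : ∀ t : FA_S53_TestPair 𝒪 X N, FA_S53_evT hS pts c₀ hc₀ t u = t.f x) :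
    FA_S53_ev pts c₀ f (FA_S53_res_complete hS c₀ hc₀ hloc hsurj f hf) u = f x := by
  refine FA_S53_eq_of_quotPair hS hloc hsurj f hf _ _ fun t q hq => ?_
  have h1 := FA_S53_ev_comp_apply pts c₀ f (FA_S53_res_complete hS c₀ hc₀ hloc hsurj f hf) q
    t.f (t.res hS c₀ hc₀) hq u
  rw [h1, hq]
  exact hu t

end Complete

section Quot

variable (J : Ideal (MvPowerSeries (Fin s) 𝒪))

theorem FA_S53_quot_isLocalRing (hJ : J ≠ ⊤) : IsLocalRing (MvPowerSeries (Fin s) 𝒪 ⧸ J) :=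
  haveI : Nontrivial (MvPowerSeries (Fin s) 𝒪 ⧸ J) := Ideal.Quotient.nontrivial_iff.mpr hJ
  IsLocalRing.of_surjective' (Ideal.Quotient.mk J) Ideal.Quotient.mk_surjective

variable [IsLocalRing (MvPowerSeries (Fin s) 𝒪 ⧸ J)]

theorem FA_S53_quot_mk_isLocalHom :
    IsLocalHom (Ideal.Quotient.mk J) :=
  IsLocalHom.of_surjective _ Ideal.Quotient.mk_surjective

theorem FA_S53_quot_isLocalHom :
    IsLocalHom (algebraMap 𝒪 (MvPowerSeries (Fin s) 𝒪 ⧸ J)) := by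
  refine ⟨fun c hc => ?_⟩
  have h1 : IsUnit (Ideal.Quotient.mk J (algebraMap 𝒪 (MvPowerSeries (Fin s) 𝒪) c)) := hc
  have h2 := (FA_S53_quot_mk_isLocalHom J).map_nonunit _ h1
  exact (FA_S53_S_isLocalHom (Fin s)).map_nonunit _ h2

theorem FA_S53_quot_residue_surjective :
    Function.Surjective (IsLocalRing.residue (MvPowerSeries (Fin s) 𝒪 ⧸ J) ∘
      algebraMap 𝒪 (MvPowerSeries (Fin s) 𝒪 ⧸ J)) :=
  FA_S53_residue_surjective_of_surjective (Ideal.Quotient.mkₐ 𝒪 J)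
    (Ideal.Quotient.mkₐ_surjective 𝒪 J) (FA_S53_S_residue_surjective (Fin s))

theorem FA_S53_quot_isAdicComplete :
    IsAdicComplete (maximalIdeal (MvPowerSeries (Fin s) 𝒪 ⧸ J))
      (MvPowerSeries (Fin s) 𝒪 ⧸ J) := by
  haveI := Fermat.Agent.Lib.FA_mvPowerSeries_isAdicComplete 𝒪 (Fin s)
  haveI : IsLocalHom (algebraMap (MvPowerSeries (Fin s) 𝒪) (MvPowerSeries (Fin s) 𝒪 ⧸ J)) :=
    FA_S53_quot_mk_isLocalHom J
  exact IsLocalRing.isAdicComplete_of_module_finite (𝒪 := MvPowerSeries (Fin s) 𝒪)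

end Quot

section Univ

variable (u : X → MvPowerSeries (Fin s) 𝒪)
  (hu : ∀ x, ∀ t : FA_S53_TestPair 𝒪 X N, FA_S53_evT hS pts c₀ hc₀ t (u x) = t.f x)
  [IsLocalRing (MvPowerSeries (Fin s) 𝒪 ⧸ FA_S53_J hS pts c₀ hc₀)]
  [IsAdicComplete (maximalIdeal (MvPowerSeries (Fin s) 𝒪 ⧸ FA_S53_J hS pts c₀ hc₀))
    (MvPowerSeries (Fin s) 𝒪 ⧸ FA_S53_J hS pts c₀ hc₀)]

include hu in
/-- The universal point belongs to the functor. -/
theorem FA_S53_fR_mem :
    (fun x => Ideal.Quotient.mk (FA_S53_J hS pts c₀ hc₀) (u x)) ∈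
      N (MvPowerSeries (Fin s) 𝒪 ⧸ FA_S53_J hS pts c₀ hc₀) := by
  have hlocR := FA_S53_quot_isLocalHom (FA_S53_J hS pts c₀ hc₀)
  have hsurjR := FA_S53_quot_residue_surjective (FA_S53_J hS pts c₀ hc₀)
  refine (hS.complete hlocR hsurjR _).mpr ?_
  intro B _ _ _ htB q hq hqs
  haveI : IsArtinianRing B := htB.isArtinian
  obtain ⟨n, hn⟩ := (isArtinianRing_iff_isNilpotent_maximalIdeal B).mp inferInstance
  let q' : MvPowerSeries (Fin s) 𝒪 →ₐ[𝒪] B :=
    q.comp (Ideal.Quotient.mkₐ 𝒪 (FA_S53_J hS pts c₀ hc₀))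
  have hq's : Function.Surjective q' := hqs.comp (Ideal.Quotient.mkₐ_surjective 𝒪 _)
  haveI hq'l : IsLocalHom (q' : MvPowerSeries (Fin s) 𝒪 →+* B) :=
    IsLocalHom.of_surjective _ hq's
  have hQ1 : maximalIdeal (MvPowerSeries (Fin s) 𝒪) ^ n ≤ RingHom.ker q' := by
    intro v hv
    have h1 := IsLocalRing.map_maximalIdeal_le (q' : MvPowerSeries (Fin s) 𝒪 →+* B)
    have h2 := Ideal.pow_right_mono h1 n
    rw [← Ideal.map_pow, hn] at h2
    exact (RingHom.mem_ker).mpr ((Submodule.mem_bot _).mp (h2 (Ideal.mem_map_of_mem _ hv)))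
  have hQ2 : (⨅ t : FA_S53_TestPair 𝒪 X N, RingHom.ker (FA_S53_evT hS pts c₀ hc₀ t)) ≤
      RingHom.ker q' := by
    intro v hv
    rw [RingHom.mem_ker]
    have hv' : v ∈ FA_S53_J hS pts c₀ hc₀ := hv
    show q (Ideal.Quotient.mk (FA_S53_J hS pts c₀ hc₀) v) = 0
    rw [Ideal.Quotient.eq_zero_iff_mem.mpr hv', map_zero]
  haveI : Nonempty (FA_S53_TestPair 𝒪 X N) := ⟨FA_S53_basePair hS⟩
  haveI := Fermat.Agent.Lib.FA_mvPowerSeries_isAdicComplete 𝒪 (Fin s)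
  obtain ⟨t, ht⟩ := FA_S53_compact_ideal (maximalIdeal (MvPowerSeries (Fin s) 𝒪))
    (fun n => FA_S53_S_finite n)
    (fun t : FA_S53_TestPair 𝒪 X N => RingHom.ker (FA_S53_evT hS pts c₀ hc₀ t))
    (fun t₁ t₂ => by
      obtain ⟨t₃, h3, -⟩ := FA_S53_directed_ev hS pts c₀ hc₀ t₁ t₂
      exact ⟨t₃, fun v hv => ⟨(RingHom.mem_ker).mpr (h3 v ((RingHom.mem_ker).mp hv)).1,
        (RingHom.mem_ker).mpr (h3 v ((RingHom.mem_ker).mp hv)).2⟩⟩)
    (fun t => FA_S53_evT_open hS pts c₀ hc₀ t) (RingHom.ker q') n hQ1 hQ2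
  -- the test pair `S ⧸ K t`
  have hι : Function.Injective (Ideal.kerLiftAlg (FA_S53_evT hS pts c₀ hc₀ t)) :=
    Ideal.kerLiftAlg_injective _
  have hnil : FA_S53_NilLocal 𝒪
      (MvPowerSeries (Fin s) 𝒪 ⧸ RingHom.ker (FA_S53_evT hS pts c₀ hc₀ t)) :=
    t.nil.of_injective _ hι
  haveI : IsLocalRing (MvPowerSeries (Fin s) 𝒪 ⧸ RingHom.ker (FA_S53_evT hS pts c₀ hc₀ t)) :=
    hnil.isLocalRing
  obtain ⟨htE, hgE⟩ := FA_S53_point_of_injective hS t
    (Ideal.kerLiftAlg (FA_S53_evT hS pts c₀ hc₀ t)) hι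
    (fun x => Ideal.Quotient.mk (RingHom.ker (FA_S53_evT hS pts c₀ hc₀ t)) (u x))
    (fun x => by rw [Ideal.kerLiftAlg_mk]; exact hu x t)
  let ρ : (MvPowerSeries (Fin s) 𝒪 ⧸ RingHom.ker (FA_S53_evT hS pts c₀ hc₀ t)) →ₐ[𝒪] B :=
    Ideal.Quotient.liftₐ _ q' (fun a ha => ht ha)
  have hρ : IsLocalHom (ρ : (MvPowerSeries (Fin s) 𝒪 ⧸
      RingHom.ker (FA_S53_evT hS pts c₀ hc₀ t)) →+* B) := hnil.isLocalHom_algHom ρ
  exact hS.map htE htB ρ hρ _ hgE

include hu in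
theorem FA_S53_mk_X (i : Fin s) :
    Ideal.Quotient.mk (FA_S53_J hS pts c₀ hc₀) (MvPowerSeries.X i) =
      Ideal.Quotient.mk (FA_S53_J hS pts c₀ hc₀) (u (pts i)) -
        algebraMap 𝒪 (MvPowerSeries (Fin s) 𝒪 ⧸ FA_S53_J hS pts c₀ hc₀) (c₀ (pts i)) := by
  rw [eq_sub_iff_add_eq]
  have h1 : algebraMap 𝒪 (MvPowerSeries (Fin s) 𝒪 ⧸ FA_S53_J hS pts c₀ hc₀) (c₀ (pts i)) =
      Ideal.Quotient.mk (FA_S53_J hS pts c₀ hc₀)
        (algebraMap 𝒪 (MvPowerSeries (Fin s) 𝒪) (c₀ (pts i))) := rfl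
  rw [h1, ← map_add, Ideal.Quotient.eq, FA_S53_mem_J]
  intro t
  rw [map_sub, hu, sub_eq_zero]
  exact FA_S53_ev_pts pts c₀ t.f (t.res hS c₀ hc₀) i

include hu in
/-- The universal property. -/
theorem FA_S53_universal {A : Type} [CommRing A] [IsLocalRing A] [IsNoetherianRing A]
    [IsAdicComplete (maximalIdeal A) A] [Algebra 𝒪 A]
    (hloc : IsLocalHom (algebraMap 𝒪 A))
    (hsurj : Function.Surjective (IsLocalRing.residue A ∘ algebraMap 𝒪 A))
    (f : X → A) (hf : f ∈ N A) :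
    ∃! φ : (MvPowerSeries (Fin s) 𝒪 ⧸ FA_S53_J hS pts c₀ hc₀) →ₐ[𝒪] A,
      IsLocalHom (φ : (MvPowerSeries (Fin s) 𝒪 ⧸ FA_S53_J hS pts c₀ hc₀) →+* A) ∧
        ∀ x, φ (Ideal.Quotient.mk (FA_S53_J hS pts c₀ hc₀) (u x)) = f x := by
  have hres := FA_S53_res_complete hS c₀ hc₀ hloc hsurj f hf
  let φ : (MvPowerSeries (Fin s) 𝒪 ⧸ FA_S53_J hS pts c₀ hc₀) →ₐ[𝒪] A :=
    Ideal.Quotient.liftₐ (FA_S53_J hS pts c₀ hc₀) (FA_S53_ev pts c₀ f hres)
      (fun a ha => FA_S53_ev_J hS pts c₀ hc₀ hloc hsurj f hf a ha)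
  refine ⟨φ, ⟨?_, ?_⟩, ?_⟩
  · refine ⟨fun r hr => ?_⟩
    obtain ⟨v, rfl⟩ := Ideal.Quotient.mk_surjective r
    have h1 : IsUnit (FA_S53_ev pts c₀ f hres v) := hr
    haveI := hloc
    have h2 := (FA_S53_ev_isLocalHom pts c₀ f hres).map_nonunit v h1
    exact h2.map (Ideal.Quotient.mk (FA_S53_J hS pts c₀ hc₀))
  · intro x
    show FA_S53_ev pts c₀ f hres (u x) = f x
    exact FA_S53_ev_univ hS pts c₀ hc₀ hloc hsurj f hf x (u x) (hu x)
  · rintro φ' ⟨-, hφ'⟩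
    apply Ideal.Quotient.algHom_ext
    have e1 : φ'.comp (Ideal.Quotient.mkₐ 𝒪 (FA_S53_J hS pts c₀ hc₀)) =
        FA_S53_ev pts c₀ f hres := by
      refine FA_S53_ev_unique pts c₀ f hres _ fun i => ?_
      show φ' (Ideal.Quotient.mk (FA_S53_J hS pts c₀ hc₀) (MvPowerSeries.X i)) = _
      rw [FA_S53_mk_X hS pts c₀ hc₀ u hu i, map_sub, hφ', AlgHom.commutes]
    have e2 : φ.comp (Ideal.Quotient.mkₐ 𝒪 (FA_S53_J hS pts c₀ hc₀)) =
        FA_S53_ev pts c₀ f hres := by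
      refine FA_S53_ev_unique pts c₀ f hres _ fun i => ?_
      show FA_S53_ev pts c₀ f hres (MvPowerSeries.X i) = _
      exact FA_S53_ev_X pts c₀ f hres i
    rw [e1, e2]

end Univ

include hS hc₀ in
/-- Representability, given separating points and a lift of the residual point. -/
theorem FA_S53_abstract_aux
    (hpts : letI := FA_S53_algDual 𝒪
      ∀ g ∈ N (DualNumber (ResidueField 𝒪)), ∀ g' ∈ N (DualNumber (ResidueField 𝒪)),
        (∀ i, g (pts i) = g' (pts i)) → g = g') :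
    FA_S53_Representable 𝒪 X N := by
  have hu := fun x => FA_S53_exists_univ hS pts c₀ hc₀ hpts x
  choose u hu using hu
  have hlr : IsLocalRing (MvPowerSeries (Fin s) 𝒪 ⧸ FA_S53_J hS pts c₀ hc₀) :=
    FA_S53_quot_isLocalRing _ (FA_S53_J_ne_top hS pts c₀ hc₀)
  have hcomp : IsAdicComplete (maximalIdeal (MvPowerSeries (Fin s) 𝒪 ⧸ FA_S53_J hS pts c₀ hc₀))
      (MvPowerSeries (Fin s) 𝒪 ⧸ FA_S53_J hS pts c₀ hc₀) := FA_S53_quot_isAdicComplete _
  refine ⟨MvPowerSeries (Fin s) 𝒪 ⧸ FA_S53_J hS pts c₀ hc₀, inferInstance, hlr, inferInstance,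
    hcomp, inferInstance, FA_S53_quot_isLocalHom _, FA_S53_quot_residue_surjective _,
    fun x => Ideal.Quotient.mk (FA_S53_J hS pts c₀ hc₀) (u x),
    FA_S53_fR_mem hS pts c₀ hc₀ u hu, ?_⟩
  intro A _ _ _ _ _ hloc hsurj f hf
  exact FA_S53_universal hS pts c₀ hc₀ u hu hloc hsurj f hf

end Main

/-- PART A: abstract representability of rigidified deformation functors. -/
theorem FA_S53_abstract : FA_S53_AbstractStatement := by
  intro 𝒪 _ _ _ _ _ X N f₀ hS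
  letI := FA_S53_algDual 𝒪
  obtain ⟨s, pts, hpts⟩ := FA_S53_separating (N (DualNumber (ResidueField 𝒪))) hS.tangent
  have hc := fun x => IsLocalRing.residue_surjective (f₀ x)
  choose c₀ hc₀ using hc
  exact FA_S53_abstract_aux hS pts c₀ hc₀ hpts

end FA_S53
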