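import Mathlib

/-!
# S53 (G2), part 1: pure 2×2 matrix lemmas for the gauge normal form

* `FA_S53_gauge_unique_matrix`: if `e, e'` are diagonal with `e₀₀ - e'₁₁`, `e₁₁ - e'₀₀` units,
  `w₀₁ = w'₀₁ = 1` and an invertible `M` intertwines `(e, w)` with `(e', w')`, then `M` is scalar.
* `FA_S53_gauge_exists_matrix`: over a Henselian local ring, a matrix `e ≡ E₁₁` and `w` with
  `w₀₁ ≡ 1` can be conjugated by `M ≡ 1` into normal form.
-/

set_option autoImplicit false
set_option linter.unusedSimpArgs false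
set_option linter.unusedVariables false
set_option linter.unusedSectionVars false

open IsLocalRing Matrix

section unique

variable {A : Type*} [CommRing A]

/-- An invertible matrix intertwining two normalised pairs is a scalar matrix. -/
theorem FA_S53_gauge_unique_matrix
    (e e' w w' M M' : Matrix (Fin 2) (Fin 2) A)
    (he01 : e 0 1 = 0) (he10 : e 1 0 = 0) (he'01 : e' 0 1 = 0) (he'10 : e' 1 0 = 0)
    (hw : w 0 1 = 1) (hw' : w' 0 1 = 1)
    (hu1 : IsUnit (e 1 1 - e' 0 0)) (hu2 : IsUnit (e 0 0 - e' 1 1))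
    (hMM' : M * M' = 1)
    (hMe : M * e = e' * M) (hMw : M * w = w' * M) :
    M = (M 0 0) • (1 : Matrix (Fin 2) (Fin 2) A) := by
  have h01 : M 0 1 = 0 := by
    have h := congrFun (congrFun hMe 0) 1
    simp only [Matrix.mul_apply, Fin.sum_univ_two] at h
    rw [he01, he'01] at h
    have h2 : M 0 1 * (e 1 1 - e' 0 0) = 0 := by linear_combination h
    exact (hu1.mul_left_eq_zero).mp h2
  have h10 : M 1 0 = 0 := by
    have h := congrFun (congrFun hMe 1) 0
    simp only [Matrix.mul_apply, Fin.sum_univ_two] at h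
    rw [he10, he'10] at h
    have h2 : M 1 0 * (e 0 0 - e' 1 1) = 0 := by linear_combination h
    exact (hu2.mul_left_eq_zero).mp h2
  have h11 : M 1 1 = M 0 0 := by
    have h := congrFun (congrFun hMw 0) 1
    simp only [Matrix.mul_apply, Fin.sum_univ_two] at h
    rw [hw, hw', h01] at h
    linear_combination -h
  ext i j
  fin_cases i <;> fin_cases j <;> simp [h01, h10, h11]

end unique

section exists_

variable {A : Type*} [CommRing A] [IsLocalRing A]

theorem FA_S53_isUnit_of_sub_one_mem {x : A} (h : x - 1 ∈ maximalIdeal A) : IsUnit x := by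
  by_contra hx
  have hx' : x ∈ maximalIdeal A := (IsLocalRing.mem_maximalIdeal x).mpr hx
  have h1 : (1 : A) ∈ maximalIdeal A := by
    have h2 := (maximalIdeal A).sub_mem hx' h
    have h3 : x - (x - 1) = 1 := by ring
    rwa [h3] at h2
  exact (Ideal.ne_top_iff_one _).mp (IsLocalRing.maximalIdeal.isMaximal A).ne_top h1

/-- The Hensel property in the form used here. -/
def FA_S53_HenselProp (A : Type*) [CommRing A] [IsLocalRing A] : Prop :=
  ∀ (f : Polynomial A), f.Monic → ∀ a₀ : A, f.eval a₀ ∈ maximalIdeal A →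
    IsUnit (f.derivative.eval a₀) → ∃ a, f.IsRoot a ∧ a - a₀ ∈ maximalIdeal A

theorem FA_S53_henselProp_of_isAdicComplete [IsAdicComplete (maximalIdeal A) A] :
    FA_S53_HenselProp A := by
  intro f hf a₀ h1 h2
  exact HenselianRing.is_henselian (I := maximalIdeal A) f hf a₀ h1 (h2.map _)

/-- Diagonalisation of a lift of `E₁₁` over a Henselian local ring, by a matrix `≡ 1`. -/
theorem FA_S53_gauge_diag (hH : FA_S53_HenselProp A)
    (e : Matrix (Fin 2) (Fin 2) A)
    (h00 : e 0 0 - 1 ∈ maximalIdeal A) (h01 : e 0 1 ∈ maximalIdeal A)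
    (h10 : e 1 0 ∈ maximalIdeal A) (h11 : e 1 1 ∈ maximalIdeal A) :
    ∃ M M' : Matrix (Fin 2) (Fin 2) A, M * M' = 1 ∧ M' * M = 1 ∧
      (∀ i j, M i j - (1 : Matrix (Fin 2) (Fin 2) A) i j ∈ maximalIdeal A) ∧
      (∀ i j, M' i j - (1 : Matrix (Fin 2) (Fin 2) A) i j ∈ maximalIdeal A) ∧
      (M * e * M') 0 1 = 0 ∧ (M * e * M') 1 0 = 0 := by
  classical
  have h𝔪 : ∀ {x y : A}, x ∈ maximalIdeal A → y ∈ maximalIdeal A → x + y ∈ maximalIdeal A :=
    fun hx hy => (maximalIdeal A).add_mem hx hy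
  -- the characteristic polynomial
  let f : Polynomial A := Polynomial.X ^ 2 - Polynomial.C (e 0 0 + e 1 1) * Polynomial.X
    + Polynomial.C (e 0 0 * e 1 1 - e 0 1 * e 1 0)
  have hfm : f.Monic := by
    have : f = Polynomial.X ^ 2 + (Polynomial.C (-(e 0 0 + e 1 1)) * Polynomial.X
        + Polynomial.C (e 0 0 * e 1 1 - e 0 1 * e 1 0)) := by
      simp only [f, Polynomial.C_neg]; ring
    rw [this]
    apply Polynomial.monic_X_pow_add
    exact lt_of_le_of_lt Polynomial.degree_linear_le (by norm_num)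
  have hf1 : f.eval 1 ∈ maximalIdeal A := by
    have : f.eval 1 = -(e 0 0 - 1) * (1 - e 1 1) - e 0 1 * e 1 0 := by
      simp only [f, Polynomial.eval_add, Polynomial.eval_sub, Polynomial.eval_pow,
        Polynomial.eval_X, Polynomial.eval_mul, Polynomial.eval_C]
      ring
    rw [this]
    exact (maximalIdeal A).sub_mem ((maximalIdeal A).mul_mem_right _ ((maximalIdeal A).neg_mem h00))
      ((maximalIdeal A).mul_mem_right _ h01)
  have hf'1 : IsUnit (f.derivative.eval 1) := by
    apply FA_S53_isUnit_of_sub_one_mem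
    have : f.derivative.eval 1 - 1 = -(e 0 0 - 1) - e 1 1 := by
      simp only [f, Polynomial.derivative_add, Polynomial.derivative_sub,
        Polynomial.derivative_X_pow, Polynomial.derivative_mul, Polynomial.derivative_C,
        Polynomial.derivative_X, Polynomial.eval_add, Polynomial.eval_sub, Polynomial.eval_pow,
        Polynomial.eval_X, Polynomial.eval_mul, Polynomial.eval_C]
      simp
      ring
    rw [this]
    exact (maximalIdeal A).sub_mem ((maximalIdeal A).neg_mem h00) h11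
  obtain ⟨α, hα, hα1⟩ := hH f hfm 1 hf1 hf'1
  have hαeq : α ^ 2 - (e 0 0 + e 1 1) * α + (e 0 0 * e 1 1 - e 0 1 * e 1 0) = 0 := by
    have := hα
    simp only [Polynomial.IsRoot, f, Polynomial.eval_add, Polynomial.eval_sub,
      Polynomial.eval_pow, Polynomial.eval_X, Polynomial.eval_mul, Polynomial.eval_C] at this
    exact this
  have ha1 : α - e 1 1 - 1 ∈ maximalIdeal A := by
    have : α - e 1 1 - 1 = α - 1 - e 1 1 := by ring
    rw [this]; exact (maximalIdeal A).sub_mem hα1 h11
  have hδ1 : (α - e 1 1) * (α - e 1 1) + e 0 1 * e 1 0 - 1 ∈ maximalIdeal A := by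
    have : (α - e 1 1) * (α - e 1 1) + e 0 1 * e 1 0 - 1
        = (α - e 1 1 - 1) * (α - e 1 1) + (α - e 1 1 - 1) + e 0 1 * e 1 0 := by ring
    rw [this]
    exact h𝔪 (h𝔪 ((maximalIdeal A).mul_mem_right _ ha1) ha1) ((maximalIdeal A).mul_mem_right _ h01)
  obtain ⟨δ', hδ'⟩ := (FA_S53_isUnit_of_sub_one_mem hδ1).exists_right_inv
  have hδ'm : δ' - 1 ∈ maximalIdeal A := by
    have : δ' - 1 = -(δ' * ((α - e 1 1) * (α - e 1 1) + e 0 1 * e 1 0 - 1)) := by
      linear_combination hδ'
    rw [this]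
    exact (maximalIdeal A).neg_mem ((maximalIdeal A).mul_mem_left _ hδ1)
  obtain ⟨M, M', m00, m01, m10, m11, n00, n01, n10, n11⟩ :
      ∃ M M' : Matrix (Fin 2) (Fin 2) A,
        M 0 0 = δ' * (α - e 1 1) ∧ M 0 1 = δ' * e 0 1 ∧ M 1 0 = -(δ' * e 1 0) ∧
        M 1 1 = δ' * (α - e 1 1) ∧
        M' 0 0 = α - e 1 1 ∧ M' 0 1 = -e 0 1 ∧ M' 1 0 = e 1 0 ∧ M' 1 1 = α - e 1 1 :=
    ⟨δ' • !![α - e 1 1, e 0 1; -e 1 0, α - e 1 1], !![α - e 1 1, -e 0 1; e 1 0, α - e 1 1],
      by simp, by simp, by simp, by simp, by simp, by simp, by simp, by simp⟩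
  refine ⟨M, M', ?_, ?_, ?_, ?_, ?_, ?_⟩
  · ext i j
    fin_cases i <;> fin_cases j <;>
      simp only [Matrix.mul_apply, Fin.sum_univ_two, Fin.zero_eta, Fin.mk_one, Fin.isValue,
        m00, m01, m10, m11, n00, n01, n10, n11, Matrix.one_apply_eq, ne_eq, not_false_eq_true,
        Matrix.one_apply_ne, zero_ne_one, one_ne_zero] <;>
      first | ring1 | linear_combination hδ'
  · ext i j
    fin_cases i <;> fin_cases j <;>
      simp only [Matrix.mul_apply, Fin.sum_univ_two, Fin.zero_eta, Fin.mk_one, Fin.isValue,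
        m00, m01, m10, m11, n00, n01, n10, n11, Matrix.one_apply_eq, ne_eq, not_false_eq_true,
        Matrix.one_apply_ne, zero_ne_one, one_ne_zero] <;>
      first | ring1 | linear_combination hδ'
  · intro i j
    have hd : δ' * (α - e 1 1) - 1 ∈ maximalIdeal A := by
      have : δ' * (α - e 1 1) - 1 = (δ' - 1) * (α - e 1 1) + (α - e 1 1 - 1) := by ring
      rw [this]
      exact h𝔪 ((maximalIdeal A).mul_mem_right _ hδ'm) ha1
    fin_cases i <;> fin_cases j <;>
      simp only [Fin.zero_eta, Fin.mk_one, Fin.isValue,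
        m00, m01, m10, m11, Matrix.one_apply_eq, ne_eq, not_false_eq_true,
        Matrix.one_apply_ne, zero_ne_one, one_ne_zero, sub_zero]
    · exact hd
    · exact (maximalIdeal A).mul_mem_left _ h01
    · exact (maximalIdeal A).neg_mem ((maximalIdeal A).mul_mem_left _ h10)
    · exact hd
  · intro i j
    fin_cases i <;> fin_cases j <;>
      simp only [Fin.zero_eta, Fin.mk_one, Fin.isValue,
        n00, n01, n10, n11, Matrix.one_apply_eq, ne_eq, not_false_eq_true,
        Matrix.one_apply_ne, zero_ne_one, one_ne_zero, sub_zero]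
    · exact ha1
    · exact (maximalIdeal A).neg_mem h01
    · exact h10
    · exact ha1
  · simp only [Matrix.mul_apply, Fin.sum_univ_two, m00, m01, m10, m11, n00, n01, n10, n11]
    linear_combination (δ' * e 0 1) * hαeq
  · simp only [Matrix.mul_apply, Fin.sum_univ_two, m00, m01, m10, m11, n00, n01, n10, n11]
    linear_combination (δ' * e 1 0) * hαeq

/-- Entrywise congruence to the identity modulo the maximal ideal. -/
def FA_S53_CongOne (M : Matrix (Fin 2) (Fin 2) A) : Prop :=
  ∀ i j, M i j - (1 : Matrix (Fin 2) (Fin 2) A) i j ∈ maximalIdeal A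

theorem FA_S53_congOne_iff (M : Matrix (Fin 2) (Fin 2) A) :
    FA_S53_CongOne M ↔ M.map (Ideal.Quotient.mk (maximalIdeal A)) = 1 := by
  constructor
  · intro h
    ext i j
    rw [Matrix.map_apply]
    have h1 := (Ideal.Quotient.eq (I := maximalIdeal A)).mpr (h i j)
    rw [h1]
    by_cases hij : i = j
    · subst hij; simp
    · simp [hij]
  · intro h i j
    have h1 := congrFun (congrFun h i) j
    rw [Matrix.map_apply] at h1
    apply (Ideal.Quotient.eq (I := maximalIdeal A)).mp
    rw [h1]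
    by_cases hij : i = j
    · subst hij; simp
    · simp [hij]

theorem FA_S53_CongOne.mul {M N : Matrix (Fin 2) (Fin 2) A} (hM : FA_S53_CongOne M)
    (hN : FA_S53_CongOne N) : FA_S53_CongOne (M * N) := by
  rw [FA_S53_congOne_iff] at *
  rw [Matrix.map_mul, hM, hN, one_mul]

/-- Conjugating by matrices `≡ 1` does not change entries modulo the maximal ideal. -/
theorem FA_S53_CongOne.conj_sub_mem {M M' : Matrix (Fin 2) (Fin 2) A} (hM : FA_S53_CongOne M)
    (hM' : FA_S53_CongOne M') (X : Matrix (Fin 2) (Fin 2) A) (i j : Fin 2) :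
    (M * X * M') i j - X i j ∈ maximalIdeal A := by
  rw [FA_S53_congOne_iff] at hM hM'
  apply (Ideal.Quotient.eq (I := maximalIdeal A)).mp
  have h := congrFun (congrFun (show (M * X * M').map (Ideal.Quotient.mk (maximalIdeal A))
      = X.map (Ideal.Quotient.mk (maximalIdeal A)) by
    rw [Matrix.map_mul, Matrix.map_mul, hM, hM', one_mul, mul_one]) i) j
  simpa [Matrix.map_apply] using h

/-- If `X` has entries in an ideal `I`, so does `M * X * M'`. -/
theorem FA_S53_conj_mem_ideal (I : Ideal A) (M M' X : Matrix (Fin 2) (Fin 2) A)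
    (hX : ∀ i j, X i j ∈ I) (i j : Fin 2) : (M * X * M') i j ∈ I := by
  simp only [Matrix.mul_apply, Fin.sum_univ_two]
  refine I.add_mem (I.mul_mem_right _ (I.add_mem ?_ ?_)) (I.mul_mem_right _ (I.add_mem ?_ ?_)) <;>
    exact I.mul_mem_left _ (hX _ _)

/-- Over a Henselian local ring, a pair `(e, w)` with `e ≡ E₁₁` and `w₀₁ ≡ 1` can be brought
into normal form (`e` diagonal, `w₀₁ = 1`) by conjugation with a matrix `≡ 1`. -/
theorem FA_S53_gauge_exists_matrix (hH : FA_S53_HenselProp A)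
    (e w : Matrix (Fin 2) (Fin 2) A)
    (h00 : e 0 0 - 1 ∈ maximalIdeal A) (h01 : e 0 1 ∈ maximalIdeal A)
    (h10 : e 1 0 ∈ maximalIdeal A) (h11 : e 1 1 ∈ maximalIdeal A)
    (hw : w 0 1 - 1 ∈ maximalIdeal A) :
    ∃ M M' : Matrix (Fin 2) (Fin 2) A, M * M' = 1 ∧ M' * M = 1 ∧
      FA_S53_CongOne M ∧ FA_S53_CongOne M' ∧
      (M * e * M') 0 1 = 0 ∧ (M * e * M') 1 0 = 0 ∧ (M * w * M') 0 1 = 1 := by
  obtain ⟨M₁, M₁', h1, h2, c1, c2, d01, d10⟩ := FA_S53_gauge_diag hH e h00 h01 h10 h11
  obtain ⟨W, hW⟩ : ∃ W, W = M₁ * w * M₁' := ⟨_, rfl⟩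
  obtain ⟨E, hE⟩ : ∃ E, E = M₁ * e * M₁' := ⟨_, rfl⟩
  rw [← hE] at d01 d10
  have hu1 : W 0 1 - 1 ∈ maximalIdeal A := by
    have := FA_S53_CongOne.conj_sub_mem c1 c2 w 0 1
    have h3 : W 0 1 - 1 = ((M₁ * w * M₁') 0 1 - w 0 1) + (w 0 1 - 1) := by rw [hW]; ring
    rw [h3]
    exact (maximalIdeal A).add_mem this hw
  obtain ⟨u', hu'⟩ := (FA_S53_isUnit_of_sub_one_mem hu1).exists_right_inv
  have hu'1 : u' - 1 ∈ maximalIdeal A := by
    have : u' - 1 = -(u' * (W 0 1 - 1)) := by linear_combination hu'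
    rw [this]
    exact (maximalIdeal A).neg_mem ((maximalIdeal A).mul_mem_left _ hu1)
  obtain ⟨N, N', n00, n01, n10, n11, p00, p01, p10, p11⟩ :
      ∃ N N' : Matrix (Fin 2) (Fin 2) A,
        N 0 0 = 1 ∧ N 0 1 = 0 ∧ N 1 0 = 0 ∧ N 1 1 = W 0 1 ∧
        N' 0 0 = 1 ∧ N' 0 1 = 0 ∧ N' 1 0 = 0 ∧ N' 1 1 = u' :=
    ⟨!![1, 0; 0, W 0 1], !![1, 0; 0, u'],
      by simp, by simp, by simp, by simp, by simp, by simp, by simp, by simp⟩
  have hNN' : N * N' = 1 := by
    ext i j
    fin_cases i <;> fin_cases j <;>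
      simp only [Matrix.mul_apply, Fin.sum_univ_two, Fin.zero_eta, Fin.mk_one, Fin.isValue,
        n00, n01, n10, n11, p00, p01, p10, p11, Matrix.one_apply_eq, ne_eq, not_false_eq_true,
        Matrix.one_apply_ne, zero_ne_one, one_ne_zero] <;>
      first | ring1 | linear_combination hu'
  have hN'N : N' * N = 1 := by
    ext i j
    fin_cases i <;> fin_cases j <;>
      simp only [Matrix.mul_apply, Fin.sum_univ_two, Fin.zero_eta, Fin.mk_one, Fin.isValue,
        n00, n01, n10, n11, p00, p01, p10, p11, Matrix.one_apply_eq, ne_eq, not_false_eq_true,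
        Matrix.one_apply_ne, zero_ne_one, one_ne_zero] <;>
      first | ring1 | linear_combination hu'
  have cN : FA_S53_CongOne N := by
    intro i j
    fin_cases i <;> fin_cases j <;>
      simp only [Fin.zero_eta, Fin.mk_one, Fin.isValue,
        n00, n01, n10, n11, Matrix.one_apply_eq, ne_eq, not_false_eq_true,
        Matrix.one_apply_ne, zero_ne_one, one_ne_zero, sub_zero, sub_self]
    · exact (maximalIdeal A).zero_mem
    · exact (maximalIdeal A).zero_mem
    · exact (maximalIdeal A).zero_mem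
    · exact hu1
  have cN' : FA_S53_CongOne N' := by
    intro i j
    fin_cases i <;> fin_cases j <;>
      simp only [Fin.zero_eta, Fin.mk_one, Fin.isValue,
        p00, p01, p10, p11, Matrix.one_apply_eq, ne_eq, not_false_eq_true,
        Matrix.one_apply_ne, zero_ne_one, one_ne_zero, sub_zero, sub_self]
    · exact (maximalIdeal A).zero_mem
    · exact (maximalIdeal A).zero_mem
    · exact (maximalIdeal A).zero_mem
    · exact hu'1
  have hconj : ∀ X : Matrix (Fin 2) (Fin 2) A,
      (N * M₁) * X * (M₁' * N') = N * (M₁ * X * M₁') * N' := by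
    intro X; simp only [Matrix.mul_assoc]
  refine ⟨N * M₁, M₁' * N', ?_, ?_, FA_S53_CongOne.mul cN c1, FA_S53_CongOne.mul c2 cN', ?_, ?_, ?_⟩
  · calc N * M₁ * (M₁' * N') = N * (M₁ * M₁') * N' := by simp only [Matrix.mul_assoc]
      _ = 1 := by rw [h1, Matrix.mul_one, hNN']
  · calc M₁' * N' * (N * M₁) = M₁' * (N' * N) * M₁ := by simp only [Matrix.mul_assoc]
      _ = 1 := by rw [hN'N, Matrix.mul_one, h2]
  · rw [hconj, ← hE]
    simp only [Matrix.mul_apply, Fin.sum_univ_two, n00, n01, n10, n11, p00, p01, p10, p11, d01,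
      d10]
    ring
  · rw [hconj, ← hE]
    simp only [Matrix.mul_apply, Fin.sum_univ_two, n00, n01, n10, n11, p00, p01, p10, p11, d01,
      d10]
    ring
  · rw [hconj, ← hW]
    simp only [Matrix.mul_apply, Fin.sum_univ_two, n00, n01, n10, n11, p00, p01, p10, p11]
    linear_combination hu'

end exists_
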