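import Mathlib
import Fermat.Agent.S53.GaugeMatrix

/-!
# S53 (G2), part 2: the gauge (normal form) for lifts `r : G → M₂(A)`

`G` is an arbitrary type (no group structure is needed here), `𝒪` a local ring,
`c : G → M₂(𝒪)` a fixed entrywise lift of the residual matrices.

* `FA_S53_lin a r = ∑ g ∈ a.support, a g • r g` — linear extension along `a : G →₀ 𝒪`.
* `FA_S53_IsLift c r` — `r` reduces entrywise to `c` modulo the maximal ideal.
* `FA_S53_Gauge c` — coefficient vectors `a, b` with `lin a c ≡ E₁₁`, `(lin b c)₀₁ ≡ 1`.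
* `FA_S53_Normalized Γ r` — `lin a r` is diagonal and `(lin b r)₀₁ = 1`.
-/

set_option autoImplicit false
set_option linter.unusedSimpArgs false
set_option linter.unusedVariables false
set_option linter.unusedSectionVars false

open IsLocalRing Matrix

variable {𝒪 : Type*} [CommRing 𝒪] {G : Type*}

/-- Linear extension of a matrix-valued function along a finitely supported coefficient vector. -/
noncomputable def FA_S53_lin {A : Type*} [CommRing A] [Algebra 𝒪 A] (a : G →₀ 𝒪)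
    (r : G → Matrix (Fin 2) (Fin 2) A) : Matrix (Fin 2) (Fin 2) A :=
  ∑ g ∈ a.support, algebraMap 𝒪 A (a g) • r g

theorem FA_S53_lin_apply {A : Type*} [CommRing A] [Algebra 𝒪 A] (a : G →₀ 𝒪)
    (r : G → Matrix (Fin 2) (Fin 2) A) (i j : Fin 2) :
    FA_S53_lin a r i j = ∑ g ∈ a.support, algebraMap 𝒪 A (a g) * r g i j := by
  unfold FA_S53_lin
  rw [Matrix.sum_apply]
  simp [Matrix.smul_apply]

theorem FA_S53_lin_conj {A : Type*} [CommRing A] [Algebra 𝒪 A] (a : G →₀ 𝒪)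
    (r : G → Matrix (Fin 2) (Fin 2) A) (M M' : Matrix (Fin 2) (Fin 2) A) :
    FA_S53_lin a (fun g => M * r g * M') = M * FA_S53_lin a r * M' := by
  unfold FA_S53_lin
  rw [Finset.mul_sum, Finset.sum_mul]
  refine Finset.sum_congr rfl fun g _ => ?_
  rw [Matrix.mul_smul, Matrix.smul_mul]

theorem FA_S53_lin_mul_left {A : Type*} [CommRing A] [Algebra 𝒪 A] (a : G →₀ 𝒪)
    (r : G → Matrix (Fin 2) (Fin 2) A) (M : Matrix (Fin 2) (Fin 2) A) :
    FA_S53_lin a (fun g => M * r g) = M * FA_S53_lin a r := by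
  unfold FA_S53_lin
  rw [Finset.mul_sum]
  refine Finset.sum_congr rfl fun g _ => ?_
  rw [Matrix.mul_smul]

theorem FA_S53_lin_mul_right {A : Type*} [CommRing A] [Algebra 𝒪 A] (a : G →₀ 𝒪)
    (r : G → Matrix (Fin 2) (Fin 2) A) (M : Matrix (Fin 2) (Fin 2) A) :
    FA_S53_lin a (fun g => r g * M) = FA_S53_lin a r * M := by
  unfold FA_S53_lin
  rw [Finset.sum_mul]
  refine Finset.sum_congr rfl fun g _ => ?_
  rw [Matrix.smul_mul]

theorem FA_S53_lin_map {A B : Type*} [CommRing A] [Algebra 𝒪 A] [CommRing B] [Algebra 𝒪 B]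
    (a : G →₀ 𝒪) (r : G → Matrix (Fin 2) (Fin 2) A) (φ : A →ₐ[𝒪] B) (i j : Fin 2) :
    FA_S53_lin a (fun g => (r g).map φ) i j = φ (FA_S53_lin a r i j) := by
  rw [FA_S53_lin_apply, FA_S53_lin_apply, map_sum]
  refine Finset.sum_congr rfl fun g _ => ?_
  rw [map_mul, Matrix.map_apply, AlgHom.commutes]

/-- `r` reduces entrywise to (the image of) `c` modulo the maximal ideal of `A`. -/
def FA_S53_IsLift {A : Type*} [CommRing A] [IsLocalRing A] [Algebra 𝒪 A]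
    (c : G → Matrix (Fin 2) (Fin 2) 𝒪) (r : G → Matrix (Fin 2) (Fin 2) A) : Prop :=
  ∀ g i j, r g i j - algebraMap 𝒪 A (c g i j) ∈ maximalIdeal A

/-- Gauge data: coefficient vectors whose linear extensions of `c` are `≡ E₁₁`, resp. have
`(0,1)`-entry `≡ 1`, modulo the maximal ideal of `𝒪`. -/
structure FA_S53_Gauge [IsLocalRing 𝒪] (c : G → Matrix (Fin 2) (Fin 2) 𝒪) where
  a : G →₀ 𝒪
  b : G →₀ 𝒪
  ha00 : FA_S53_lin (A := 𝒪) a c 0 0 - 1 ∈ maximalIdeal 𝒪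
  ha01 : FA_S53_lin (A := 𝒪) a c 0 1 ∈ maximalIdeal 𝒪
  ha10 : FA_S53_lin (A := 𝒪) a c 1 0 ∈ maximalIdeal 𝒪
  ha11 : FA_S53_lin (A := 𝒪) a c 1 1 ∈ maximalIdeal 𝒪
  hb01 : FA_S53_lin (A := 𝒪) b c 0 1 - 1 ∈ maximalIdeal 𝒪

/-- The normal form: `lin a r` is diagonal and `(lin b r)₀₁ = 1`. -/
def FA_S53_Normalized [IsLocalRing 𝒪] {c : G → Matrix (Fin 2) (Fin 2) 𝒪} (Γ : FA_S53_Gauge c)
    {A : Type*} [CommRing A] [Algebra 𝒪 A] (r : G → Matrix (Fin 2) (Fin 2) A) : Prop :=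
  FA_S53_lin Γ.a r 0 1 = 0 ∧ FA_S53_lin Γ.a r 1 0 = 0 ∧ FA_S53_lin Γ.b r 0 1 = 1

section

variable [IsLocalRing 𝒪] {c : G → Matrix (Fin 2) (Fin 2) 𝒪} (Γ : FA_S53_Gauge c)

/-- (M) The normal form is preserved by `𝒪`-algebra maps. -/
theorem FA_S53_Normalized.map {A B : Type*} [CommRing A] [Algebra 𝒪 A] [CommRing B] [Algebra 𝒪 B]
    {r : G → Matrix (Fin 2) (Fin 2) A} (h : FA_S53_Normalized Γ r) (φ : A →ₐ[𝒪] B) :
    FA_S53_Normalized Γ (fun g => (r g).map φ) := by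
  obtain ⟨h1, h2, h3⟩ := h
  refine ⟨?_, ?_, ?_⟩
  · rw [FA_S53_lin_map, h1, map_zero]
  · rw [FA_S53_lin_map, h2, map_zero]
  · rw [FA_S53_lin_map, h3, map_one]

/-- (D) The normal form descends along a jointly injective pair of `𝒪`-algebra maps. -/
theorem FA_S53_Normalized.of_joint_injective {A B₁ B₂ : Type*} [CommRing A] [Algebra 𝒪 A]
    [CommRing B₁] [Algebra 𝒪 B₁] [CommRing B₂] [Algebra 𝒪 B₂]
    (φ₁ : A →ₐ[𝒪] B₁) (φ₂ : A →ₐ[𝒪] B₂) (hinj : ∀ x : A, φ₁ x = 0 → φ₂ x = 0 → x = 0)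
    {r : G → Matrix (Fin 2) (Fin 2) A}
    (h₁ : FA_S53_Normalized Γ (fun g => (r g).map φ₁))
    (h₂ : FA_S53_Normalized Γ (fun g => (r g).map φ₂)) :
    FA_S53_Normalized Γ r := by
  obtain ⟨a1, a2, a3⟩ := h₁
  obtain ⟨b1, b2, b3⟩ := h₂
  rw [FA_S53_lin_map] at a1 a2 a3 b1 b2 b3
  refine ⟨hinj _ a1 b1, hinj _ a2 b2, ?_⟩
  have := hinj (FA_S53_lin Γ.b r 0 1 - 1) (by rw [map_sub, a3, map_one, sub_self])
    (by rw [map_sub, b3, map_one, sub_self])
  exact sub_eq_zero.mp this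

/-- For a lift `r` of `c`, `lin a r ≡ lin a c` entrywise. -/
theorem FA_S53_IsLift.lin_sub_mem {A : Type*} [CommRing A] [IsLocalRing A] [Algebra 𝒪 A]
    {r : G → Matrix (Fin 2) (Fin 2) A} (hr : FA_S53_IsLift c r) (a : G →₀ 𝒪) (i j : Fin 2) :
    FA_S53_lin a r i j - algebraMap 𝒪 A (FA_S53_lin (A := 𝒪) a c i j) ∈ maximalIdeal A := by
  rw [FA_S53_lin_apply, FA_S53_lin_apply, map_sum, ← Finset.sum_sub_distrib]
  refine Ideal.sum_mem _ fun g _ => ?_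
  have : algebraMap 𝒪 A (a g) * r g i j - algebraMap 𝒪 A (algebraMap 𝒪 𝒪 (a g) * c g i j)
      = algebraMap 𝒪 A (a g) * (r g i j - algebraMap 𝒪 A (c g i j)) := by
    rw [map_mul]; simp; ring
  rw [this]
  exact Ideal.mul_mem_left _ _ (hr g i j)

variable {A : Type*} [CommRing A] [IsLocalRing A] [Algebra 𝒪 A] [IsLocalHom (algebraMap 𝒪 A)]

theorem FA_S53_algebraMap_mem {x : 𝒪} (hx : x ∈ maximalIdeal 𝒪) :
    algebraMap 𝒪 A x ∈ maximalIdeal A := by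
  rw [IsLocalRing.mem_maximalIdeal] at hx ⊢
  exact fun h => hx (isUnit_of_map_unit (algebraMap 𝒪 A) x h)

theorem FA_S53_IsLift.e00 {r : G → Matrix (Fin 2) (Fin 2) A} (hr : FA_S53_IsLift c r) :
    FA_S53_lin Γ.a r 0 0 - 1 ∈ maximalIdeal A := by
  have h1 := hr.lin_sub_mem Γ.a 0 0
  have h2 : algebraMap 𝒪 A (FA_S53_lin (A := 𝒪) Γ.a c 0 0 - 1) ∈ maximalIdeal A :=
    FA_S53_algebraMap_mem Γ.ha00
  have := (maximalIdeal A).add_mem h1 h2
  rw [map_sub, map_one] at this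
  convert this using 1
  ring

theorem FA_S53_IsLift.e01 {r : G → Matrix (Fin 2) (Fin 2) A} (hr : FA_S53_IsLift c r) :
    FA_S53_lin Γ.a r 0 1 ∈ maximalIdeal A := by
  have h1 := hr.lin_sub_mem Γ.a 0 1
  have h2 : algebraMap 𝒪 A (FA_S53_lin (A := 𝒪) Γ.a c 0 1) ∈ maximalIdeal A :=
    FA_S53_algebraMap_mem Γ.ha01
  have := (maximalIdeal A).add_mem h1 h2
  convert this using 1
  ring

theorem FA_S53_IsLift.e10 {r : G → Matrix (Fin 2) (Fin 2) A} (hr : FA_S53_IsLift c r) :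
    FA_S53_lin Γ.a r 1 0 ∈ maximalIdeal A := by
  have h1 := hr.lin_sub_mem Γ.a 1 0
  have h2 : algebraMap 𝒪 A (FA_S53_lin (A := 𝒪) Γ.a c 1 0) ∈ maximalIdeal A :=
    FA_S53_algebraMap_mem Γ.ha10
  have := (maximalIdeal A).add_mem h1 h2
  convert this using 1
  ring

theorem FA_S53_IsLift.e11 {r : G → Matrix (Fin 2) (Fin 2) A} (hr : FA_S53_IsLift c r) :
    FA_S53_lin Γ.a r 1 1 ∈ maximalIdeal A := by
  have h1 := hr.lin_sub_mem Γ.a 1 1
  have h2 : algebraMap 𝒪 A (FA_S53_lin (A := 𝒪) Γ.a c 1 1) ∈ maximalIdeal A :=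
    FA_S53_algebraMap_mem Γ.ha11
  have := (maximalIdeal A).add_mem h1 h2
  convert this using 1
  ring

theorem FA_S53_IsLift.w01 {r : G → Matrix (Fin 2) (Fin 2) A} (hr : FA_S53_IsLift c r) :
    FA_S53_lin Γ.b r 0 1 - 1 ∈ maximalIdeal A := by
  have h1 := hr.lin_sub_mem Γ.b 0 1
  have h2 : algebraMap 𝒪 A (FA_S53_lin (A := 𝒪) Γ.b c 0 1 - 1) ∈ maximalIdeal A :=
    FA_S53_algebraMap_mem Γ.hb01
  have := (maximalIdeal A).add_mem h1 h2
  rw [map_sub, map_one] at this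
  convert this using 1
  ring

/-- (U) Rigidity: two normalised lifts intertwined by an invertible matrix are equal. -/
theorem FA_S53_gauge_unique {r r' : G → Matrix (Fin 2) (Fin 2) A}
    (hr : FA_S53_IsLift c r) (hr' : FA_S53_IsLift c r')
    (hn : FA_S53_Normalized Γ r) (hn' : FA_S53_Normalized Γ r')
    (M M' : Matrix (Fin 2) (Fin 2) A) (hMM' : M * M' = 1)
    (hint : ∀ g, M * r g = r' g * M) : r = r' := by
  have hMe : M * FA_S53_lin Γ.a r = FA_S53_lin Γ.a r' * M := by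
    rw [← FA_S53_lin_mul_left, ← FA_S53_lin_mul_right]
    congr 1
    funext g
    exact hint g
  have hMw : M * FA_S53_lin Γ.b r = FA_S53_lin Γ.b r' * M := by
    rw [← FA_S53_lin_mul_left, ← FA_S53_lin_mul_right]
    congr 1
    funext g
    exact hint g
  have hu1 : IsUnit (FA_S53_lin Γ.a r 1 1 - FA_S53_lin Γ.a r' 0 0) := by
    have h : -(FA_S53_lin Γ.a r 1 1 - FA_S53_lin Γ.a r' 0 0) - 1 ∈ maximalIdeal A := by
      have : -(FA_S53_lin Γ.a r 1 1 - FA_S53_lin Γ.a r' 0 0) - 1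
          = (FA_S53_lin Γ.a r' 0 0 - 1) - FA_S53_lin Γ.a r 1 1 := by ring
      rw [this]
      exact (maximalIdeal A).sub_mem (hr'.e00 Γ) (hr.e11 Γ)
    exact (IsUnit.neg_iff _).mp (FA_S53_isUnit_of_sub_one_mem h)
  have hu2 : IsUnit (FA_S53_lin Γ.a r 0 0 - FA_S53_lin Γ.a r' 1 1) := by
    apply FA_S53_isUnit_of_sub_one_mem
    have : FA_S53_lin Γ.a r 0 0 - FA_S53_lin Γ.a r' 1 1 - 1
        = (FA_S53_lin Γ.a r 0 0 - 1) - FA_S53_lin Γ.a r' 1 1 := by ring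
    rw [this]
    exact (maximalIdeal A).sub_mem (hr.e00 Γ) (hr'.e11 Γ)
  have hM := FA_S53_gauge_unique_matrix _ _ _ _ M M' hn.1 hn.2.1 hn'.1 hn'.2.1 hn.2.2 hn'.2.2
    hu1 hu2 hMM' hMe hMw
  have hm : M 0 0 * M' 0 0 = 1 := by
    have := congrFun (congrFun hMM' 0) 0
    rw [hM] at this
    simpa [Matrix.mul_apply, Fin.sum_univ_two, Matrix.smul_apply] using this
  funext g
  have hg := hint g
  rw [hM] at hg
  have h2 : M 0 0 • r g = M 0 0 • r' g := by simpa using hg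
  have h3 := congrArg (fun X => M' 0 0 • X) h2
  simp only [smul_smul] at h3
  rw [mul_comm, hm, one_smul, one_smul] at h3
  exact h3

/-- (E) Existence of the normalising conjugation over a Henselian local `𝒪`-algebra. -/
theorem FA_S53_gauge_exists (hH : FA_S53_HenselProp A) {r : G → Matrix (Fin 2) (Fin 2) A}
    (hr : FA_S53_IsLift c r) :
    ∃ M M' : Matrix (Fin 2) (Fin 2) A, M * M' = 1 ∧ M' * M = 1 ∧
      FA_S53_CongOne M ∧ FA_S53_CongOne M' ∧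
      FA_S53_Normalized Γ (fun g => M * r g * M') ∧
      FA_S53_IsLift c (fun g => M * r g * M') := by
  obtain ⟨M, M', h1, h2, c1, c2, n1, n2, n3⟩ :=
    FA_S53_gauge_exists_matrix hH (FA_S53_lin Γ.a r) (FA_S53_lin Γ.b r)
      (hr.e00 Γ) (hr.e01 Γ) (hr.e10 Γ) (hr.e11 Γ) (hr.w01 Γ)
  refine ⟨M, M', h1, h2, c1, c2, ⟨?_, ?_, ?_⟩, ?_⟩
  · rw [FA_S53_lin_conj]; exact n1
  · rw [FA_S53_lin_conj]; exact n2
  · rw [FA_S53_lin_conj]; exact n3
  · intro g i j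
    have h := FA_S53_CongOne.conj_sub_mem c1 c2 (r g) i j
    have := (maximalIdeal A).add_mem h (hr g i j)
    convert this using 1
    ring

end
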