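import Mathlib
import Fermat.Agent.S53.Gauge
import Fermat.Agent.S53.Burnside

/-!
# S53 (G2), part 4: existence of gauge data from absolute irreducibility
-/

set_option autoImplicit false
set_option linter.unusedSimpArgs false
set_option linter.unusedVariables false
set_option linter.unusedSectionVars false

open IsLocalRing Matrix

section

variable {𝒪 : Type} [CommRing 𝒪] [IsLocalRing 𝒪]

local notation "Γℚ" => (AlgebraicClosure ℚ ≃ₐ[ℚ] AlgebraicClosure ℚ)

/-- Every matrix over the residue field is, entrywise modulo the maximal ideal, a finite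
`𝒪`-linear combination of the lifted matrices `c σ`. -/
theorem FA_S53_exists_lin_eq (ρbar : ResidualGaloisRep (ResidueField 𝒪))
    (habs : ρbar.IsAbsolutelyIrreducible)
    (b : Module.Basis (Fin 2) (ResidueField 𝒪) ρbar.V)
    (c : Γℚ → Matrix (Fin 2) (Fin 2) 𝒪)
    (hc : ∀ σ i j, residue 𝒪 (c σ i j) = LinearMap.toMatrix b b (ρbar.ρ σ) i j)
    (T : Matrix (Fin 2) (Fin 2) (ResidueField 𝒪)) :
    ∃ a : Γℚ →₀ 𝒪, ∀ i j, residue 𝒪 (FA_S53_lin (A := 𝒪) a c i j) = T i j := by
  classical
  have hT : T ∈ Submodule.span (ResidueField 𝒪)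
      (Set.range fun σ => LinearMap.toMatrix b b (ρbar.ρ σ)) := by
    rw [FA_S53_burnside ρbar habs b]; trivial
  obtain ⟨abar, habar⟩ := Finsupp.mem_span_range_iff_exists_finsupp.mp hT
  -- a set-theoretic section of the residue map sending `0` to `0`
  let s : ResidueField 𝒪 → 𝒪 := fun x =>
    if x = 0 then 0 else Function.surjInv (IsLocalRing.residue_surjective (R := 𝒪)) x
  have hs : ∀ x, residue 𝒪 (s x) = x := by
    intro x
    by_cases hx : x = 0
    · simp [s, hx]
    · simp only [s, hx, if_false]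
      exact Function.surjInv_eq (IsLocalRing.residue_surjective (R := 𝒪)) x
  have hs0 : s 0 = 0 := by simp [s]
  refine ⟨abar.mapRange s hs0, fun i j => ?_⟩
  rw [FA_S53_lin_apply, map_sum]
  have hTij : T i j = ∑ g ∈ abar.support, abar g * LinearMap.toMatrix b b (ρbar.ρ g) i j := by
    rw [← habar, Finsupp.sum, Matrix.sum_apply]
    simp [Matrix.smul_apply]
  rw [hTij]
  have hsub : (abar.mapRange s hs0).support ⊆ abar.support := Finsupp.support_mapRange
  rw [← Finset.sum_subset hsub]
  · refine Finset.sum_congr rfl fun g _ => ?_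
    rw [map_mul, hc, Finsupp.mapRange_apply]
    simp [hs]
  · intro g hg hg'
    have h0 : s (abar g) = 0 := by
      have := Finsupp.notMem_support_iff.mp hg'
      rwa [Finsupp.mapRange_apply] at this
    have : abar g = 0 := by rw [← hs (abar g), h0, map_zero]
    rw [this, zero_mul]

/-- Gauge data exist for an absolutely irreducible residual representation. -/
theorem FA_S53_exists_gauge (ρbar : ResidualGaloisRep (ResidueField 𝒪))
    (habs : ρbar.IsAbsolutelyIrreducible)
    (b : Module.Basis (Fin 2) (ResidueField 𝒪) ρbar.V)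
    (c : Γℚ → Matrix (Fin 2) (Fin 2) 𝒪)
    (hc : ∀ σ i j, residue 𝒪 (c σ i j) = LinearMap.toMatrix b b (ρbar.ρ σ) i j) :
    Nonempty (FA_S53_Gauge c) := by
  obtain ⟨a, ha⟩ := FA_S53_exists_lin_eq ρbar habs b c hc !![1, 0; 0, 0]
  obtain ⟨b', hb'⟩ := FA_S53_exists_lin_eq ρbar habs b c hc !![0, 1; 0, 0]
  have key : ∀ x : 𝒪, residue 𝒪 x = 0 → x ∈ maximalIdeal 𝒪 := fun x hx =>
    (IsLocalRing.residue_eq_zero_iff x).mp hx
  refine ⟨⟨a, b', ?_, ?_, ?_, ?_, ?_⟩⟩
  · apply key; rw [map_sub, ha, map_one]; simp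
  · apply key; rw [ha]; simp
  · apply key; rw [ha]; simp
  · apply key; rw [ha]; simp
  · apply key; rw [map_sub, hb', map_one]; simp

end
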