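import Mathlib
import Fermat.Prelude.Def_GaloisRep_Adic

/-!
# S53, part G1: matrix models of `GaloisRepAdic` / `ResidualGaloisRep`

Everything is phrased through "the matrix of a representation in a basis":
two representations with the same matrices (in some bases) are equivalent, and
base change / residual representations have the entrywise mapped matrices.
-/

set_option autoImplicit false

open IsLocalRing
open scoped TensorProduct

namespace Fermat.Agent.S53

local notation "Γℚ" => (AlgebraicClosure ℚ ≃ₐ[ℚ] AlgebraicClosure ℚ)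

/-! ## Generic linear algebra -/

section Generic

variable {R : Type*} [CommRing R] {V W : Type*} [AddCommGroup V] [Module R V]
  [AddCommGroup W] [Module R W]

/-- If `f` and `g` have the same matrix in bases `b`, `c`, the equivalence `b ↦ c`
intertwines them. -/
theorem FA_S53_equiv_intertwine (b : Module.Basis (Fin 2) R V) (c : Module.Basis (Fin 2) R W)
    (f : V →ₗ[R] V) (g : W →ₗ[R] W)
    (h : LinearMap.toMatrix b b f = LinearMap.toMatrix c c g) (x : V) :
    (b.equiv c (Equiv.refl _)) (f x) = g ((b.equiv c (Equiv.refl _)) x) := by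
  have key : (b.equiv c (Equiv.refl _)).toLinearMap ∘ₗ f =
      g ∘ₗ (b.equiv c (Equiv.refl _)).toLinearMap := by
    apply b.ext
    intro j
    simp only [LinearMap.comp_apply, LinearEquiv.coe_coe, Module.Basis.equiv_apply,
      Equiv.refl_apply]
    have h1 : f (b j) = ∑ i, (LinearMap.toMatrix b b f) i j • b i := by
      simp only [LinearMap.toMatrix_apply]
      exact (b.sum_repr (f (b j))).symm
    have h2 : g (c j) = ∑ i, (LinearMap.toMatrix c c g) i j • c i := by
      simp only [LinearMap.toMatrix_apply]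
      exact (c.sum_repr (g (c j))).symm
    rw [h1, h2, map_sum, h]
    refine Finset.sum_congr rfl fun i _ => ?_
    rw [map_smul, Module.Basis.equiv_apply, Equiv.refl_apply]
  exact LinearMap.congr_fun key x

/-- If an equivalence `e` intertwines `f` and `g`, they have the same matrices in the bases
`b` and `b.map e`. -/
theorem FA_S53_toMatrix_map_of_intertwine (b : Module.Basis (Fin 2) R V) (e : V ≃ₗ[R] W)
    (f : V →ₗ[R] V) (g : W →ₗ[R] W) (h : ∀ x, e (f x) = g (e x)) :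
    LinearMap.toMatrix (b.map e) (b.map e) g = LinearMap.toMatrix b b f := by
  ext i j
  simp only [LinearMap.toMatrix_apply, Module.Basis.map_apply, Module.Basis.map_repr,
    LinearEquiv.trans_apply, ← h, LinearEquiv.symm_apply_apply]

end Generic

/-! ## Matrices of `GaloisRepAdic` -/

section Adic

variable {A : Type} [CommRing A] [IsLocalRing A]

/-- The matrix representation attached to a basis of a `GaloisRepAdic`. -/
noncomputable def FA_S53_matOf (ρ : GaloisRepAdic A) (b : Module.Basis (Fin 2) A ρ.V) :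
    Γℚ →* Matrix (Fin 2) (Fin 2) A :=
  ((LinearMap.toMatrixAlgEquiv b).toRingEquiv.toMonoidHom).comp ρ.ρ

theorem FA_S53_matOf_apply (ρ : GaloisRepAdic A) (b : Module.Basis (Fin 2) A ρ.V) (σ : Γℚ) :
    FA_S53_matOf ρ b σ = LinearMap.toMatrix b b (ρ.ρ σ) := rfl

theorem FA_S53_exists_basis (ρ : GaloisRepAdic A) : Nonempty (Module.Basis (Fin 2) A ρ.V) :=
  ⟨Module.finBasisOfFinrankEq A ρ.V ρ.finrank_eq⟩

theorem FA_S53_isEquiv_of_matOf_eq (ρ₁ ρ₂ : GaloisRepAdic A)
    (b₁ : Module.Basis (Fin 2) A ρ₁.V) (b₂ : Module.Basis (Fin 2) A ρ₂.V)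
    (h : ∀ σ, FA_S53_matOf ρ₁ b₁ σ = FA_S53_matOf ρ₂ b₂ σ) : ρ₁.IsEquiv ρ₂ :=
  ⟨⟨b₁.equiv b₂ (Equiv.refl _), fun σ x =>
    FA_S53_equiv_intertwine b₁ b₂ (ρ₁.ρ σ) (ρ₂.ρ σ) (h σ) x⟩⟩

theorem FA_S53_matOf_map_equiv {ρ₁ ρ₂ : GaloisRepAdic A} (e : GaloisRepAdic.Equiv ρ₁ ρ₂)
    (b₁ : Module.Basis (Fin 2) A ρ₁.V) (σ : Γℚ) :
    FA_S53_matOf ρ₂ (b₁.map e.toLinearEquiv) σ = FA_S53_matOf ρ₁ b₁ σ :=
  FA_S53_toMatrix_map_of_intertwine b₁ e.toLinearEquiv (ρ₁.ρ σ) (ρ₂.ρ σ) (e.map_apply σ)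

omit [IsLocalRing A] in
/-- Membership in `I • ⊤` can be tested on coordinates in a basis. -/
theorem FA_S53_mem_smul_top_iff {V : Type*} [AddCommGroup V] [Module A V]
    (b : Module.Basis (Fin 2) A V) (I : Ideal A) (x : V) :
    x ∈ I • (⊤ : Submodule A V) ↔ ∀ i, b.repr x i ∈ I := by
  constructor
  · intro hx
    refine Submodule.smul_induction_on hx ?_ ?_
    · intro a ha w _ i
      rw [map_smul, Finsupp.smul_apply, smul_eq_mul]
      exact I.mul_mem_right _ ha
    · intro x y hx hy i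
      rw [map_add, Finsupp.add_apply]
      exact I.add_mem (hx i) (hy i)
  · intro h
    rw [← b.sum_repr x]
    exact Submodule.sum_mem _ fun i _ => Submodule.smul_mem_smul (h i) Submodule.mem_top

/-- Entrywise adic continuity of a matrix representation. -/
def FA_S53_IsAdicContMat (r : Γℚ →* Matrix (Fin 2) (Fin 2) A) : Prop :=
  ∀ n : ℕ, ∃ L : IntermediateField ℚ (AlgebraicClosure ℚ), FiniteDimensional ℚ L ∧
    ∀ σ : Γℚ, (∀ x ∈ L, σ x = x) → ∀ i j, (r σ - 1) i j ∈ maximalIdeal A ^ n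

/-- The matrices of an adically continuous representation are entrywise adically continuous. -/
theorem FA_S53_isAdicContMat_matOf (ρ : GaloisRepAdic A) (b : Module.Basis (Fin 2) A ρ.V) :
    FA_S53_IsAdicContMat (FA_S53_matOf ρ b) := by
  intro n
  obtain ⟨L, hL, h⟩ := ρ.isAdicContinuous n
  refine ⟨L, hL, fun σ hσ i j => ?_⟩
  have h1 := (FA_S53_mem_smul_top_iff b (maximalIdeal A ^ n) _).1 (h σ hσ (b j)) i
  have h2 : (FA_S53_matOf ρ b σ - 1) i j = b.repr (ρ.ρ σ (b j) - b j) i := by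
    rw [Matrix.sub_apply, FA_S53_matOf_apply, LinearMap.toMatrix_apply, map_sub,
      Finsupp.sub_apply, Module.Basis.repr_self, Matrix.one_apply, Finsupp.single_apply]
    congr 1
    by_cases hij : i = j
    · simp [hij]
    · simp [hij, Ne.symm hij]
  rw [h2]
  exact h1

/-- The `GaloisRepAdic` on `Fin 2 → A` attached to a continuous matrix representation. -/
noncomputable def FA_S53_ofMatrix (r : Γℚ →* Matrix (Fin 2) (Fin 2) A)
    (hr : FA_S53_IsAdicContMat r) : GaloisRepAdic A where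
  V := Fin 2 → A
  finrank_eq := Module.finrank_fin_fun A
  ρ := ((Matrix.toLinAlgEquiv' (R := A) (n := Fin 2)).toRingEquiv.toMonoidHom).comp r
  isAdicContinuous := by
    intro n
    obtain ⟨L, hL, h⟩ := hr n
    refine ⟨L, hL, fun σ hσ v => ?_⟩
    rw [FA_S53_mem_smul_top_iff (Pi.basisFun A (Fin 2))]
    intro i
    have : (Pi.basisFun A (Fin 2)).repr
        ((((Matrix.toLinAlgEquiv' (R := A) (n := Fin 2)).toRingEquiv.toMonoidHom).comp r) σ v - v) i
        = ∑ j, (r σ - 1) i j * v j := by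
      simp only [Pi.basisFun_repr, Pi.sub_apply]
      show ((r σ).mulVec v) i - v i = _
      simp only [Matrix.mulVec, dotProduct, Matrix.sub_apply, sub_mul, Finset.sum_sub_distrib,
        Matrix.one_apply, ite_mul, one_mul, zero_mul, Finset.sum_ite_eq, Finset.mem_univ, if_true]
    rw [this]
    exact Ideal.sum_mem _ fun j _ => Ideal.mul_mem_right _ _ (h σ hσ i j)

theorem FA_S53_ofMatrix_ρ_apply (r : Γℚ →* Matrix (Fin 2) (Fin 2) A)
    (hr : FA_S53_IsAdicContMat r) (σ : Γℚ) (v : Fin 2 → A) :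
    (FA_S53_ofMatrix r hr).ρ σ v = (r σ).mulVec v := rfl

/-- The standard basis of `ofMatrix r`. -/
noncomputable def FA_S53_stdBasis (r : Γℚ →* Matrix (Fin 2) (Fin 2) A)
    (hr : FA_S53_IsAdicContMat r) : Module.Basis (Fin 2) A (FA_S53_ofMatrix r hr).V :=
  Pi.basisFun A (Fin 2)

theorem FA_S53_matOf_ofMatrix (r : Γℚ →* Matrix (Fin 2) (Fin 2) A)
    (hr : FA_S53_IsAdicContMat r) (σ : Γℚ) :
    FA_S53_matOf (FA_S53_ofMatrix r hr) (FA_S53_stdBasis r hr) σ = r σ := by
  rw [FA_S53_matOf_apply]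
  show LinearMap.toMatrix (Pi.basisFun A (Fin 2)) (Pi.basisFun A (Fin 2))
    (Matrix.toLin' (r σ)) = r σ
  rw [LinearMap.toMatrix_eq_toMatrix', LinearMap.toMatrix'_toLin']

/-- Every `GaloisRepAdic` is equivalent to the matrix model of its matrices in any basis. -/
theorem FA_S53_isEquiv_ofMatrix_matOf (ρ : GaloisRepAdic A) (b : Module.Basis (Fin 2) A ρ.V) :
    ρ.IsEquiv (FA_S53_ofMatrix (FA_S53_matOf ρ b) (FA_S53_isAdicContMat_matOf ρ b)) :=
  FA_S53_isEquiv_of_matOf_eq _ _ b (FA_S53_stdBasis _ _) fun σ =>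
    (FA_S53_matOf_ofMatrix _ _ σ).symm

/-- Two matrix models are equivalent iff the matrix representations are conjugate. -/
theorem FA_S53_ofMatrix_isEquiv_iff (r r' : Γℚ →* Matrix (Fin 2) (Fin 2) A)
    (hr : FA_S53_IsAdicContMat r) (hr' : FA_S53_IsAdicContMat r') :
    (FA_S53_ofMatrix r hr).IsEquiv (FA_S53_ofMatrix r' hr') ↔
      ∃ P Q : Matrix (Fin 2) (Fin 2) A, P * Q = 1 ∧ Q * P = 1 ∧ ∀ σ, P * r σ = r' σ * P := by
  constructor
  · rintro ⟨e⟩
    let e' : (Fin 2 → A) ≃ₗ[A] (Fin 2 → A) := e.toLinearEquiv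
    have he' : ∀ σ x, e' ((r σ).mulVec x) = (r' σ).mulVec (e' x) := fun σ x => e.map_apply σ x
    refine ⟨LinearMap.toMatrix' e'.toLinearMap,
      LinearMap.toMatrix' e'.symm.toLinearMap, ?_, ?_, fun σ => ?_⟩
    · rw [← LinearMap.toMatrix'_comp, LinearEquiv.comp_coe, LinearEquiv.symm_trans_self,
        LinearEquiv.refl_toLinearMap, LinearMap.toMatrix'_id]
    · rw [← LinearMap.toMatrix'_comp, LinearEquiv.comp_coe, LinearEquiv.self_trans_symm,
        LinearEquiv.refl_toLinearMap, LinearMap.toMatrix'_id]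
    · have h1 : r σ = LinearMap.toMatrix' (Matrix.toLin' (r σ)) :=
        (LinearMap.toMatrix'_toLin' _).symm
      have h2 : r' σ = LinearMap.toMatrix' (Matrix.toLin' (r' σ)) :=
        (LinearMap.toMatrix'_toLin' _).symm
      rw [h1, h2, ← LinearMap.toMatrix'_comp, ← LinearMap.toMatrix'_comp]
      congr 1
      apply LinearMap.ext
      intro x
      show e' ((r σ).mulVec x) = (r' σ).mulVec (e' x)
      exact he' σ x
  · rintro ⟨P, Q, hPQ, hQP, h⟩
    have h1 : Matrix.toLin' P ∘ₗ Matrix.toLin' Q = LinearMap.id := by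
      rw [← Matrix.toLin'_mul, hPQ, Matrix.toLin'_one]
    have h2 : Matrix.toLin' Q ∘ₗ Matrix.toLin' P = LinearMap.id := by
      rw [← Matrix.toLin'_mul, hQP, Matrix.toLin'_one]
    let e' : (Fin 2 → A) ≃ₗ[A] (Fin 2 → A) :=
      LinearEquiv.ofLinearMap (Matrix.toLin' P) (Matrix.toLin' Q) h1 h2
    have hcomm : ∀ σ (x : Fin 2 → A),
        P.mulVec ((r σ).mulVec x) = (r' σ).mulVec (P.mulVec x) := fun σ x => by
      rw [Matrix.mulVec_mulVec, Matrix.mulVec_mulVec, h σ]
    exact ⟨⟨e', fun σ x => hcomm σ x⟩⟩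

/-! ### Base change -/

variable {B : Type} [CommRing B] [IsLocalRing B]

/-- Entrywise image of a matrix representation under a ring homomorphism. -/
noncomputable def FA_S53_mapMat (φ : A →+* B) (r : Γℚ →* Matrix (Fin 2) (Fin 2) A) :
    Γℚ →* Matrix (Fin 2) (Fin 2) B :=
  (φ.mapMatrix (m := Fin 2)).toMonoidHom.comp r

omit [IsLocalRing A] [IsLocalRing B] in
theorem FA_S53_mapMat_apply (φ : A →+* B) (r : Γℚ →* Matrix (Fin 2) (Fin 2) A) (σ : Γℚ)
    (i j : Fin 2) : FA_S53_mapMat φ r σ i j = φ (r σ i j) := rfl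

theorem FA_S53_isAdicContMat_mapMat (φ : A →+* B) (hφ : IsLocalHom φ)
    (r : Γℚ →* Matrix (Fin 2) (Fin 2) A) (hr : FA_S53_IsAdicContMat r) :
    FA_S53_IsAdicContMat (FA_S53_mapMat φ r) := by
  intro n
  obtain ⟨L, hL, h⟩ := hr n
  refine ⟨L, hL, fun σ hσ i j => ?_⟩
  have hmap : (maximalIdeal A ^ n).map φ ≤ maximalIdeal B ^ n := by
    rw [Ideal.map_pow]
    exact Ideal.pow_right_mono (Ideal.map_le_iff_le_comap.mpr fun a ha =>
      Ideal.mem_comap.mpr (haveI := hφ; map_nonunit φ a ha)) n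
  have : (FA_S53_mapMat φ r σ - 1) i j = φ ((r σ - 1) i j) := by
    rw [Matrix.sub_apply, Matrix.sub_apply, FA_S53_mapMat_apply, map_sub, Matrix.one_apply,
      Matrix.one_apply]
    congr 1
    split_ifs <;> simp
  rw [this]
  exact hmap (Ideal.mem_map_of_mem φ (h σ hσ i j))

/-- Matrices of a base change: in the base-changed basis they are the mapped matrices. -/
theorem FA_S53_matOf_baseChangeAlong (φ : A →+* B) (hφ : IsLocalHom φ) (ρ : GaloisRepAdic A)
    (b : Module.Basis (Fin 2) A ρ.V) :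
    ∃ b' : Module.Basis (Fin 2) B (ρ.baseChangeAlong φ hφ).V,
      ∀ σ, FA_S53_matOf (ρ.baseChangeAlong φ hφ) b' σ = FA_S53_mapMat φ (FA_S53_matOf ρ b) σ := by
  let _ : Algebra A B := φ.toAlgebra
  refine ⟨Algebra.TensorProduct.basis B b, fun σ => ?_⟩
  exact LinearMap.toMatrix_baseChange B (ρ.ρ σ) b b

/-- Base change of a matrix model is the matrix model of the mapped matrices. -/
theorem FA_S53_ofMatrix_baseChangeAlong (φ : A →+* B) (hφ : IsLocalHom φ)
    (r : Γℚ →* Matrix (Fin 2) (Fin 2) A) (hr : FA_S53_IsAdicContMat r)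
    (hr' : FA_S53_IsAdicContMat (FA_S53_mapMat φ r)) :
    ((FA_S53_ofMatrix r hr).baseChangeAlong φ hφ).IsEquiv
      (FA_S53_ofMatrix (FA_S53_mapMat φ r) hr') := by
  obtain ⟨b', hb'⟩ := FA_S53_matOf_baseChangeAlong φ hφ (FA_S53_ofMatrix r hr)
    (FA_S53_stdBasis r hr)
  refine FA_S53_isEquiv_of_matOf_eq _ _ b' (FA_S53_stdBasis _ _) fun σ => ?_
  rw [hb' σ, FA_S53_matOf_ofMatrix]
  ext i j
  rw [FA_S53_mapMat_apply, FA_S53_mapMat_apply, FA_S53_matOf_ofMatrix]

end Adic

/-! ## Matrices of `ResidualGaloisRep` -/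

section Residual

variable {k : Type} [Field k]

/-- The matrix representation attached to a basis of a `ResidualGaloisRep`. -/
noncomputable def FA_S53_matOfRes (ρ : ResidualGaloisRep k) (b : Module.Basis (Fin 2) k ρ.V) :
    Γℚ →* Matrix (Fin 2) (Fin 2) k :=
  ((LinearMap.toMatrixAlgEquiv b).toRingEquiv.toMonoidHom).comp ρ.ρ

theorem FA_S53_matOfRes_apply (ρ : ResidualGaloisRep k) (b : Module.Basis (Fin 2) k ρ.V)
    (σ : Γℚ) : FA_S53_matOfRes ρ b σ = LinearMap.toMatrix b b (ρ.ρ σ) := rfl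

theorem FA_S53_exists_basis_res (ρ : ResidualGaloisRep k) :
    Nonempty (Module.Basis (Fin 2) k ρ.V) :=
  ⟨Module.finBasisOfFinrankEq k ρ.V ρ.finrank_eq⟩

theorem FA_S53_res_isEquiv_of_matOf_eq (ρ₁ ρ₂ : ResidualGaloisRep k)
    (b₁ : Module.Basis (Fin 2) k ρ₁.V) (b₂ : Module.Basis (Fin 2) k ρ₂.V)
    (h : ∀ σ, FA_S53_matOfRes ρ₁ b₁ σ = FA_S53_matOfRes ρ₂ b₂ σ) : ρ₁.IsEquiv ρ₂ :=
  ⟨⟨b₁.equiv b₂ (Equiv.refl _), fun σ x =>
    FA_S53_equiv_intertwine b₁ b₂ (ρ₁.ρ σ) (ρ₂.ρ σ) (h σ) x⟩⟩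

theorem FA_S53_matOfRes_map_equiv {ρ₁ ρ₂ : ResidualGaloisRep k}
    (e : ResidualGaloisRep.Equiv ρ₁ ρ₂) (b₁ : Module.Basis (Fin 2) k ρ₁.V) (σ : Γℚ) :
    FA_S53_matOfRes ρ₂ (b₁.map e.toLinearEquiv) σ = FA_S53_matOfRes ρ₁ b₁ σ :=
  FA_S53_toMatrix_map_of_intertwine b₁ e.toLinearEquiv (ρ₁.ρ σ) (ρ₂.ρ σ) (e.map_apply σ)

/-- Matrices of a base change of a residual representation. -/
theorem FA_S53_matOfRes_baseChangeAlong {k' : Type} [Field k'] (ψ : k →+* k')
    (ρ : ResidualGaloisRep k) (b : Module.Basis (Fin 2) k ρ.V) :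
    ∃ b' : Module.Basis (Fin 2) k' (ρ.baseChangeAlong ψ).V,
      ∀ σ i j, FA_S53_matOfRes (ρ.baseChangeAlong ψ) b' σ i j = ψ (FA_S53_matOfRes ρ b σ i j) := by
  let _ : Algebra k k' := ψ.toAlgebra
  refine ⟨Algebra.TensorProduct.basis k' b, fun σ i j => ?_⟩
  have := LinearMap.toMatrix_baseChange k' (ρ.ρ σ) b b
  exact congrFun (congrFun this i) j

/-- Matrices of the residual representation of a `GaloisRepAdic`. -/
theorem FA_S53_matOfRes_residual {A : Type} [CommRing A] [IsLocalRing A] (ρ : GaloisRepAdic A)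
    (b : Module.Basis (Fin 2) A ρ.V) :
    ∃ b' : Module.Basis (Fin 2) (ResidueField A) ρ.residual.V,
      (∀ i, (b' i : ResidueField A ⊗[A] ρ.V) = (1 : ResidueField A) ⊗ₜ[A] b i) ∧
      ∀ σ i j, FA_S53_matOfRes ρ.residual b' σ i j = residue A (FA_S53_matOf ρ b σ i j) := by
  refine ⟨Algebra.TensorProduct.basis (ResidueField A) b,
    fun i => Algebra.TensorProduct.basis_apply b i, fun σ i j => ?_⟩
  have := LinearMap.toMatrix_baseChange (ResidueField A) (ρ.ρ σ) b b
  exact congrFun (congrFun this i) j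

/-- The matrices of a residual representation are (trivially) adically continuous. -/
theorem FA_S53_isAdicContMat_matOfRes (ρ : ResidualGaloisRep k)
    (b : Module.Basis (Fin 2) k ρ.V) : FA_S53_IsAdicContMat (FA_S53_matOfRes ρ b) := by
  intro n
  obtain ⟨L, hL, h⟩ := ρ.factorsThroughFiniteLevel
  refine ⟨L, hL, fun σ hσ i j => ?_⟩
  have : FA_S53_matOfRes ρ b σ = 1 := by
    rw [FA_S53_matOfRes_apply, h σ hσ]
    exact LinearMap.toMatrix_one b
  rw [this, sub_self]
  exact Ideal.zero_mem _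

/-- `ofResidualGaloisRep ρbar` is equivalent to the matrix model of its matrices. -/
theorem FA_S53_ofResidual_isEquiv_ofMatrix (ρ : ResidualGaloisRep k)
    (b : Module.Basis (Fin 2) k ρ.V) :
    (GaloisRepAdic.ofResidualGaloisRep ρ).IsEquiv
      (FA_S53_ofMatrix (FA_S53_matOfRes ρ b) (FA_S53_isAdicContMat_matOfRes ρ b)) := by
  let b' : Module.Basis (Fin 2) k (GaloisRepAdic.ofResidualGaloisRep ρ).V := b
  refine FA_S53_isEquiv_of_matOf_eq _ _ b' (FA_S53_stdBasis _ _) fun σ => ?_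
  rw [FA_S53_matOf_ofMatrix]
  rfl

variable {A : Type} [CommRing A] [IsLocalRing A]

/-- If the matrices `r` reduce to the (mapped) matrices of `ρbar`, the residual representation of
the matrix model of `r` is equivalent to the base change of `ρbar`. -/
theorem FA_S53_ofMatrix_residual_isEquiv (ψ : k →+* ResidueField A) (ρbar : ResidualGaloisRep k)
    (bbar : Module.Basis (Fin 2) k ρbar.V) (r : Γℚ →* Matrix (Fin 2) (Fin 2) A)
    (hr : FA_S53_IsAdicContMat r)
    (h : ∀ σ i j, residue A (r σ i j) = ψ (FA_S53_matOfRes ρbar bbar σ i j)) :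
    (FA_S53_ofMatrix r hr).residual.IsEquiv (ρbar.baseChangeAlong ψ) := by
  obtain ⟨b₁, -, hb₁⟩ := FA_S53_matOfRes_residual (FA_S53_ofMatrix r hr) (FA_S53_stdBasis r hr)
  obtain ⟨b₂, hb₂⟩ := FA_S53_matOfRes_baseChangeAlong ψ ρbar bbar
  refine FA_S53_res_isEquiv_of_matOf_eq _ _ b₁ b₂ fun σ => ?_
  ext i j
  rw [hb₁, FA_S53_matOf_ofMatrix, h, hb₂]

omit [IsLocalRing A] in
theorem FA_S53_one_tmul_surjective {κ : Type*} [CommRing κ] [Algebra A κ]
    (hκ : Function.Surjective (algebraMap A κ)) {V : Type*} [AddCommGroup V] [Module A V]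
    (x : κ ⊗[A] V) : ∃ v : V, (1 : κ) ⊗ₜ[A] v = x := by
  induction x using TensorProduct.induction_on with
  | zero => exact ⟨0, by rw [TensorProduct.tmul_zero]⟩
  | tmul a v =>
    obtain ⟨a', rfl⟩ := hκ a
    refine ⟨a' • v, ?_⟩
    rw [TensorProduct.tmul_smul, TensorProduct.smul_tmul', Algebra.smul_def, mul_one]
  | add x y hx hy =>
    obtain ⟨v, rfl⟩ := hx
    obtain ⟨w, rfl⟩ := hy
    exact ⟨v + w, by rw [TensorProduct.tmul_add]⟩

/-- **Matrix model of a deformation**: if the residual representation of `ρ` is equivalent to the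
base change of `ρbar`, there is a basis of `ρ.V` in which the matrices of `ρ` reduce to the
(mapped) matrices of `ρbar` in the given basis `bbar`. -/
theorem FA_S53_exists_basis_lifting (ψ : k →+* ResidueField A) (ρbar : ResidualGaloisRep k)
    (bbar : Module.Basis (Fin 2) k ρbar.V) (ρ : GaloisRepAdic A)
    (h : ρ.residual.IsEquiv (ρbar.baseChangeAlong ψ)) :
    ∃ b : Module.Basis (Fin 2) A ρ.V,
      ∀ σ i j, residue A (FA_S53_matOf ρ b σ i j) = ψ (FA_S53_matOfRes ρbar bbar σ i j) := by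
  obtain ⟨e⟩ := h
  obtain ⟨c', hc'⟩ := FA_S53_matOfRes_baseChangeAlong ψ ρbar bbar
  -- the transported basis of the residual representation of `ρ`
  let c : Module.Basis (Fin 2) (ResidueField A) ρ.residual.V := c'.map e.symm.toLinearEquiv
  have hc : ∀ σ, FA_S53_matOfRes ρ.residual c σ = FA_S53_matOfRes (ρbar.baseChangeAlong ψ) c' σ :=
    fun σ => FA_S53_matOfRes_map_equiv e.symm c' σ
  -- lift the basis vectors
  have hsurj : ∀ i, ∃ v : ρ.V, (1 : ResidueField A) ⊗ₜ[A] v = (c i : ResidueField A ⊗[A] ρ.V) :=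
    fun i => FA_S53_one_tmul_surjective (IsLocalRing.residue_surjective) _
  choose v hv using hsurj
  have hspan : Submodule.span A (Set.range v) = ⊤ :=
    IsLocalRing.span_eq_top_of_tmul_eq_basis v c hv
  let b : Module.Basis (Fin 2) A ρ.V :=
    basisOfTopLeSpanOfCardEqFinrank v hspan.ge (by rw [Fintype.card_fin, ρ.finrank_eq])
  have hbv : ∀ i, b i = v i := fun i => by
    simp only [b, coe_basisOfTopLeSpanOfCardEqFinrank]
  obtain ⟨b', hb'1, hb'2⟩ := FA_S53_matOfRes_residual ρ b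
  have hb'c : b' = c := by
    apply Module.Basis.eq_of_apply_eq
    intro i
    rw [hb'1 i, hbv i, hv i]
  refine ⟨b, fun σ i j => ?_⟩
  rw [← hb'2, hb'c, hc, hc']

end Residual

/-! ## Bridging lemmas for the glue -/

section Bridge

variable {𝒪 : Type} [CommRing 𝒪] [IsLocalRing 𝒪] {A : Type} [CommRing A] [IsLocalRing A]
  [Algebra 𝒪 A] [IsLocalHom (algebraMap 𝒪 A)]

/-- "`x` reduces to the image of `residue a`" in the two usual forms. -/
theorem FA_S53_residue_eq_map_iff (x : A) (a : 𝒪) :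
    residue A x = ResidueField.map (algebraMap 𝒪 A) (residue 𝒪 a) ↔
      x - algebraMap 𝒪 A a ∈ maximalIdeal A := by
  rw [ResidueField.map_residue, ← sub_eq_zero, ← map_sub, residue_eq_zero_iff]

/-- Entrywise form: the matrices `r` reduce to the mapped matrices `rbar` iff `r` is an entrywise
lift of any entrywise lift `c` of `rbar` to `𝒪`. -/
theorem FA_S53_lift_iff {G : Type*} (r : G → Matrix (Fin 2) (Fin 2) A)
    (rbar : G → Matrix (Fin 2) (Fin 2) (ResidueField 𝒪)) (c : G → Matrix (Fin 2) (Fin 2) 𝒪)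
    (hc : ∀ g i j, residue 𝒪 (c g i j) = rbar g i j) :
    (∀ g i j, residue A (r g i j) = ResidueField.map (algebraMap 𝒪 A) (rbar g i j)) ↔
      ∀ g i j, r g i j - algebraMap 𝒪 A (c g i j) ∈ maximalIdeal A := by
  constructor
  · intro h g i j
    rw [← FA_S53_residue_eq_map_iff, hc, h]
  · intro h g i j
    rw [← hc, FA_S53_residue_eq_map_iff]
    exact h g i j

end Bridge

end Fermat.Agent.S53
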