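import Mathlib
import Fermat.Agent.S53.Matrix
import Fermat.Agent.S53.GaugeExists

/-!
# S53: bridge between the matrix model (G1) and the gauge / normal form (G2)

* `FA_S53_conjHom`: conjugate of a matrix representation by an invertible matrix.
* `FA_S53_bridge_exists`: every `ρA : GaloisRepAdic A` (A Henselian local `𝒪`-algebra) whose residual
  representation is `ρbar ⊗` is equivalent to `ofMatrix r` for a NORMALISED lift `r` of `c`.
* `FA_S53_bridge_unique`: two normalised lifts with equivalent matrix models are equal.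
-/

set_option autoImplicit false

open IsLocalRing

namespace Fermat.Agent.S53

local notation "Γℚ" => (AlgebraicClosure ℚ ≃ₐ[ℚ] AlgebraicClosure ℚ)

section conj

variable {A : Type} [CommRing A] [IsLocalRing A]

/-- Conjugate of a matrix representation by an invertible matrix. -/
noncomputable def FA_S53_conjHom (M M' : Matrix (Fin 2) (Fin 2) A) (h : M' * M = 1)
    (r : Γℚ →* Matrix (Fin 2) (Fin 2) A) : Γℚ →* Matrix (Fin 2) (Fin 2) A where
  toFun σ := M * r σ * M'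
  map_one' := by
    rw [map_one, mul_one]
    exact mul_eq_one_comm.mp h
  map_mul' σ τ := by
    rw [map_mul]
    calc M * (r σ * r τ) * M' = M * r σ * (1 : Matrix (Fin 2) (Fin 2) A) * r τ * M' := by
          rw [mul_one]; simp only [mul_assoc]
      _ = M * r σ * M' * (M * r τ * M') := by rw [← h]; simp only [mul_assoc]

omit [IsLocalRing A] in
theorem FA_S53_conjHom_apply (M M' : Matrix (Fin 2) (Fin 2) A) (h : M' * M = 1)
    (r : Γℚ →* Matrix (Fin 2) (Fin 2) A) (σ : Γℚ) :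
    FA_S53_conjHom M M' h r σ = M * r σ * M' := rfl

theorem FA_S53_isAdicContMat_conjHom (M M' : Matrix (Fin 2) (Fin 2) A) (h : M' * M = 1)
    (r : Γℚ →* Matrix (Fin 2) (Fin 2) A) (hr : FA_S53_IsAdicContMat r) :
    FA_S53_IsAdicContMat (FA_S53_conjHom M M' h r) := by
  intro n
  obtain ⟨L, hL, hσ⟩ := hr n
  refine ⟨L, hL, fun σ hσL i j => ?_⟩
  have h1 : M * M' = 1 := mul_eq_one_comm.mp h
  have h2 : FA_S53_conjHom M M' h r σ - 1 = M * (r σ - 1) * M' := by
    rw [FA_S53_conjHom_apply, mul_sub, sub_mul, mul_one, h1]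
  rw [h2]
  exact FA_S53_conj_mem_ideal _ M M' _ (hσ σ hσL) i j

theorem FA_S53_ofMatrix_conjHom_isEquiv (M M' : Matrix (Fin 2) (Fin 2) A) (h : M' * M = 1)
    (r : Γℚ →* Matrix (Fin 2) (Fin 2) A) (hr : FA_S53_IsAdicContMat r)
    (hr' : FA_S53_IsAdicContMat (FA_S53_conjHom M M' h r)) :
    (FA_S53_ofMatrix r hr).IsEquiv (FA_S53_ofMatrix (FA_S53_conjHom M M' h r) hr') := by
  rw [FA_S53_ofMatrix_isEquiv_iff]
  refine ⟨M, M', mul_eq_one_comm.mp h, h, fun σ => ?_⟩
  rw [FA_S53_conjHom_apply, mul_assoc, h, mul_one]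

end conj

section bridge

variable {𝒪 : Type} [CommRing 𝒪] [IsLocalRing 𝒪] {A : Type} [CommRing A] [IsLocalRing A]
  [Algebra 𝒪 A] [IsLocalHom (algebraMap 𝒪 A)]

/-- (B1) Every representation over a Henselian local `𝒪`-algebra `A` whose residual representation
is `ρbar ⊗` is equivalent to the matrix model of a normalised lift of `c`. -/
theorem FA_S53_bridge_exists (hH : FA_S53_HenselProp A)
    (ρbar : ResidualGaloisRep (ResidueField 𝒪))
    (bbar : Module.Basis (Fin 2) (ResidueField 𝒪) ρbar.V)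
    (c : Γℚ → Matrix (Fin 2) (Fin 2) 𝒪)
    (hc : ∀ σ i j, residue 𝒪 (c σ i j) = FA_S53_matOfRes ρbar bbar σ i j)
    (Γ : FA_S53_Gauge c) (ρA : GaloisRepAdic A)
    (h : ρA.residual.IsEquiv (ρbar.baseChangeAlong (ResidueField.map (algebraMap 𝒪 A)))) :
    ∃ (r : Γℚ →* Matrix (Fin 2) (Fin 2) A) (hr : FA_S53_IsAdicContMat r),
      FA_S53_IsLift c (fun σ => r σ) ∧ FA_S53_Normalized Γ (fun σ => r σ) ∧
      (FA_S53_ofMatrix r hr).IsEquiv ρA := by
  obtain ⟨b, hb⟩ := FA_S53_exists_basis_lifting (ResidueField.map (algebraMap 𝒪 A)) ρbar bbar ρA h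
  have hlift : FA_S53_IsLift c (fun σ => FA_S53_matOf ρA b σ) :=
    (FA_S53_lift_iff (fun σ => FA_S53_matOf ρA b σ)
      (fun σ => FA_S53_matOfRes ρbar bbar σ) c hc).1 hb
  obtain ⟨M, M', h1, h2, -, -, hn, hl⟩ := FA_S53_gauge_exists Γ hH hlift
  have hcont := FA_S53_isAdicContMat_conjHom M M' h2 _ (FA_S53_isAdicContMat_matOf ρA b)
  refine ⟨FA_S53_conjHom M M' h2 (FA_S53_matOf ρA b), hcont, hl, hn, ?_⟩
  obtain ⟨e₁⟩ := FA_S53_isEquiv_ofMatrix_matOf ρA b
  obtain ⟨e₂⟩ := FA_S53_ofMatrix_conjHom_isEquiv M M' h2 _ (FA_S53_isAdicContMat_matOf ρA b) hcont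
  exact ⟨(e₁.trans e₂).symm⟩

/-- (B2) Two normalised lifts of `c` with equivalent matrix models are equal. -/
theorem FA_S53_bridge_unique {c : Γℚ → Matrix (Fin 2) (Fin 2) 𝒪} (Γ : FA_S53_Gauge c)
    (r r' : Γℚ →* Matrix (Fin 2) (Fin 2) A)
    (hr : FA_S53_IsAdicContMat r) (hr' : FA_S53_IsAdicContMat r')
    (hl : FA_S53_IsLift c (fun σ => r σ)) (hl' : FA_S53_IsLift c (fun σ => r' σ))
    (hn : FA_S53_Normalized Γ (fun σ => r σ)) (hn' : FA_S53_Normalized Γ (fun σ => r' σ))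
    (h : (FA_S53_ofMatrix r hr).IsEquiv (FA_S53_ofMatrix r' hr')) : r = r' := by
  obtain ⟨P, Q, hPQ, -, hint⟩ := (FA_S53_ofMatrix_isEquiv_iff r r' hr hr').1 h
  have := FA_S53_gauge_unique Γ hl hl' hn hn' P Q hPQ hint
  exact MonoidHom.ext fun σ => congrFun this σ

end bridge

end Fermat.Agent.S53
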