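import Mathlib
import Fermat.Agent.S53.Interface
import Fermat.Agent.S53.Matrix
import Fermat.Agent.S53.Gauge

/-!
# S53 glue: definition of the slice functor `N`

`X = Γℚ × Fin 2 × Fin 2`; a point of `N A` is the family of matrix entries of a normalised,
adically continuous lift `r : Γℚ →* M₂(A)` of `c` whose matrix model satisfies `𝒟`.
-/

set_option autoImplicit false

open IsLocalRing

namespace Fermat.Agent.S53

local notation "Γℚ" => (AlgebraicClosure ℚ ≃ₐ[ℚ] AlgebraicClosure ℚ)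

/-- The index set of the slice functor. -/
abbrev FA_S53_X : Type := Γℚ × Fin 2 × Fin 2

/-- The family of entries of a matrix-valued function. -/
def FA_S53_entries {A : Type} (r : Γℚ → Matrix (Fin 2) (Fin 2) A) : FA_S53_X → A :=
  fun x => r x.1 x.2.1 x.2.2

theorem FA_S53_entries_apply {A : Type} (r : Γℚ → Matrix (Fin 2) (Fin 2) A) (σ : Γℚ)
    (i j : Fin 2) : FA_S53_entries r (σ, i, j) = r σ i j := rfl

theorem FA_S53_entries_injective {A : Type} {r r' : Γℚ → Matrix (Fin 2) (Fin 2) A}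
    (h : FA_S53_entries r = FA_S53_entries r') : r = r' := by
  funext σ
  ext i j
  exact congrFun h (σ, i, j)

/-- The slice functor: entries of normalised adically continuous `𝒟`-lifts of `c`. -/
def FA_S53_N (𝒪 : Type) [CommRing 𝒪] [IsLocalRing 𝒪]
    (𝒟 : ∀ ⦃A : Type⦄ [CommRing A] [IsLocalRing A] [Algebra 𝒪 A], GaloisRepAdic A → Prop)
    (c : Γℚ → Matrix (Fin 2) (Fin 2) 𝒪) (Γ : FA_S53_Gauge c) : FA_S53_Fun 𝒪 FA_S53_X :=
  fun A _ _ _ => {f | ∃ (r : Γℚ →* Matrix (Fin 2) (Fin 2) A) (hr : FA_S53_IsAdicContMat r),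
    f = FA_S53_entries r ∧ FA_S53_IsLift c r ∧ FA_S53_Normalized Γ r ∧
      𝒟 (FA_S53_ofMatrix r hr)}

theorem FA_S53_mem_N_iff {𝒪 : Type} [CommRing 𝒪] [IsLocalRing 𝒪]
    {𝒟 : ∀ ⦃A : Type⦄ [CommRing A] [IsLocalRing A] [Algebra 𝒪 A], GaloisRepAdic A → Prop}
    {c : Γℚ → Matrix (Fin 2) (Fin 2) 𝒪} {Γ : FA_S53_Gauge c}
    {A : Type} [CommRing A] [IsLocalRing A] [Algebra 𝒪 A] (f : FA_S53_X → A) :
    f ∈ FA_S53_N 𝒪 𝒟 c Γ A ↔
      ∃ (r : Γℚ →* Matrix (Fin 2) (Fin 2) A) (hr : FA_S53_IsAdicContMat r),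
        f = FA_S53_entries r ∧ FA_S53_IsLift c r ∧ FA_S53_Normalized Γ r ∧
          𝒟 (FA_S53_ofMatrix r hr) := Iff.rfl

/-- Membership of the entries of a given matrix representation. -/
theorem FA_S53_entries_mem_N_iff {𝒪 : Type} [CommRing 𝒪] [IsLocalRing 𝒪]
    {𝒟 : ∀ ⦃A : Type⦄ [CommRing A] [IsLocalRing A] [Algebra 𝒪 A], GaloisRepAdic A → Prop}
    {c : Γℚ → Matrix (Fin 2) (Fin 2) 𝒪} {Γ : FA_S53_Gauge c}
    {A : Type} [CommRing A] [IsLocalRing A] [Algebra 𝒪 A]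
    (r : Γℚ →* Matrix (Fin 2) (Fin 2) A) (hr : FA_S53_IsAdicContMat r) :
    FA_S53_entries r ∈ FA_S53_N 𝒪 𝒟 c Γ A ↔
      FA_S53_IsLift c r ∧ FA_S53_Normalized Γ r ∧ 𝒟 (FA_S53_ofMatrix r hr) := by
  constructor
  · rintro ⟨r', hr', h, h1, h2, h3⟩
    have e : (r : Γℚ → Matrix (Fin 2) (Fin 2) A) = r' := FA_S53_entries_injective h
    have e' : r = r' := DFunLike.coe_injective e
    subst e'
    exact ⟨h1, h2, h3⟩
  · rintro ⟨h1, h2, h3⟩
    exact ⟨r, hr, rfl, h1, h2, h3⟩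

/-- The residual point. -/
noncomputable def FA_S53_f₀ {k : Type} [Field k] (ρbar : ResidualGaloisRep k)
    (bbar : Module.Basis (Fin 2) k ρbar.V) : FA_S53_X → k :=
  FA_S53_entries (FA_S53_matOfRes ρbar bbar)

end Fermat.Agent.S53
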