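import Mathlib
import Fermat.Agent.S53.Interface
import Fermat.Agent.S53.Bridge
import Fermat.Agent.S53.SliceDef

/-!
# S53: final assembly — from `FA_S53_Representable` to `DeformationRingData`

The rigidified functor `N` is kept ABSTRACT here: all we need is its description over complete
Noetherian local `𝒪`-algebras (`FA_S53_IsModel`):
`f ∈ N A ↔ f = entries of a normalised adic-continuous lift r with 𝒟 (ofMatrix r)`.
-/

set_option autoImplicit false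

open IsLocalRing

namespace Fermat.Agent.S53

local notation "Γℚ" => (AlgebraicClosure ℚ ≃ₐ[ℚ] AlgebraicClosure ℚ)

theorem FA_S53_entries_mapMat {A B : Type} [CommRing A] [CommRing B] [IsLocalRing A]
    [IsLocalRing B] (φ : A →+* B)
    (r : Γℚ →* Matrix (Fin 2) (Fin 2) A) (x : FA_S53_X) :
    FA_S53_entries (FA_S53_mapMat φ r) x = φ (FA_S53_entries r x) := rfl

theorem FA_S53_entries_injective_hom {A : Type} [CommRing A]
    {r r' : Γℚ →* Matrix (Fin 2) (Fin 2) A}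
    (h : FA_S53_entries (r : Γℚ → Matrix (Fin 2) (Fin 2) A) = FA_S53_entries r') : r = r' :=
  DFunLike.coe_injective (FA_S53_entries_injective h)

section

variable {𝒪 : Type} [CommRing 𝒪] [IsLocalRing 𝒪]

/-- Description of the rigidified functor over complete Noetherian local `𝒪`-algebras. -/
def FA_S53_IsModel (𝒟 : ∀ ⦃A : Type⦄ [CommRing A] [IsLocalRing A] [Algebra 𝒪 A],
      GaloisRepAdic A → Prop)
    {c : Γℚ → Matrix (Fin 2) (Fin 2) 𝒪} (Γ : FA_S53_Gauge c)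
    (N : FA_S53_Fun 𝒪 (FA_S53_X)) : Prop :=
  ∀ (A : Type) [CommRing A] [IsLocalRing A] [IsNoetherianRing A]
    [IsAdicComplete (maximalIdeal A) A] [Algebra 𝒪 A],
    IsLocalHom (algebraMap 𝒪 A) → Function.Surjective (residue A ∘ algebraMap 𝒪 A) →
    ∀ f : FA_S53_X → A, f ∈ N A ↔
      ∃ (r : Γℚ →* Matrix (Fin 2) (Fin 2) A) (hr : FA_S53_IsAdicContMat r),
        f = FA_S53_entries r ∧ FA_S53_IsLift c (fun σ => r σ) ∧
        FA_S53_Normalized Γ (fun σ => r σ) ∧ 𝒟 (FA_S53_ofMatrix r hr)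

theorem FA_S53_N_isModel (𝒟 : ∀ ⦃A : Type⦄ [CommRing A] [IsLocalRing A] [Algebra 𝒪 A],
      GaloisRepAdic A → Prop)
    {c : Γℚ → Matrix (Fin 2) (Fin 2) 𝒪} (Γ : FA_S53_Gauge c) :
    FA_S53_IsModel 𝒟 Γ (FA_S53_N 𝒪 𝒟 c Γ) :=
  fun _ _ _ _ _ _ _ _ _ => Iff.rfl

omit [IsLocalRing 𝒪] in
/-- A deformation condition is invariant under equivalence over complete Noetherian local
`𝒪`-algebras (the axiom `of_isEquiv` only covers Artinian test algebras). -/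
theorem FA_S53_of_isEquiv_complete
    {𝒟 : ∀ ⦃A : Type⦄ [CommRing A] [IsLocalRing A] [Algebra 𝒪 A], GaloisRepAdic A → Prop}
    (h𝒟 : GaloisRep.IsDeformationCondition 𝒪 𝒟)
    {A : Type} [CommRing A] [IsLocalRing A] [IsNoetherianRing A]
    [IsAdicComplete (maximalIdeal A) A] [Algebra 𝒪 A]
    (hloc : IsLocalHom (algebraMap 𝒪 A))
    (hsurj : Function.Surjective (residue A ∘ algebraMap 𝒪 A))
    {ρ ρ' : GaloisRepAdic A} (e : ρ.IsEquiv ρ') (h : 𝒟 ρ) : 𝒟 ρ' := by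
  rw [h𝒟.iff_forall_surjective hloc hsurj] at h ⊢
  intro B _ _ _ hB q hq hqs
  obtain ⟨e⟩ := e
  exact h𝒟.of_isEquiv hB ⟨e.baseChangeAlong (q : A →+* B) hq⟩ (h hB q hq hqs)

omit [IsLocalRing 𝒪] in
theorem FA_S53_isLift_mapMat {A B : Type} [CommRing A] [IsLocalRing A] [Algebra 𝒪 A]
    [CommRing B] [IsLocalRing B] [Algebra 𝒪 B] (φ : A →ₐ[𝒪] B) (hφ : IsLocalHom (φ : A →+* B))
    {c : Γℚ → Matrix (Fin 2) (Fin 2) 𝒪} (r : Γℚ →* Matrix (Fin 2) (Fin 2) A)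
    (hl : FA_S53_IsLift c (fun σ => r σ)) :
    FA_S53_IsLift c (fun σ => FA_S53_mapMat (φ : A →+* B) r σ) := by
  intro σ i j
  have h1 := hl σ i j
  have h2 : FA_S53_mapMat (φ : A →+* B) r σ i j - algebraMap 𝒪 B (c σ i j)
      = φ (r σ i j - algebraMap 𝒪 A (c σ i j)) := by
    rw [map_sub, AlgHom.commutes]
    rfl
  show FA_S53_mapMat (φ : A →+* B) r σ i j - algebraMap 𝒪 B (c σ i j) ∈ maximalIdeal B
  rw [h2]
  rw [mem_maximalIdeal, mem_nonunits_iff] at h1 ⊢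
  intro hu
  exact h1 (haveI := hφ; (isUnit_map_iff (φ : A →+* B) _).mp hu)

theorem FA_S53_normalized_mapMat {A B : Type} [CommRing A] [IsLocalRing A] [Algebra 𝒪 A]
    [CommRing B] [IsLocalRing B] [Algebra 𝒪 B] (φ : A →ₐ[𝒪] B)
    {c : Γℚ → Matrix (Fin 2) (Fin 2) 𝒪} (Γ : FA_S53_Gauge c)
    (r : Γℚ →* Matrix (Fin 2) (Fin 2) A)
    (hn : FA_S53_Normalized Γ (fun σ => r σ)) :
    FA_S53_Normalized Γ (fun σ => FA_S53_mapMat (φ : A →+* B) r σ) :=
  FA_S53_Normalized.map Γ hn φ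

end

section main

variable (𝒪 : Type) [CommRing 𝒪] [IsDomain 𝒪] [IsDiscreteValuationRing 𝒪]
  [IsAdicComplete (maximalIdeal 𝒪) 𝒪]

/-- FINAL ASSEMBLY: a representing object of the rigidified functor of normalised `𝒟`-lifts is a
universal deformation ring. -/
theorem FA_S53_assemble
    (ρbar : ResidualGaloisRep (ResidueField 𝒪))
    (𝒟 : ∀ ⦃A : Type⦄ [CommRing A] [IsLocalRing A] [Algebra 𝒪 A], GaloisRepAdic A → Prop)
    (habs : ρbar.IsAbsolutelyIrreducible)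
    (h𝒟 : GaloisRep.IsDeformationCondition 𝒪 𝒟)
    (bbar : Module.Basis (Fin 2) (ResidueField 𝒪) ρbar.V)
    (c : Γℚ → Matrix (Fin 2) (Fin 2) 𝒪)
    (hc : ∀ σ i j, residue 𝒪 (c σ i j) = FA_S53_matOfRes ρbar bbar σ i j)
    (Γ : FA_S53_Gauge c)
    (N : FA_S53_Fun 𝒪 (FA_S53_X))
    (hN : FA_S53_IsModel 𝒟 Γ N)
    (hrep : FA_S53_Representable 𝒪 (FA_S53_X) N) :
    Nonempty (GaloisRep.DeformationRingData 𝒪 ρbar 𝒟) := by
  obtain ⟨R, iR1, iR2, iR3, iR4, iR5, hlocR, hsurjR, fR, hfR, huniv⟩ := hrep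
  obtain ⟨rR, hrR, rfl, hlR, hnR, hDR⟩ := (hN R hlocR hsurjR fR).1 hfR
  have : IsLocalHom (algebraMap 𝒪 R) := hlocR
  refine ⟨{
    R := R
    residue_surjective := hsurjR
    absIrr := habs
    ρ := FA_S53_ofMatrix rR hrR
    isOfType := hDR
    residual_isEquiv := ?_
    universal := ?_ }⟩
  · exact FA_S53_ofMatrix_residual_isEquiv _ ρbar bbar rR hrR
      ((FA_S53_lift_iff (fun σ => rR σ) (fun σ => FA_S53_matOfRes ρbar bbar σ) c hc).2 hlR)
  · intro A _ _ _ _ _ hlocA hsurjA ρA hDA hresA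
    have hH : FA_S53_HenselProp A := FA_S53_henselProp_of_isAdicComplete
    obtain ⟨r, hr, hl, hn, he⟩ := FA_S53_bridge_exists hH ρbar bbar c hc Γ ρA hresA
    have hDr : 𝒟 (FA_S53_ofMatrix r hr) := by
      obtain ⟨e⟩ := he
      exact FA_S53_of_isEquiv_complete h𝒟 hlocA hsurjA ⟨e.symm⟩ hDA
    have hf : FA_S53_entries r ∈ N A := (hN A hlocA hsurjA _).2 ⟨r, hr, rfl, hl, hn, hDr⟩
    obtain ⟨φ, ⟨hφloc, hφf⟩, hφuniq⟩ := huniv A hlocA hsurjA _ hf
    refine ⟨φ, ⟨hφloc, ?_⟩, ?_⟩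
    · have hr_eq : FA_S53_mapMat (φ : R →+* A) rR = r :=
        FA_S53_entries_injective_hom (funext fun x => hφf x)
      subst hr_eq
      obtain ⟨e₁⟩ := FA_S53_ofMatrix_baseChangeAlong (φ : R →+* A) hφloc rR hrR hr
      obtain ⟨e₂⟩ := he
      exact ⟨e₁.trans e₂⟩
    · rintro φ' ⟨hφ', he'⟩
      apply hφuniq φ' ⟨hφ', fun x => ?_⟩
      have hr' := FA_S53_isAdicContMat_mapMat (φ' : R →+* A) hφ' rR hrR
      have hl' := FA_S53_isLift_mapMat φ' hφ' rR hlR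
      have hn' := FA_S53_normalized_mapMat φ' Γ rR hnR
      have heq : FA_S53_mapMat (φ' : R →+* A) rR = r := by
        apply FA_S53_bridge_unique Γ _ _ hr' hr hl' hl hn' hn
        obtain ⟨e₁⟩ := FA_S53_ofMatrix_baseChangeAlong (φ' : R →+* A) hφ' rR hrR hr'
        obtain ⟨e₂⟩ := he'
        obtain ⟨e₃⟩ := he
        exact ⟨(e₁.symm.trans e₂).trans e₃.symm⟩
      rw [← heq]
      rfl

end main

end Fermat.Agent.S53
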