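import Mathlib
import Fermat.Prelude.Def_GaloisRep_DeformationCondition

/-!
# S53 glue, part 1: Artinian test algebras

* the residue field is a test algebra;
* `A ⧸ 𝔪 ^ n` is a test algebra for a Noetherian local `𝒪`-algebra `A`;
* test algebras are finite rings when the residue field of `𝒪` is finite;
* the canonical augmentation `B →ₐ[𝒪] k` of a test algebra, and the fibre product
  `B₁ ×ₖ B₂` of two test algebras, again a test algebra.
-/

set_option autoImplicit false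
set_option linter.unusedSectionVars false
set_option linter.style.haveILetI false

open IsLocalRing

namespace Fermat.Agent.S53

section Basic

variable (𝒪 : Type) [CommRing 𝒪] [IsLocalRing 𝒪]

/-- The residue field of `𝒪` is an Artinian test algebra. -/
theorem FA_S53_testAlg_residueField :
    GaloisRep.IsArtinianTestAlgebra 𝒪 (ResidueField 𝒪) where
  isLocalHom := by
    have : algebraMap 𝒪 (ResidueField 𝒪) = residue 𝒪 := rfl
    rw [this]
    infer_instance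
  residue_surjective := by
    intro x
    obtain ⟨y, rfl⟩ := IsLocalRing.residue_surjective x
    obtain ⟨z, rfl⟩ := IsLocalRing.residue_surjective y
    exact ⟨z, rfl⟩
  isArtinian := inferInstance

variable {𝒪}
variable {A : Type} [CommRing A] [IsLocalRing A] [Algebra 𝒪 A]

/-- A local hom maps the maximal ideal into the maximal ideal. -/
theorem FA_S53_map_mem_maximalIdeal {B : Type} [CommRing B] [IsLocalRing B] (φ : A →+* B)
    (hφ : IsLocalHom φ) {a : A} (ha : a ∈ maximalIdeal A) : φ a ∈ maximalIdeal B :=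
  haveI := hφ
  map_nonunit φ a ha

/-- A local hom reflects membership in the maximal ideal. -/
theorem FA_S53_mem_maximalIdeal_of_map {B : Type} [CommRing B] [IsLocalRing B] (φ : A →+* B)
    {a : A} (ha : φ a ∈ maximalIdeal B) : a ∈ maximalIdeal A := by
  rw [mem_maximalIdeal, mem_nonunits_iff] at ha ⊢
  exact fun h => ha (h.map φ)

/-- In a local `𝒪`-algebra with surjective residue map every element is congruent to a
constant. -/
theorem FA_S53_exists_const (hsurj : Function.Surjective (residue A ∘ algebraMap 𝒪 A)) (a : A) :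
    ∃ x : 𝒪, a - algebraMap 𝒪 A x ∈ maximalIdeal A := by
  obtain ⟨x, hx⟩ := hsurj (residue A a)
  refine ⟨x, ?_⟩
  rw [← residue_eq_zero_iff, map_sub, sub_eq_zero]
  exact hx.symm

end Basic

section Quot

variable {𝒪 : Type} [CommRing 𝒪] [IsLocalRing 𝒪]
variable {A : Type} [CommRing A] [IsLocalRing A] [Algebra 𝒪 A]

/-- The quotient of a local ring by a proper ideal is local. -/
theorem FA_S53_isLocalRing_quot (I : Ideal A) (hI : I ≠ ⊤) : IsLocalRing (A ⧸ I) :=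
  haveI : Nontrivial (A ⧸ I) := Ideal.Quotient.nontrivial_iff.mpr hI
  IsLocalRing.of_surjective' (Ideal.Quotient.mk I) Ideal.Quotient.mk_surjective

theorem FA_S53_pow_ne_top (n : ℕ) (hn : n ≠ 0) : maximalIdeal A ^ n ≠ ⊤ := by
  intro h
  have h1 : maximalIdeal A ^ n ≤ maximalIdeal A := Ideal.pow_le_self hn
  rw [h] at h1
  exact (IsLocalRing.maximalIdeal.isMaximal A).ne_top (top_le_iff.mp h1)

/-- `A ⧸ 𝔪 ^ n` is an Artinian test algebra (for any local-ring instance on it). -/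
theorem FA_S53_testAlg_quot [IsNoetherianRing A] (hloc : IsLocalHom (algebraMap 𝒪 A))
    (hsurj : Function.Surjective (residue A ∘ algebraMap 𝒪 A)) (n : ℕ)
    [IsLocalRing (A ⧸ maximalIdeal A ^ n)] :
    GaloisRep.IsArtinianTestAlgebra 𝒪 (A ⧸ maximalIdeal A ^ n) := by
  have hq : IsLocalHom (Ideal.Quotient.mk (maximalIdeal A ^ n)) :=
    IsLocalHom.of_surjective _ Ideal.Quotient.mk_surjective
  refine ⟨?_, ?_, ?_⟩
  · have : algebraMap 𝒪 (A ⧸ maximalIdeal A ^ n) =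
        (Ideal.Quotient.mk (maximalIdeal A ^ n)).comp (algebraMap 𝒪 A) := rfl
    rw [this]
    exact @RingHom.isLocalHom_comp _ _ _ _ _ _ _ _ hq hloc
  · intro x
    obtain ⟨y, rfl⟩ := IsLocalRing.residue_surjective x
    obtain ⟨a, rfl⟩ := Ideal.Quotient.mk_surjective y
    obtain ⟨z, hz⟩ := hsurj (residue A a)
    refine ⟨z, ?_⟩
    have h1 : a - algebraMap 𝒪 A z ∈ maximalIdeal A := by
      rw [← residue_eq_zero_iff, map_sub, sub_eq_zero]
      exact hz.symm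
    have h2 : Ideal.Quotient.mk (maximalIdeal A ^ n) (a - algebraMap 𝒪 A z) ∈
        maximalIdeal (A ⧸ maximalIdeal A ^ n) :=
      haveI := hq
      map_nonunit _ _ h1
    rw [← residue_eq_zero_iff, map_sub, map_sub, sub_eq_zero] at h2
    exact h2.symm
  · rw [isArtinianRing_iff_isNilpotent_maximalIdeal]
    refine ⟨n, ?_⟩
    have hI : maximalIdeal A ^ n ≠ ⊤ := by
      intro h
      have : Subsingleton (A ⧸ maximalIdeal A ^ n) := Ideal.Quotient.subsingleton_iff.mpr h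
      exact not_subsingleton (A ⧸ maximalIdeal A ^ n) this
    have hmap : (maximalIdeal A).map (Ideal.Quotient.mk (maximalIdeal A ^ n)) =
        maximalIdeal (A ⧸ maximalIdeal A ^ n) := by
      ext x
      obtain ⟨x, rfl⟩ := Ideal.Quotient.mk_surjective x
      simp [sup_eq_left.mpr (le_maximalIdeal hI)]
    rw [← hmap, ← Ideal.map_pow, Ideal.zero_eq_bot, Ideal.map_eq_bot_iff_le_ker, Ideal.mk_ker]

end Quot

section Fin

variable {𝒪 : Type} [CommRing 𝒪] [IsLocalRing 𝒪]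
variable {B : Type} [CommRing B] [IsLocalRing B] [Algebra 𝒪 B]

/-- Artinian test algebras are finite rings when the residue field of `𝒪` is finite. -/
theorem FA_S53_testAlg_finite [Finite (ResidueField 𝒪)]
    (hB : GaloisRep.IsArtinianTestAlgebra 𝒪 B) : Finite B := by
  have := hB.isArtinian
  have := hB.isLocalHom
  have : Finite (ResidueField B) := by
    have hs : Function.Surjective (ResidueField.map (algebraMap 𝒪 B)) := by
      intro x
      obtain ⟨z, hz⟩ := hB.residue_surjective x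
      exact ⟨residue 𝒪 z, hz⟩
    exact Finite.of_surjective _ hs
  have h1 : Finite (B ⧸ (⊥ : Ideal B)) := by
    rw [IsLocalRing.finite_quotient_iff]
    obtain ⟨n, hn⟩ := IsArtinianRing.isNilpotent_jacobson_bot (R := B)
    refine ⟨n, ?_⟩
    rw [jacobson_eq_maximalIdeal _ bot_ne_top] at hn
    rw [hn]
    exact le_of_eq rfl
  exact Finite.of_equiv _ (RingEquiv.quotientBot B).toEquiv

end Fin

section Aug

variable {𝒪 : Type} [CommRing 𝒪] [IsLocalRing 𝒪]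
variable {B : Type} [CommRing B] [IsLocalRing B] [Algebra 𝒪 B]

/-- The residue fields of `𝒪` and of a test algebra agree. -/
noncomputable def FA_S53_resEquiv (hB : GaloisRep.IsArtinianTestAlgebra 𝒪 B) :
    ResidueField 𝒪 ≃+* ResidueField B :=
  haveI := hB.isLocalHom
  RingEquiv.ofBijective (ResidueField.map (algebraMap 𝒪 B))
    ⟨RingHom.injective _, fun x => by
      obtain ⟨z, hz⟩ := hB.residue_surjective x
      exact ⟨residue 𝒪 z, hz⟩⟩

theorem FA_S53_resEquiv_residue (hB : GaloisRep.IsArtinianTestAlgebra 𝒪 B) (x : 𝒪) :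
    FA_S53_resEquiv hB (residue 𝒪 x) = residue B (algebraMap 𝒪 B x) := rfl

/-- The augmentation `B → k` of a test algebra. -/
noncomputable def FA_S53_aug (hB : GaloisRep.IsArtinianTestAlgebra 𝒪 B) :
    B →ₐ[𝒪] ResidueField 𝒪 :=
  { ((FA_S53_resEquiv hB).symm : ResidueField B →+* ResidueField 𝒪).comp (residue B) with
    commutes' := fun x => by
      show (FA_S53_resEquiv hB).symm (residue B (algebraMap 𝒪 B x)) = residue 𝒪 x
      rw [← FA_S53_resEquiv_residue hB, RingEquiv.symm_apply_apply] }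

theorem FA_S53_aug_apply (hB : GaloisRep.IsArtinianTestAlgebra 𝒪 B) (b : B) :
    FA_S53_aug hB b = (FA_S53_resEquiv hB).symm (residue B b) := rfl

theorem FA_S53_aug_eq_zero_iff (hB : GaloisRep.IsArtinianTestAlgebra 𝒪 B) (b : B) :
    FA_S53_aug hB b = 0 ↔ b ∈ maximalIdeal B := by
  rw [FA_S53_aug_apply, RingEquiv.map_eq_zero_iff ((FA_S53_resEquiv hB).symm),
    residue_eq_zero_iff]

theorem FA_S53_aug_ne_zero_iff (hB : GaloisRep.IsArtinianTestAlgebra 𝒪 B) (b : B) :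
    FA_S53_aug hB b ≠ 0 ↔ IsUnit b := by
  rw [Ne, FA_S53_aug_eq_zero_iff, mem_maximalIdeal, mem_nonunits_iff, not_not]

theorem FA_S53_aug_surjective (hB : GaloisRep.IsArtinianTestAlgebra 𝒪 B) :
    Function.Surjective (FA_S53_aug hB) := by
  intro x
  obtain ⟨z, rfl⟩ := IsLocalRing.residue_surjective x
  exact ⟨algebraMap 𝒪 B z, (FA_S53_aug hB).commutes z⟩

/-- Any local `𝒪`-algebra map commutes with the augmentations. -/
theorem FA_S53_aug_comp {A : Type} [CommRing A] [IsLocalRing A] [Algebra 𝒪 A]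
    (hA : GaloisRep.IsArtinianTestAlgebra 𝒪 A) (hB : GaloisRep.IsArtinianTestAlgebra 𝒪 B)
    (φ : A →ₐ[𝒪] B) (hφ : IsLocalHom (φ : A →+* B)) (a : A) :
    FA_S53_aug hB (φ a) = FA_S53_aug hA a := by
  obtain ⟨x, hx⟩ := hA.residue_surjective (residue A a)
  have h1 : a - algebraMap 𝒪 A x ∈ maximalIdeal A := by
    rw [← residue_eq_zero_iff, map_sub, sub_eq_zero]
    exact hx.symm
  have h2 : φ (a - algebraMap 𝒪 A x) ∈ maximalIdeal B :=
    haveI := hφ
    map_nonunit (φ : A →+* B) _ h1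
  have e1 : FA_S53_aug hA a = residue 𝒪 x := by
    have := (FA_S53_aug_eq_zero_iff hA _).2 h1
    rw [map_sub, sub_eq_zero, AlgHom.commutes] at this
    exact this
  have e2 : FA_S53_aug hB (φ a) = residue 𝒪 x := by
    have := (FA_S53_aug_eq_zero_iff hB _).2 h2
    rw [map_sub, map_sub, sub_eq_zero, AlgHom.commutes, AlgHom.commutes] at this
    exact this
  rw [e1, e2]

end Aug

section Fib

variable {𝒪 : Type} [CommRing 𝒪] [IsLocalRing 𝒪]
variable {B₁ : Type} [CommRing B₁] [IsLocalRing B₁] [Algebra 𝒪 B₁]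
variable {B₂ : Type} [CommRing B₂] [IsLocalRing B₂] [Algebra 𝒪 B₂]
variable (h₁ : GaloisRep.IsArtinianTestAlgebra 𝒪 B₁) (h₂ : GaloisRep.IsArtinianTestAlgebra 𝒪 B₂)

/-- The fibre product `B₁ ×ₖ B₂` of two test algebras over the residue field. -/
noncomputable def FA_S53_fib : Subalgebra 𝒪 (B₁ × B₂) :=
  AlgHom.equalizer ((FA_S53_aug h₁).comp (AlgHom.fst 𝒪 B₁ B₂))
    ((FA_S53_aug h₂).comp (AlgHom.snd 𝒪 B₁ B₂))

theorem FA_S53_mem_fib (p : B₁ × B₂) :
    p ∈ FA_S53_fib h₁ h₂ ↔ FA_S53_aug h₁ p.1 = FA_S53_aug h₂ p.2 := Iff.rfl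

/-- First projection of the fibre product. -/
noncomputable def FA_S53_fibFst : FA_S53_fib h₁ h₂ →ₐ[𝒪] B₁ :=
  (AlgHom.fst 𝒪 B₁ B₂).comp (FA_S53_fib h₁ h₂).val

/-- Second projection of the fibre product. -/
noncomputable def FA_S53_fibSnd : FA_S53_fib h₁ h₂ →ₐ[𝒪] B₂ :=
  (AlgHom.snd 𝒪 B₁ B₂).comp (FA_S53_fib h₁ h₂).val

theorem FA_S53_fibFst_apply (p : FA_S53_fib h₁ h₂) : FA_S53_fibFst h₁ h₂ p = p.1.1 := rfl
theorem FA_S53_fibSnd_apply (p : FA_S53_fib h₁ h₂) : FA_S53_fibSnd h₁ h₂ p = p.1.2 := rfl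

theorem FA_S53_fib_isUnit_iff (p : FA_S53_fib h₁ h₂) :
    IsUnit p ↔ FA_S53_aug h₁ p.1.1 ≠ 0 := by
  constructor
  · intro hp
    rw [FA_S53_aug_ne_zero_iff]
    exact hp.map (FA_S53_fibFst h₁ h₂)
  · intro hp
    have hp2 : FA_S53_aug h₂ p.1.2 ≠ 0 := by
      rw [← (FA_S53_mem_fib h₁ h₂ p.1).1 p.2]; exact hp
    obtain ⟨u₁, hu₁⟩ := (FA_S53_aug_ne_zero_iff h₁ _).1 hp
    obtain ⟨u₂, hu₂⟩ := (FA_S53_aug_ne_zero_iff h₂ _).1 hp2
    have hmem : ((↑u₁⁻¹ : B₁), (↑u₂⁻¹ : B₂)) ∈ FA_S53_fib h₁ h₂ := by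
      rw [FA_S53_mem_fib]
      have e1 : FA_S53_aug h₁ (↑u₁⁻¹ : B₁) * FA_S53_aug h₁ p.1.1 = 1 := by
        rw [← map_mul, ← hu₁, Units.inv_mul, map_one]
      have e2 : FA_S53_aug h₂ (↑u₂⁻¹ : B₂) * FA_S53_aug h₂ p.1.2 = 1 := by
        rw [← map_mul, ← hu₂, Units.inv_mul, map_one]
      rw [← (FA_S53_mem_fib h₁ h₂ p.1).1 p.2] at e2
      exact (eq_inv_of_mul_eq_one_left e1).trans (eq_inv_of_mul_eq_one_left e2).symm
    refine IsUnit.of_mul_eq_one (⟨_, hmem⟩ : FA_S53_fib h₁ h₂) ?_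
    apply Subtype.ext
    apply Prod.ext
    · show p.1.1 * (↑u₁⁻¹ : B₁) = 1
      rw [← hu₁, Units.mul_inv]
    · show p.1.2 * (↑u₂⁻¹ : B₂) = 1
      rw [← hu₂, Units.mul_inv]

instance FA_S53_fib_isLocalRing : IsLocalRing (FA_S53_fib h₁ h₂) := by
  have : Nontrivial (FA_S53_fib h₁ h₂) := by
    refine ⟨⟨0, 1, fun h => ?_⟩⟩
    have := congrArg (fun p : FA_S53_fib h₁ h₂ => p.1.1) h
    exact zero_ne_one this
  refine IsLocalRing.of_nonunits_add fun a b ha hb => ?_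
  rw [mem_nonunits_iff, FA_S53_fib_isUnit_iff, not_not] at ha hb ⊢
  show FA_S53_aug h₁ (a.1.1 + b.1.1) = 0
  rw [map_add, ha, hb, add_zero]

theorem FA_S53_fibFst_isLocalHom :
    IsLocalHom (FA_S53_fibFst h₁ h₂ : FA_S53_fib h₁ h₂ →+* B₁) := by
  refine ⟨fun p hp => ?_⟩
  rw [FA_S53_fib_isUnit_iff, FA_S53_aug_ne_zero_iff]
  exact hp

theorem FA_S53_fibSnd_isLocalHom :
    IsLocalHom (FA_S53_fibSnd h₁ h₂ : FA_S53_fib h₁ h₂ →+* B₂) := by
  refine ⟨fun p hp => ?_⟩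
  rw [FA_S53_fib_isUnit_iff, (FA_S53_mem_fib h₁ h₂ p.1).1 p.2, FA_S53_aug_ne_zero_iff]
  exact hp

theorem FA_S53_fib_mem_maximalIdeal_iff (p : FA_S53_fib h₁ h₂) :
    p ∈ maximalIdeal (FA_S53_fib h₁ h₂) ↔ FA_S53_aug h₁ p.1.1 = 0 := by
  rw [mem_maximalIdeal, mem_nonunits_iff, FA_S53_fib_isUnit_iff, not_not]

/-- The fibre product of two test algebras is a test algebra (finite residue field). -/
theorem FA_S53_testAlg_fib [Finite (ResidueField 𝒪)] :
    GaloisRep.IsArtinianTestAlgebra 𝒪 (FA_S53_fib h₁ h₂) := by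
  refine ⟨⟨fun x hx => ?_⟩, ?_, ?_⟩
  · have h := hx.map (FA_S53_fibFst h₁ h₂)
    rw [AlgHom.commutes] at h
    haveI := h₁.isLocalHom
    exact isUnit_of_map_unit (algebraMap 𝒪 B₁) x h
  · intro x
    obtain ⟨p, rfl⟩ := IsLocalRing.residue_surjective x
    obtain ⟨z, hz⟩ := IsLocalRing.residue_surjective (FA_S53_aug h₁ p.1.1)
    refine ⟨z, ?_⟩
    have h : p - algebraMap 𝒪 (FA_S53_fib h₁ h₂) z ∈ maximalIdeal (FA_S53_fib h₁ h₂) := by
      rw [FA_S53_fib_mem_maximalIdeal_iff]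
      show FA_S53_aug h₁ (p.1.1 - algebraMap 𝒪 B₁ z) = 0
      rw [map_sub, AlgHom.commutes, sub_eq_zero]
      exact hz.symm
    rw [← residue_eq_zero_iff, map_sub, sub_eq_zero] at h
    exact h.symm
  · have := FA_S53_testAlg_finite h₁
    have := FA_S53_testAlg_finite h₂
    have : Finite (FA_S53_fib h₁ h₂) := Subtype.finite
    exact isArtinian_of_finite

theorem FA_S53_fib_comp_eq :
    (FA_S53_aug h₁).comp (FA_S53_fibFst h₁ h₂) = (FA_S53_aug h₂).comp (FA_S53_fibSnd h₁ h₂) := by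
  ext p
  exact p.2

theorem FA_S53_fib_injective :
    Function.Injective (fun x : FA_S53_fib h₁ h₂ => (FA_S53_fibFst h₁ h₂ x, FA_S53_fibSnd h₁ h₂ x)) :=
  fun _ _ h => Subtype.ext h

theorem FA_S53_fib_exists (a : B₁) (b : B₂) (h : FA_S53_aug h₁ a = FA_S53_aug h₂ b) :
    ∃ x : FA_S53_fib h₁ h₂, FA_S53_fibFst h₁ h₂ x = a ∧ FA_S53_fibSnd h₁ h₂ x = b :=
  ⟨⟨(a, b), h⟩, rfl, rfl⟩

/-- The map into the fibre product induced by a pair of local maps. -/
noncomputable def FA_S53_fibLift {A : Type} [CommRing A] [IsLocalRing A] [Algebra 𝒪 A]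
    (hA : GaloisRep.IsArtinianTestAlgebra 𝒪 A)
    (φ₁ : A →ₐ[𝒪] B₁) (φ₂ : A →ₐ[𝒪] B₂) (hφ₁ : IsLocalHom (φ₁ : A →+* B₁))
    (hφ₂ : IsLocalHom (φ₂ : A →+* B₂)) : A →ₐ[𝒪] FA_S53_fib h₁ h₂ :=
  (φ₁.prod φ₂).codRestrict (FA_S53_fib h₁ h₂) fun a => by
    rw [FA_S53_mem_fib]
    show FA_S53_aug h₁ (φ₁ a) = FA_S53_aug h₂ (φ₂ a)
    rw [FA_S53_aug_comp hA h₁ φ₁ hφ₁, FA_S53_aug_comp hA h₂ φ₂ hφ₂]

end Fib

section FibLift

variable {𝒪 : Type} [CommRing 𝒪] [IsLocalRing 𝒪]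
variable {B₁ : Type} [CommRing B₁] [IsLocalRing B₁] [Algebra 𝒪 B₁]
variable {B₂ : Type} [CommRing B₂] [IsLocalRing B₂] [Algebra 𝒪 B₂]
variable (h₁ : GaloisRep.IsArtinianTestAlgebra 𝒪 B₁) (h₂ : GaloisRep.IsArtinianTestAlgebra 𝒪 B₂)
variable {A : Type} [CommRing A] [IsLocalRing A] [Algebra 𝒪 A]
  (hA : GaloisRep.IsArtinianTestAlgebra 𝒪 A)
  (φ₁ : A →ₐ[𝒪] B₁) (φ₂ : A →ₐ[𝒪] B₂) (hφ₁ : IsLocalHom (φ₁ : A →+* B₁))
  (hφ₂ : IsLocalHom (φ₂ : A →+* B₂))

theorem FA_S53_fibFst_fibLift (a : A) :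
    FA_S53_fibFst h₁ h₂ (FA_S53_fibLift h₁ h₂ hA φ₁ φ₂ hφ₁ hφ₂ a) = φ₁ a := rfl

theorem FA_S53_fibSnd_fibLift (a : A) :
    FA_S53_fibSnd h₁ h₂ (FA_S53_fibLift h₁ h₂ hA φ₁ φ₂ hφ₁ hφ₂ a) = φ₂ a := rfl

theorem FA_S53_fibLift_isLocalHom :
    IsLocalHom (FA_S53_fibLift h₁ h₂ hA φ₁ φ₂ hφ₁ hφ₂ : A →+* FA_S53_fib h₁ h₂) := by
  refine ⟨fun a ha => ?_⟩
  have h := ha.map (FA_S53_fibFst h₁ h₂)
  haveI := hφ₁
  exact isUnit_of_map_unit (φ₁ : A →+* B₁) a h

theorem FA_S53_fibLift_injective (hinj : ∀ a : A, φ₁ a = 0 → φ₂ a = 0 → a = 0) :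
    Function.Injective (FA_S53_fibLift h₁ h₂ hA φ₁ φ₂ hφ₁ hφ₂) := by
  rw [injective_iff_map_eq_zero]
  intro a ha
  have e1 : φ₁ a = 0 := by
    have := congrArg (FA_S53_fibFst h₁ h₂) ha
    rwa [FA_S53_fibFst_fibLift, map_zero] at this
  have e2 : φ₂ a = 0 := by
    have := congrArg (FA_S53_fibSnd h₁ h₂) ha
    rwa [FA_S53_fibSnd_fibLift, map_zero] at this
  exact hinj a e1 e2

end FibLift

end Fermat.Agent.S53
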