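import Mathlib
import Fermat.Agent.S53.Interface
import Fermat.Agent.S53.Matrix
import Fermat.Agent.S53.Gauge
import Fermat.Agent.S53.TestAlg
import Fermat.Agent.S53.SliceDef

/-!
# S53 glue: the slice functor `N` satisfies the axioms `map`, `desc`, `base`, `res`, `complete`
-/

set_option autoImplicit false
set_option linter.unusedSectionVars false
set_option linter.unusedVariables false
set_option linter.style.haveILetI false

open IsLocalRing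

namespace Fermat.Agent.S53

local notation "Γℚ" => (AlgebraicClosure ℚ ≃ₐ[ℚ] AlgebraicClosure ℚ)

/-! ## Generalities on `IsEquiv` and base change -/

section General

variable {A : Type} [CommRing A] [IsLocalRing A]

theorem FA_S53_Glue_isEquiv_symm {ρ ρ' : GaloisRepAdic A} (h : ρ.IsEquiv ρ') : ρ'.IsEquiv ρ :=
  h.elim fun e => ⟨e.symm⟩

theorem FA_S53_Glue_isEquiv_trans {ρ ρ' ρ'' : GaloisRepAdic A} (h : ρ.IsEquiv ρ')
    (h' : ρ'.IsEquiv ρ'') : ρ.IsEquiv ρ'' :=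
  h.elim fun e => h'.elim fun e' => ⟨e.trans e'⟩

theorem FA_S53_Glue_isEquiv_baseChangeAlong {B : Type} [CommRing B] [IsLocalRing B] (φ : A →+* B)
    (hφ : IsLocalHom φ) {ρ ρ' : GaloisRepAdic A} (h : ρ.IsEquiv ρ') :
    (ρ.baseChangeAlong φ hφ).IsEquiv (ρ'.baseChangeAlong φ hφ) :=
  h.elim fun e => ⟨e.baseChangeAlong φ hφ⟩

/-- Matrix models of equal matrix representations are equivalent. -/
theorem FA_S53_Glue_ofMatrix_congr {r r' : Γℚ →* Matrix (Fin 2) (Fin 2) A}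
    (hr : FA_S53_IsAdicContMat r) (hr' : FA_S53_IsAdicContMat r') (h : r = r') :
    (FA_S53_ofMatrix r hr).IsEquiv (FA_S53_ofMatrix r' hr') := by
  subst h
  exact ⟨GaloisRepAdic.Equiv.refl _⟩

end General

/-! ## The easy axioms -/

section Easy

variable {𝒪 : Type} [CommRing 𝒪] [IsLocalRing 𝒪]
  {𝒟 : ∀ ⦃A : Type⦄ [CommRing A] [IsLocalRing A] [Algebra 𝒪 A], GaloisRepAdic A → Prop}
  {c : Γℚ → Matrix (Fin 2) (Fin 2) 𝒪} (Γ : FA_S53_Gauge c)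

/-- Lifts are preserved by local `𝒪`-algebra maps. -/
theorem FA_S53_Glue_isLift_mapMat {A B : Type} [CommRing A] [IsLocalRing A] [Algebra 𝒪 A]
    [CommRing B] [IsLocalRing B] [Algebra 𝒪 B] (φ : A →ₐ[𝒪] B)
    (hφ : IsLocalHom (φ : A →+* B)) (r : Γℚ →* Matrix (Fin 2) (Fin 2) A)
    (hl : FA_S53_IsLift c r) : FA_S53_IsLift c (FA_S53_mapMat (φ : A →+* B) r) := by
  intro σ i j
  have h := FA_S53_map_mem_maximalIdeal (φ : A →+* B) hφ (hl σ i j)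
  rw [map_sub] at h
  have e : (φ : A →+* B) (algebraMap 𝒪 A (c σ i j)) = algebraMap 𝒪 B (c σ i j) :=
    φ.commutes _
  rw [e] at h
  exact h

/-- Lifts descend along any `𝒪`-algebra map. -/
theorem FA_S53_Glue_isLift_of_mapMat {A B : Type} [CommRing A] [IsLocalRing A] [Algebra 𝒪 A]
    [CommRing B] [IsLocalRing B] [Algebra 𝒪 B] (φ : A →ₐ[𝒪] B)
    (r : Γℚ →* Matrix (Fin 2) (Fin 2) A)
    (hl : FA_S53_IsLift c (FA_S53_mapMat (φ : A →+* B) r)) : FA_S53_IsLift c r := by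
  intro σ i j
  apply FA_S53_mem_maximalIdeal_of_map (φ : A →+* B)
  have h := hl σ i j
  rw [map_sub]
  have e : (φ : A →+* B) (algebraMap 𝒪 A (c σ i j)) = algebraMap 𝒪 B (c σ i j) :=
    φ.commutes _
  rw [e]
  exact h

theorem FA_S53_Glue_normalized_mapMat {A B : Type} [CommRing A] [Algebra 𝒪 A]
    [CommRing B] [Algebra 𝒪 B] (φ : A →ₐ[𝒪] B)
    (r : Γℚ →* Matrix (Fin 2) (Fin 2) A)
    (hn : FA_S53_Normalized Γ r) : FA_S53_Normalized Γ (FA_S53_mapMat (φ : A →+* B) r) :=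
  hn.map Γ φ

theorem FA_S53_Glue_entries_mapMat {A B : Type} [CommRing A] [CommRing B] (φ : A →+* B)
    (r : Γℚ →* Matrix (Fin 2) (Fin 2) A) :
    FA_S53_entries (FA_S53_mapMat φ r) = fun x => φ (FA_S53_entries r x) := rfl

/-- Axiom `map`. -/
theorem FA_S53_Glue_N_map (h𝒟 : GaloisRep.IsDeformationCondition 𝒪 𝒟) {A B : Type} [CommRing A] [IsLocalRing A] [Algebra 𝒪 A]
    [CommRing B] [IsLocalRing B] [Algebra 𝒪 B]
    (hA : GaloisRep.IsArtinianTestAlgebra 𝒪 A) (hB : GaloisRep.IsArtinianTestAlgebra 𝒪 B)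
    (φ : A →ₐ[𝒪] B) (hφ : IsLocalHom (φ : A →+* B)) (f : FA_S53_X → A)
    (hf : f ∈ FA_S53_N 𝒪 𝒟 c Γ A) : (fun x => φ (f x)) ∈ FA_S53_N 𝒪 𝒟 c Γ B := by
  obtain ⟨r, hr, rfl, hl, hn, hd⟩ := hf
  have hr' := FA_S53_isAdicContMat_mapMat (φ : A →+* B) hφ r hr
  refine ⟨FA_S53_mapMat (φ : A →+* B) r, hr', rfl, FA_S53_Glue_isLift_mapMat φ hφ r hl,
    FA_S53_Glue_normalized_mapMat Γ φ r hn, ?_⟩
  exact h𝒟.of_isEquiv hB (FA_S53_ofMatrix_baseChangeAlong (φ : A →+* B) hφ r hr hr')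
    (h𝒟.baseChangeAlong hA hB φ hφ hd)

/-- Axiom `res`. -/
theorem FA_S53_Glue_N_res (rbar : Γℚ → Matrix (Fin 2) (Fin 2) (ResidueField 𝒪))
    (hc : ∀ σ i j, residue 𝒪 (c σ i j) = rbar σ i j)
    {A : Type} [CommRing A] [IsLocalRing A] [Algebra 𝒪 A]
    (hA : GaloisRep.IsArtinianTestAlgebra 𝒪 A) (f : FA_S53_X → A)
    (hf : f ∈ FA_S53_N 𝒪 𝒟 c Γ A) (x : FA_S53_X) (a : 𝒪)
    (ha : residue 𝒪 a = FA_S53_entries rbar x) :
    f x - algebraMap 𝒪 A a ∈ maximalIdeal A := by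
  obtain ⟨r, hr, rfl, hl, hn, hd⟩ := hf
  obtain ⟨σ, i, j⟩ := x
  have h1 := hl σ i j
  have h2 : c σ i j - a ∈ maximalIdeal 𝒪 := by
    rw [← residue_eq_zero_iff, map_sub, hc, ha]
    exact sub_self _
  have h3 : algebraMap 𝒪 A (c σ i j - a) ∈ maximalIdeal A :=
    FA_S53_map_mem_maximalIdeal (algebraMap 𝒪 A) hA.isLocalHom h2
  have := (maximalIdeal A).add_mem h1 h3
  rw [map_sub] at this
  convert this using 1
  rw [FA_S53_entries_apply]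
  ring

/-- Over a field, membership in the maximal ideal means vanishing. -/
theorem FA_S53_Glue_field_mem_maximalIdeal {k : Type} [Field k] {x : k}
    (hx : x ∈ maximalIdeal k) : x = 0 := by
  by_contra h
  exact ((mem_maximalIdeal x).1 hx) (isUnit_iff_ne_zero.mpr h)

/-- Axiom `base`. -/
theorem FA_S53_Glue_N_base (h𝒟 : GaloisRep.IsDeformationCondition 𝒪 𝒟)
    (ρbar : ResidualGaloisRep (ResidueField 𝒪))
    (bbar : Module.Basis (Fin 2) (ResidueField 𝒪) ρbar.V)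
    (hc : ∀ σ i j, residue 𝒪 (c σ i j) = FA_S53_matOfRes ρbar bbar σ i j)
    (hbar : 𝒟 (GaloisRepAdic.ofResidualGaloisRep ρbar)) :
    FA_S53_f₀ ρbar bbar ∈ FA_S53_N 𝒪 𝒟 c Γ (ResidueField 𝒪) := by
  have hl : FA_S53_IsLift c (FA_S53_matOfRes ρbar bbar) := by
    intro σ i j
    have : algebraMap 𝒪 (ResidueField 𝒪) (c σ i j) = residue 𝒪 (c σ i j) := rfl
    rw [this, hc, sub_self]
    exact Ideal.zero_mem _
  have key : ∀ (a : Γℚ →₀ 𝒪) (i j : Fin 2),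
      FA_S53_lin a (FA_S53_matOfRes ρbar bbar : Γℚ → Matrix (Fin 2) (Fin 2) (ResidueField 𝒪)) i j
        = residue 𝒪 (FA_S53_lin (A := 𝒪) a c i j) := by
    intro a i j
    have := FA_S53_Glue_field_mem_maximalIdeal (hl.lin_sub_mem a i j)
    rw [sub_eq_zero] at this
    exact this
  refine ⟨FA_S53_matOfRes ρbar bbar, FA_S53_isAdicContMat_matOfRes ρbar bbar, rfl, hl,
    ⟨?_, ?_, ?_⟩, ?_⟩
  · rw [key, residue_eq_zero_iff]; exact Γ.ha01
  · rw [key, residue_eq_zero_iff]; exact Γ.ha10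
  · rw [key]
    have := (residue_eq_zero_iff _).2 Γ.hb01
    rw [map_sub, map_one, sub_eq_zero] at this
    exact this
  · exact h𝒟.of_isEquiv (FA_S53_testAlg_residueField 𝒪)
      (FA_S53_ofResidual_isEquiv_ofMatrix ρbar bbar) hbar

end Easy

/-! ## Descent -/

section Desc

variable {𝒪 : Type} [CommRing 𝒪] [IsLocalRing 𝒪]
  {𝒟 : ∀ ⦃A : Type⦄ [CommRing A] [IsLocalRing A] [Algebra 𝒪 A], GaloisRepAdic A → Prop}
  {c : Γℚ → Matrix (Fin 2) (Fin 2) 𝒪} (Γ : FA_S53_Gauge c)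

theorem FA_S53_Glue_mapMat_comp {A B C : Type} [CommRing A] [CommRing B] [CommRing C]
    (φ : A →+* B) (ψ : B →+* C) (r : Γℚ →* Matrix (Fin 2) (Fin 2) A) :
    FA_S53_mapMat ψ (FA_S53_mapMat φ r) = FA_S53_mapMat (ψ.comp φ) r := by
  ext σ i j
  rfl

/-- `𝒟` descends along a jointly injective pair of local maps of test algebras
(matrix-model form). -/
theorem FA_S53_Glue_D_desc [Finite (ResidueField 𝒪)] (h𝒟 : GaloisRep.IsDeformationCondition 𝒪 𝒟)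
    {A B₁ B₂ : Type} [CommRing A] [IsLocalRing A] [Algebra 𝒪 A]
    [CommRing B₁] [IsLocalRing B₁] [Algebra 𝒪 B₁] [CommRing B₂] [IsLocalRing B₂] [Algebra 𝒪 B₂]
    (hA : GaloisRep.IsArtinianTestAlgebra 𝒪 A) (h₁ : GaloisRep.IsArtinianTestAlgebra 𝒪 B₁)
    (h₂ : GaloisRep.IsArtinianTestAlgebra 𝒪 B₂)
    (φ₁ : A →ₐ[𝒪] B₁) (φ₂ : A →ₐ[𝒪] B₂) (hφ₁ : IsLocalHom (φ₁ : A →+* B₁))
    (hφ₂ : IsLocalHom (φ₂ : A →+* B₂)) (hinj : ∀ a : A, φ₁ a = 0 → φ₂ a = 0 → a = 0)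
    (r : Γℚ →* Matrix (Fin 2) (Fin 2) A) (hr : FA_S53_IsAdicContMat r)
    (hr₁ : FA_S53_IsAdicContMat (FA_S53_mapMat (φ₁ : A →+* B₁) r))
    (hr₂ : FA_S53_IsAdicContMat (FA_S53_mapMat (φ₂ : A →+* B₂) r))
    (hd₁ : 𝒟 (FA_S53_ofMatrix (FA_S53_mapMat (φ₁ : A →+* B₁) r) hr₁))
    (hd₂ : 𝒟 (FA_S53_ofMatrix (FA_S53_mapMat (φ₂ : A →+* B₂) r) hr₂)) :
    𝒟 (FA_S53_ofMatrix r hr) := by
  -- the fibre product and the induced map
  have hP : GaloisRep.IsArtinianTestAlgebra 𝒪 (FA_S53_fib h₁ h₂) := FA_S53_testAlg_fib h₁ h₂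
  let ψ : A →ₐ[𝒪] FA_S53_fib h₁ h₂ := FA_S53_fibLift h₁ h₂ hA φ₁ φ₂ hφ₁ hφ₂
  have hψ : IsLocalHom (ψ : A →+* FA_S53_fib h₁ h₂) :=
    FA_S53_fibLift_isLocalHom h₁ h₂ hA φ₁ φ₂ hφ₁ hφ₂
  have hψinj : Function.Injective ψ := FA_S53_fibLift_injective h₁ h₂ hA φ₁ φ₂ hφ₁ hφ₂ hinj
  have hpA := FA_S53_fibFst_isLocalHom h₁ h₂
  have hpB := FA_S53_fibSnd_isLocalHom h₁ h₂
  have hrP : FA_S53_IsAdicContMat (FA_S53_mapMat (ψ : A →+* FA_S53_fib h₁ h₂) r) :=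
    FA_S53_isAdicContMat_mapMat _ hψ r hr
  -- `𝒟` on the fibre product
  have hdP : 𝒟 (FA_S53_ofMatrix (FA_S53_mapMat (ψ : A →+* FA_S53_fib h₁ h₂) r) hrP) := by
    refine h𝒟.of_fibreProduct h₁ h₂ (FA_S53_testAlg_residueField 𝒪) hP
      (FA_S53_aug h₁) (FA_S53_aug h₂) (FA_S53_fibFst h₁ h₂) (FA_S53_fibSnd h₁ h₂) hpA hpB
      (FA_S53_fib_comp_eq h₁ h₂) (FA_S53_fib_injective h₁ h₂) (FA_S53_fib_exists h₁ h₂) ?_ ?_
    · have e : FA_S53_mapMat (FA_S53_fibFst h₁ h₂ : FA_S53_fib h₁ h₂ →+* B₁)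
          (FA_S53_mapMat (ψ : A →+* FA_S53_fib h₁ h₂) r) = FA_S53_mapMat (φ₁ : A →+* B₁) r := by
        ext σ i j
        rfl
      have hr' : FA_S53_IsAdicContMat (FA_S53_mapMat
          (FA_S53_fibFst h₁ h₂ : FA_S53_fib h₁ h₂ →+* B₁)
          (FA_S53_mapMat (ψ : A →+* FA_S53_fib h₁ h₂) r)) := by rw [e]; exact hr₁
      refine h𝒟.of_isEquiv h₁ ?_ hd₁
      exact FA_S53_Glue_isEquiv_symm (FA_S53_Glue_isEquiv_trans
        (FA_S53_ofMatrix_baseChangeAlong _ hpA _ hrP hr') (FA_S53_Glue_ofMatrix_congr hr' hr₁ e))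
    · have e : FA_S53_mapMat (FA_S53_fibSnd h₁ h₂ : FA_S53_fib h₁ h₂ →+* B₂)
          (FA_S53_mapMat (ψ : A →+* FA_S53_fib h₁ h₂) r) = FA_S53_mapMat (φ₂ : A →+* B₂) r := by
        ext σ i j
        rfl
      have hr' : FA_S53_IsAdicContMat (FA_S53_mapMat
          (FA_S53_fibSnd h₁ h₂ : FA_S53_fib h₁ h₂ →+* B₂)
          (FA_S53_mapMat (ψ : A →+* FA_S53_fib h₁ h₂) r)) := by rw [e]; exact hr₂
      refine h𝒟.of_isEquiv h₂ ?_ hd₂
      exact FA_S53_Glue_isEquiv_symm (FA_S53_Glue_isEquiv_trans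
        (FA_S53_ofMatrix_baseChangeAlong _ hpB _ hrP hr') (FA_S53_Glue_ofMatrix_congr hr' hr₂ e))
  -- descend along the injection `ψ`
  refine h𝒟.of_baseChangeAlong_injective hA hP ψ hψ hψinj ?_
  exact h𝒟.of_isEquiv hP
    (FA_S53_Glue_isEquiv_symm (FA_S53_ofMatrix_baseChangeAlong _ hψ r hr hrP)) hdP

theorem FA_S53_Glue_mat_ext_of_joint {A B₁ B₂ : Type} [CommRing A] [CommRing B₁] [CommRing B₂]
    (φ₁ : A →+* B₁) (φ₂ : A →+* B₂) (hinj : ∀ a : A, φ₁ a = 0 → φ₂ a = 0 → a = 0)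
    {M N : Matrix (Fin 2) (Fin 2) A} (h1 : M.map φ₁ = N.map φ₁) (h2 : M.map φ₂ = N.map φ₂) :
    M = N := by
  ext i j
  rw [← sub_eq_zero]
  apply hinj
  · rw [map_sub, sub_eq_zero]
    exact congrFun (congrFun h1 i) j
  · rw [map_sub, sub_eq_zero]
    exact congrFun (congrFun h2 i) j

/-- A family of entries whose images under a jointly injective pair of maps are matrix
representations is itself a matrix representation. -/
theorem FA_S53_Glue_exists_hom_of_joint {A B₁ B₂ : Type} [CommRing A] [CommRing B₁] [CommRing B₂]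
    (φ₁ : A →+* B₁) (φ₂ : A →+* B₂) (hinj : ∀ a : A, φ₁ a = 0 → φ₂ a = 0 → a = 0)
    (f : FA_S53_X → A) (r₁ : Γℚ →* Matrix (Fin 2) (Fin 2) B₁)
    (r₂ : Γℚ →* Matrix (Fin 2) (Fin 2) B₂)
    (e₁ : (fun x => φ₁ (f x)) = FA_S53_entries r₁)
    (e₂ : (fun x => φ₂ (f x)) = FA_S53_entries r₂) :
    ∃ r : Γℚ →* Matrix (Fin 2) (Fin 2) A, f = FA_S53_entries r ∧
      FA_S53_mapMat φ₁ r = r₁ ∧ FA_S53_mapMat φ₂ r = r₂ := by
  let R : Γℚ → Matrix (Fin 2) (Fin 2) A := fun σ => Matrix.of fun i j => f (σ, i, j)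
  have hR₁ : ∀ σ, (R σ).map φ₁ = r₁ σ := by
    intro σ; ext i j; exact congrFun e₁ (σ, i, j)
  have hR₂ : ∀ σ, (R σ).map φ₂ = r₂ σ := by
    intro σ; ext i j; exact congrFun e₂ (σ, i, j)
  have h1 : R 1 = 1 := by
    apply FA_S53_Glue_mat_ext_of_joint φ₁ φ₂ hinj
    · rw [hR₁, map_one, Matrix.map_one φ₁ (map_zero φ₁) (map_one φ₁)]
    · rw [hR₂, map_one, Matrix.map_one φ₂ (map_zero φ₂) (map_one φ₂)]
  have hmul : ∀ σ τ, R (σ * τ) = R σ * R τ := by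
    intro σ τ
    apply FA_S53_Glue_mat_ext_of_joint φ₁ φ₂ hinj
    · rw [hR₁, map_mul, Matrix.map_mul, hR₁, hR₁]
    · rw [hR₂, map_mul, Matrix.map_mul, hR₂, hR₂]
  refine ⟨⟨⟨R, h1⟩, hmul⟩, rfl, ?_, ?_⟩
  · ext σ i j
    exact congrFun (congrFun (hR₁ σ) i) j
  · ext σ i j
    exact congrFun (congrFun (hR₂ σ) i) j

theorem FA_S53_Glue_exists_pow_eq_bot {B : Type} [CommRing B] [IsLocalRing B] [IsArtinianRing B] :
    ∃ n : ℕ, maximalIdeal B ^ n = ⊥ := by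
  obtain ⟨n, hn⟩ := IsArtinianRing.isNilpotent_jacobson_bot (R := B)
  rw [jacobson_eq_maximalIdeal _ bot_ne_top] at hn
  exact ⟨n, hn⟩

/-- Adic continuity descends along a jointly injective pair of maps to Artinian local rings. -/
theorem FA_S53_Glue_isAdicContMat_of_joint {A B₁ B₂ : Type} [CommRing A] [IsLocalRing A]
    [CommRing B₁] [IsLocalRing B₁] [IsArtinianRing B₁]
    [CommRing B₂] [IsLocalRing B₂] [IsArtinianRing B₂]
    (φ₁ : A →+* B₁) (φ₂ : A →+* B₂) (hinj : ∀ a : A, φ₁ a = 0 → φ₂ a = 0 → a = 0)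
    (r : Γℚ →* Matrix (Fin 2) (Fin 2) A)
    (hr₁ : FA_S53_IsAdicContMat (FA_S53_mapMat φ₁ r))
    (hr₂ : FA_S53_IsAdicContMat (FA_S53_mapMat φ₂ r)) : FA_S53_IsAdicContMat r := by
  obtain ⟨n₁, hn₁⟩ := FA_S53_Glue_exists_pow_eq_bot (B := B₁)
  obtain ⟨n₂, hn₂⟩ := FA_S53_Glue_exists_pow_eq_bot (B := B₂)
  obtain ⟨L₁, hL₁, hh₁⟩ := hr₁ n₁
  obtain ⟨L₂, hL₂, hh₂⟩ := hr₂ n₂
  intro n
  refine ⟨L₁ ⊔ L₂, inferInstance, fun σ hσ i j => ?_⟩
  have e : (r σ - 1) i j = 0 := by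
    apply hinj
    · have := hh₁ σ (fun x hx => hσ x ((le_sup_left : L₁ ≤ L₁ ⊔ L₂) hx)) i j
      rw [hn₁, Ideal.mem_bot] at this
      rw [← this, Matrix.sub_apply, Matrix.sub_apply, FA_S53_mapMat_apply, map_sub,
        Matrix.one_apply, Matrix.one_apply]
      congr 1
      split_ifs <;> simp
    · have := hh₂ σ (fun x hx => hσ x ((le_sup_right : L₂ ≤ L₁ ⊔ L₂) hx)) i j
      rw [hn₂, Ideal.mem_bot] at this
      rw [← this, Matrix.sub_apply, Matrix.sub_apply, FA_S53_mapMat_apply, map_sub,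
        Matrix.one_apply, Matrix.one_apply]
      congr 1
      split_ifs <;> simp
  rw [e]
  exact Ideal.zero_mem _

/-- Axiom `desc`. -/
theorem FA_S53_Glue_N_desc [Finite (ResidueField 𝒪)] (h𝒟 : GaloisRep.IsDeformationCondition 𝒪 𝒟)
    {A B₁ B₂ : Type} [CommRing A] [IsLocalRing A] [Algebra 𝒪 A]
    [CommRing B₁] [IsLocalRing B₁] [Algebra 𝒪 B₁] [CommRing B₂] [IsLocalRing B₂] [Algebra 𝒪 B₂]
    (hA : GaloisRep.IsArtinianTestAlgebra 𝒪 A) (h₁ : GaloisRep.IsArtinianTestAlgebra 𝒪 B₁)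
    (h₂ : GaloisRep.IsArtinianTestAlgebra 𝒪 B₂)
    (φ₁ : A →ₐ[𝒪] B₁) (φ₂ : A →ₐ[𝒪] B₂) (hφ₁ : IsLocalHom (φ₁ : A →+* B₁))
    (hφ₂ : IsLocalHom (φ₂ : A →+* B₂)) (hinj : ∀ a : A, φ₁ a = 0 → φ₂ a = 0 → a = 0)
    (f : FA_S53_X → A) (hf₁ : (fun x => φ₁ (f x)) ∈ FA_S53_N 𝒪 𝒟 c Γ B₁)
    (hf₂ : (fun x => φ₂ (f x)) ∈ FA_S53_N 𝒪 𝒟 c Γ B₂) : f ∈ FA_S53_N 𝒪 𝒟 c Γ A := by
  obtain ⟨r₁, hr₁, e₁, hl₁, hn₁, hd₁⟩ := hf₁
  obtain ⟨r₂, hr₂, e₂, hl₂, hn₂, hd₂⟩ := hf₂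
  obtain ⟨r, rfl, rfl, rfl⟩ := FA_S53_Glue_exists_hom_of_joint (φ₁ : A →+* B₁) (φ₂ : A →+* B₂)
    hinj f r₁ r₂ e₁ e₂
  have := h₁.isArtinian
  have := h₂.isArtinian
  have hr : FA_S53_IsAdicContMat r :=
    FA_S53_Glue_isAdicContMat_of_joint (φ₁ : A →+* B₁) (φ₂ : A →+* B₂) hinj r hr₁ hr₂
  refine ⟨r, hr, rfl, FA_S53_Glue_isLift_of_mapMat φ₁ r hl₁,
    FA_S53_Normalized.of_joint_injective Γ φ₁ φ₂ hinj hn₁ hn₂, ?_⟩
  exact FA_S53_Glue_D_desc h𝒟 hA h₁ h₂ φ₁ φ₂ hφ₁ hφ₂ hinj r hr hr₁ hr₂ hd₁ hd₂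

end Desc

/-! ## Completeness -/

section Complete

variable {𝒪 : Type} [CommRing 𝒪] [IsLocalRing 𝒪]
  {𝒟 : ∀ ⦃A : Type⦄ [CommRing A] [IsLocalRing A] [Algebra 𝒪 A], GaloisRepAdic A → Prop}
  {c : Γℚ → Matrix (Fin 2) (Fin 2) 𝒪} (Γ : FA_S53_Gauge c)

variable {A : Type} [CommRing A] [IsLocalRing A]

theorem FA_S53_Glue_quot_maximalIdeal_pow (n : ℕ) [IsLocalRing (A ⧸ maximalIdeal A ^ n)] :
    maximalIdeal (A ⧸ maximalIdeal A ^ n) ^ n = ⊥ := by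
  have hI : maximalIdeal A ^ n ≠ ⊤ := by
    intro h
    have : Subsingleton (A ⧸ maximalIdeal A ^ n) := Ideal.Quotient.subsingleton_iff.mpr h
    exact not_subsingleton (A ⧸ maximalIdeal A ^ n) this
  have hq : IsLocalHom (Ideal.Quotient.mk (maximalIdeal A ^ n)) :=
    IsLocalHom.of_surjective _ Ideal.Quotient.mk_surjective
  have hmap : (maximalIdeal A).map (Ideal.Quotient.mk (maximalIdeal A ^ n)) =
      maximalIdeal (A ⧸ maximalIdeal A ^ n) := by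
    ext x
    obtain ⟨x, rfl⟩ := Ideal.Quotient.mk_surjective x
    simp [sup_eq_left.mpr (le_maximalIdeal hI)]
  rw [← hmap, ← Ideal.map_pow, Ideal.map_eq_bot_iff_le_ker, Ideal.mk_ker]

theorem FA_S53_Glue_eq_zero_of_forall_mem_pow [IsAdicComplete (maximalIdeal A) A] (x : A)
    (h : ∀ n : ℕ, n ≠ 0 → Ideal.Quotient.mk (maximalIdeal A ^ n) x = 0) : x = 0 := by
  apply IsHausdorff.haus (inferInstance : IsHausdorff (maximalIdeal A) A)
  intro n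
  rw [SModEq.zero, smul_eq_mul, Ideal.mul_top]
  by_cases hn : n = 0
  · subst hn
    simp
  · exact Ideal.Quotient.eq_zero_iff_mem.mp (h n hn)

theorem FA_S53_Glue_mat_ext_of_quot [IsAdicComplete (maximalIdeal A) A]
    {M N : Matrix (Fin 2) (Fin 2) A}
    (h : ∀ n : ℕ, n ≠ 0 → M.map (Ideal.Quotient.mk (maximalIdeal A ^ n)) =
      N.map (Ideal.Quotient.mk (maximalIdeal A ^ n))) : M = N := by
  ext i j
  rw [← sub_eq_zero]
  apply FA_S53_Glue_eq_zero_of_forall_mem_pow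
  intro n hn
  rw [map_sub, sub_eq_zero]
  exact congrFun (congrFun (h n hn) i) j

/-- A family of entries which is a matrix representation modulo every power of the maximal
ideal is a matrix representation. -/
theorem FA_S53_Glue_exists_hom_of_quot [IsAdicComplete (maximalIdeal A) A] (f : FA_S53_X → A)
    (h : ∀ n : ℕ, n ≠ 0 → ∃ r : Γℚ →* Matrix (Fin 2) (Fin 2) (A ⧸ maximalIdeal A ^ n),
      (fun x => Ideal.Quotient.mk (maximalIdeal A ^ n) (f x)) = FA_S53_entries r) :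
    ∃ r : Γℚ →* Matrix (Fin 2) (Fin 2) A, f = FA_S53_entries r := by
  let R : Γℚ → Matrix (Fin 2) (Fin 2) A := fun σ => Matrix.of fun i j => f (σ, i, j)
  have hR : ∀ n (hn : n ≠ 0) σ,
      (R σ).map (Ideal.Quotient.mk (maximalIdeal A ^ n)) = (h n hn).choose σ := by
    intro n hn σ; ext i j; exact congrFun (h n hn).choose_spec (σ, i, j)
  have h1 : R 1 = 1 := by
    apply FA_S53_Glue_mat_ext_of_quot
    intro n hn
    rw [hR n hn, map_one, Matrix.map_one _ (map_zero _) (map_one _)]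
  have hmul : ∀ σ τ, R (σ * τ) = R σ * R τ := by
    intro σ τ
    apply FA_S53_Glue_mat_ext_of_quot
    intro n hn
    rw [hR n hn, map_mul, Matrix.map_mul, hR n hn, hR n hn]
  exact ⟨⟨⟨R, h1⟩, hmul⟩, rfl⟩

/-- Adic continuity can be tested modulo the powers of the maximal ideal. -/
theorem FA_S53_Glue_isAdicContMat_of_quot (r : Γℚ →* Matrix (Fin 2) (Fin 2) A)
    (h : ∀ (n : ℕ) (hn : n ≠ 0),
      haveI := FA_S53_isLocalRing_quot (maximalIdeal A ^ n) (FA_S53_pow_ne_top n hn)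
      FA_S53_IsAdicContMat (FA_S53_mapMat (Ideal.Quotient.mk (maximalIdeal A ^ n)) r)) :
    FA_S53_IsAdicContMat r := by
  intro n
  by_cases hn : n = 0
  · subst hn
    exact ⟨⊥, inferInstance, fun σ _ i j => by simp⟩
  · haveI := FA_S53_isLocalRing_quot (maximalIdeal A ^ n) (FA_S53_pow_ne_top n hn)
    obtain ⟨L, hL, hh⟩ := h n hn n
    refine ⟨L, hL, fun σ hσ i j => ?_⟩
    have := hh σ hσ i j
    rw [FA_S53_Glue_quot_maximalIdeal_pow, Ideal.mem_bot] at this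
    rw [← Ideal.Quotient.eq_zero_iff_mem, ← this, Matrix.sub_apply, Matrix.sub_apply,
      FA_S53_mapMat_apply, map_sub, Matrix.one_apply, Matrix.one_apply]
    congr 1
    split_ifs <;> simp

/-- Axiom `complete`. -/
theorem FA_S53_Glue_N_complete (h𝒟 : GaloisRep.IsDeformationCondition 𝒪 𝒟)
    [IsNoetherianRing A] [IsAdicComplete (maximalIdeal A) A] [Algebra 𝒪 A]
    (hloc : IsLocalHom (algebraMap 𝒪 A))
    (hsurj : Function.Surjective (residue A ∘ algebraMap 𝒪 A)) (f : FA_S53_X → A) :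
    f ∈ FA_S53_N 𝒪 𝒟 c Γ A ↔
      ∀ ⦃B : Type⦄ [CommRing B] [IsLocalRing B] [Algebra 𝒪 B],
        GaloisRep.IsArtinianTestAlgebra 𝒪 B →
        ∀ (q : A →ₐ[𝒪] B), IsLocalHom (q : A →+* B) → Function.Surjective q →
          (fun x => q (f x)) ∈ FA_S53_N 𝒪 𝒟 c Γ B := by
  constructor
  · rintro ⟨r, hr, rfl, hl, hn, hd⟩ B _ _ _ hB q hq hqs
    have hr' := FA_S53_isAdicContMat_mapMat (q : A →+* B) hq r hr
    refine ⟨FA_S53_mapMat (q : A →+* B) r, hr', rfl, FA_S53_Glue_isLift_mapMat q hq r hl,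
      FA_S53_Glue_normalized_mapMat Γ q r hn, ?_⟩
    exact h𝒟.of_isEquiv hB (FA_S53_ofMatrix_baseChangeAlong (q : A →+* B) hq r hr hr')
      ((h𝒟.iff_forall_surjective hloc hsurj _).1 hd hB q hq hqs)
  · intro H
    -- the quotient maps
    have HQ : ∀ (n : ℕ) (hn : n ≠ 0),
        haveI := FA_S53_isLocalRing_quot (maximalIdeal A ^ n) (FA_S53_pow_ne_top n hn)
        (fun x => Ideal.Quotient.mk (maximalIdeal A ^ n) (f x)) ∈
          FA_S53_N 𝒪 𝒟 c Γ (A ⧸ maximalIdeal A ^ n) := by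
      intro n hn
      haveI := FA_S53_isLocalRing_quot (maximalIdeal A ^ n) (FA_S53_pow_ne_top n hn)
      exact H (FA_S53_testAlg_quot hloc hsurj n) (Ideal.Quotient.mkₐ 𝒪 (maximalIdeal A ^ n))
        (IsLocalHom.of_surjective _ Ideal.Quotient.mk_surjective) Ideal.Quotient.mk_surjective
    obtain ⟨r, rfl⟩ := FA_S53_Glue_exists_hom_of_quot f (fun n hn => by
      haveI := FA_S53_isLocalRing_quot (maximalIdeal A ^ n) (FA_S53_pow_ne_top n hn)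
      obtain ⟨rn, _, e, _⟩ := HQ n hn
      exact ⟨rn, e⟩)
    -- membership of the mapped entries, in matrix form
    have HQ' : ∀ (n : ℕ) (hn : n ≠ 0),
        haveI := FA_S53_isLocalRing_quot (maximalIdeal A ^ n) (FA_S53_pow_ne_top n hn)
        ∃ hr' : FA_S53_IsAdicContMat (FA_S53_mapMat (Ideal.Quotient.mk (maximalIdeal A ^ n)) r),
          FA_S53_IsLift c (FA_S53_mapMat (Ideal.Quotient.mk (maximalIdeal A ^ n)) r) ∧
          FA_S53_Normalized Γ (FA_S53_mapMat (Ideal.Quotient.mk (maximalIdeal A ^ n)) r) := by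
      intro n hn
      haveI := FA_S53_isLocalRing_quot (maximalIdeal A ^ n) (FA_S53_pow_ne_top n hn)
      obtain ⟨rn, hrn, e, hl, hnn, _⟩ := HQ n hn
      have e' : FA_S53_mapMat (Ideal.Quotient.mk (maximalIdeal A ^ n)) r = rn :=
        DFunLike.coe_injective (FA_S53_entries_injective e)
      rw [e']
      exact ⟨hrn, hl, hnn⟩
    have hr : FA_S53_IsAdicContMat r :=
      FA_S53_Glue_isAdicContMat_of_quot r fun n hn => (HQ' n hn).1
    have hl : FA_S53_IsLift c r := by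
      haveI := FA_S53_isLocalRing_quot (maximalIdeal A ^ 1) (FA_S53_pow_ne_top 1 one_ne_zero)
      exact FA_S53_Glue_isLift_of_mapMat (Ideal.Quotient.mkₐ 𝒪 (maximalIdeal A ^ 1)) r
        (HQ' 1 one_ne_zero).2.1
    have hnorm : FA_S53_Normalized Γ r := by
      have key : ∀ (n : ℕ) (hn : n ≠ 0),
          FA_S53_Normalized Γ (fun g => (r g).map (Ideal.Quotient.mkₐ 𝒪 (maximalIdeal A ^ n))) := by
        intro n hn
        haveI := FA_S53_isLocalRing_quot (maximalIdeal A ^ n) (FA_S53_pow_ne_top n hn)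
        exact (HQ' n hn).2.2
      refine ⟨?_, ?_, ?_⟩
      · apply FA_S53_Glue_eq_zero_of_forall_mem_pow
        intro n hn
        have := (key n hn).1
        rw [FA_S53_lin_map] at this
        exact this
      · apply FA_S53_Glue_eq_zero_of_forall_mem_pow
        intro n hn
        have := (key n hn).2.1
        rw [FA_S53_lin_map] at this
        exact this
      · rw [← sub_eq_zero]
        apply FA_S53_Glue_eq_zero_of_forall_mem_pow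
        intro n hn
        have := (key n hn).2.2
        rw [FA_S53_lin_map] at this
        rw [map_sub, map_one, sub_eq_zero]
        exact this
    refine ⟨r, hr, rfl, hl, hnorm, ?_⟩
    rw [h𝒟.iff_forall_surjective hloc hsurj]
    intro B _ _ _ hB q hq hqs
    have hr' := FA_S53_isAdicContMat_mapMat (q : A →+* B) hq r hr
    have hmem := H hB q hq hqs
    have := (FA_S53_entries_mem_N_iff (𝒟 := 𝒟) (Γ := Γ) (FA_S53_mapMat (q : A →+* B) r) hr').1 hmem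
    exact h𝒟.of_isEquiv hB
      (FA_S53_Glue_isEquiv_symm (FA_S53_ofMatrix_baseChangeAlong (q : A →+* B) hq r hr hr'))
      this.2.2

end Complete

/-! ## The slice axioms -/

section Slice

variable {𝒪 : Type} [CommRing 𝒪] [IsLocalRing 𝒪]
  {𝒟 : ∀ ⦃A : Type⦄ [CommRing A] [IsLocalRing A] [Algebra 𝒪 A], GaloisRepAdic A → Prop}
  {c : Γℚ → Matrix (Fin 2) (Fin 2) 𝒪} (Γ : FA_S53_Gauge c)

/-- The functor of normalised `𝒟`-lifts satisfies the slice axioms (the finiteness of the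
tangent space is taken as a hypothesis here). -/
theorem FA_S53_Glue_isSlice [Finite (ResidueField 𝒪)]
    (h𝒟 : GaloisRep.IsDeformationCondition 𝒪 𝒟)
    (ρbar : ResidualGaloisRep (ResidueField 𝒪))
    (bbar : Module.Basis (Fin 2) (ResidueField 𝒪) ρbar.V)
    (hc : ∀ σ i j, residue 𝒪 (c σ i j) = FA_S53_matOfRes ρbar bbar σ i j)
    (hbar : 𝒟 (GaloisRepAdic.ofResidualGaloisRep ρbar))
    (htan : letI := FA_S53_algDual 𝒪
      (FA_S53_N 𝒪 𝒟 c Γ (DualNumber (ResidueField 𝒪))).Finite) :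
    FA_S53_IsSlice 𝒪 FA_S53_X (FA_S53_N 𝒪 𝒟 c Γ) (FA_S53_f₀ ρbar bbar) where
  map := fun A B _ _ _ _ _ _ hA hB φ hφ f hf => FA_S53_Glue_N_map Γ h𝒟 hA hB φ hφ f hf
  desc := fun A B₁ B₂ _ _ _ _ _ _ _ _ _ hA h₁ h₂ φ₁ φ₂ hφ₁ hφ₂ hinj f hf₁ hf₂ =>
    FA_S53_Glue_N_desc Γ h𝒟 hA h₁ h₂ φ₁ φ₂ hφ₁ hφ₂ hinj f hf₁ hf₂
  base := FA_S53_Glue_N_base Γ h𝒟 ρbar bbar hc hbar
  res := fun A _ _ _ hA f hf x a ha =>
    FA_S53_Glue_N_res Γ (fun σ => FA_S53_matOfRes ρbar bbar σ) hc hA f hf x a ha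
  tangent := htan
  complete := fun A _ _ _ _ _ hloc hsurj f => FA_S53_Glue_N_complete Γ h𝒟 hloc hsurj f

end Slice

end Fermat.Agent.S53
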