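import Mathlib
import Fermat.Agent.S53.Interface
import Fermat.Agent.S53.Bridge
import Fermat.Agent.S53.SliceDef

/-!
# S53 glue: the `tangent` axiom of `FA_S53_IsSlice`

`N(k[ε])` is finite: it injects into the (finite, by `TangentFinite`) set of equivalence classes
of `𝒟`-deformations to the dual numbers.
-/

set_option autoImplicit false
set_option linter.style.haveILetI false

open IsLocalRing

namespace Fermat.Agent.S53

local notation "Γℚ" => (AlgebraicClosure ℚ ≃ₐ[ℚ] AlgebraicClosure ℚ)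

section dual

variable (𝒪 : Type) [CommRing 𝒪] [IsLocalRing 𝒪]

/-- `k → k[ε]` is a local homomorphism. -/
theorem FA_S53_isLocalHom_inl (k : Type) [Field k] :
    IsLocalHom (algebraMap k (DualNumber k)) := by
  refine ⟨fun a ha => ?_⟩
  by_contra h
  have h0 : a = 0 := by
    by_contra hne
    exact h (isUnit_iff_ne_zero.mpr hne)
  rw [h0, map_zero] at ha
  exact not_isUnit_zero ha

/-- The structure map `𝒪 → k[ε]` is a local homomorphism. -/
theorem FA_S53_isLocalHom_algDual :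
    letI := FA_S53_algDual 𝒪
    IsLocalHom (algebraMap 𝒪 (DualNumber (ResidueField 𝒪))) := by
  letI := FA_S53_algDual 𝒪
  have h1 : IsLocalHom (algebraMap (ResidueField 𝒪) (DualNumber (ResidueField 𝒪))) :=
    FA_S53_isLocalHom_inl _
  have h2 : IsLocalHom (algebraMap 𝒪 (ResidueField 𝒪)) := by
    have : algebraMap 𝒪 (ResidueField 𝒪) = residue 𝒪 := rfl
    rw [this]
    infer_instance
  exact @RingHom.isLocalHom_comp _ _ _ _ _ _ _ _ h1 h2

/-- The dual numbers over the residue field are an Artinian test algebra. -/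
theorem FA_S53_testAlg_dualNumber [Finite (ResidueField 𝒪)] :
    letI := FA_S53_algDual 𝒪
    GaloisRep.IsArtinianTestAlgebra 𝒪 (DualNumber (ResidueField 𝒪)) := by
  letI := FA_S53_algDual 𝒪
  refine ⟨FA_S53_isLocalHom_algDual 𝒪, ?_, ?_⟩
  · intro x
    obtain ⟨y, rfl⟩ := IsLocalRing.residue_surjective x
    obtain ⟨z, hz⟩ := IsLocalRing.residue_surjective (TrivSqZeroExt.fst y)
    refine ⟨z, ?_⟩
    show residue _ (algebraMap (ResidueField 𝒪) (DualNumber (ResidueField 𝒪)) (residue 𝒪 z))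
      = residue _ y
    rw [hz, ← sub_eq_zero, ← map_sub, residue_eq_zero_iff, mem_maximalIdeal, mem_nonunits_iff,
      TrivSqZeroExt.isUnit_iff_isUnit_fst]
    have h0 : TrivSqZeroExt.fst ((algebraMap (ResidueField 𝒪) (DualNumber (ResidueField 𝒪)))
        (TrivSqZeroExt.fst y) - y) = 0 := by
      rw [TrivSqZeroExt.fst_sub, TrivSqZeroExt.algebraMap_eq_inl, TrivSqZeroExt.fst_inl, sub_self]
    rw [h0]
    exact not_isUnit_zero
  · haveI : Finite (DualNumber (ResidueField 𝒪)) :=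
      inferInstanceAs (Finite (ResidueField 𝒪 × ResidueField 𝒪))
    infer_instance

end dual

section tangent

variable {𝒪 : Type} [CommRing 𝒪] [IsLocalRing 𝒪]

/-- (T) The tangent axiom: `N(k[ε])` is finite. -/
theorem FA_S53_tangent (ρbar : ResidualGaloisRep (ResidueField 𝒪))
    (𝒟 : ∀ ⦃A : Type⦄ [CommRing A] [IsLocalRing A] [Algebra 𝒪 A], GaloisRepAdic A → Prop)
    (bbar : Module.Basis (Fin 2) (ResidueField 𝒪) ρbar.V)
    (c : Γℚ → Matrix (Fin 2) (Fin 2) 𝒪)
    (hc : ∀ σ i j, residue 𝒪 (c σ i j) = FA_S53_matOfRes ρbar bbar σ i j)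
    (Γ : FA_S53_Gauge c)
    (hfin : GaloisRep.TangentFinite 𝒪 ρbar 𝒟) :
    letI := FA_S53_algDual 𝒪
    (FA_S53_N 𝒪 𝒟 c Γ (DualNumber (ResidueField 𝒪))).Finite := by
  classical
  letI := FA_S53_algDual 𝒪
  letI : Algebra (ResidueField 𝒪) (ResidueField (DualNumber (ResidueField 𝒪))) :=
    ((IsLocalRing.residue (DualNumber (ResidueField 𝒪))).comp
      (algebraMap (ResidueField 𝒪) (DualNumber (ResidueField 𝒪)))).toAlgebra
  haveI : IsLocalHom (algebraMap 𝒪 (DualNumber (ResidueField 𝒪))) := FA_S53_isLocalHom_algDual 𝒪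
  let s : Setoid {ρ : GaloisRepAdic (DualNumber (ResidueField 𝒪)) //
      𝒟 ρ ∧ ρ.residual.IsEquiv
        (ρbar.baseChange (ResidueField (DualNumber (ResidueField 𝒪))))} :=
    ⟨fun ρ ρ' => ρ.1.IsEquiv ρ'.1, ⟨fun ρ => ⟨GaloisRepAdic.Equiv.refl ρ.1⟩,
        fun ⟨e⟩ => ⟨e.symm⟩, fun ⟨e⟩ ⟨e'⟩ => ⟨e.trans e'⟩⟩⟩
  have hfin' : Finite (Quotient s) := hfin
  rw [← Set.finite_coe_iff]
  -- choose the data of each point
  have hdata : ∀ f : ↥(FA_S53_N 𝒪 𝒟 c Γ (DualNumber (ResidueField 𝒪))),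
      ∃ (r : Γℚ →* Matrix (Fin 2) (Fin 2) (DualNumber (ResidueField 𝒪)))
        (hr : FA_S53_IsAdicContMat r),
        f.1 = FA_S53_entries r ∧ FA_S53_IsLift c r ∧ FA_S53_Normalized Γ r ∧
          𝒟 (FA_S53_ofMatrix r hr) := fun f => f.2
  choose r hr hfr hl hn hD using hdata
  -- residual equivalence
  have hres : ∀ f, (FA_S53_ofMatrix (r f) (hr f)).residual.IsEquiv
      (ρbar.baseChange (ResidueField (DualNumber (ResidueField 𝒪)))) := by
    intro f
    refine FA_S53_ofMatrix_residual_isEquiv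
      ((IsLocalRing.residue (DualNumber (ResidueField 𝒪))).comp
        (algebraMap (ResidueField 𝒪) (DualNumber (ResidueField 𝒪)))) ρbar bbar (r f) (hr f) ?_
    intro σ i j
    have h1 := hl f σ i j
    rw [← residue_eq_zero_iff, map_sub, sub_eq_zero] at h1
    rw [h1, ← hc]
    rfl
  refine Finite.of_injective (β := Quotient s) (fun f => Quotient.mk s
    ⟨FA_S53_ofMatrix (r f) (hr f), hD f, hres f⟩) ?_
  intro f f' hff'
  have hequiv : (FA_S53_ofMatrix (r f) (hr f)).IsEquiv (FA_S53_ofMatrix (r f') (hr f')) :=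
    Quotient.exact hff'
  have hrr : r f = r f' :=
    FA_S53_bridge_unique Γ (r f) (r f') (hr f) (hr f') (hl f) (hl f') (hn f) (hn f') hequiv
  apply Subtype.ext
  rw [hfr f, hfr f', hrr]

end tangent

end Fermat.Agent.S53
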